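import Fermat.Agent.P2.Sys.LocRel
import Fermat.Agent.P2.Flat2.Final
import Fermat.Agent.DR.OrdAll.Main

/-!
# P2, block 5b-ii: the inputs of `LocRel` at the prime `2`
-/

set_option autoImplicit false
set_option linter.style.haveILetI false

open IsLocalRing Polynomial ModularCurve CongruenceSubgroup

noncomputable section

namespace Fermat.Agent.P2.Sys.LocRel

open Sel

/-- `2`-newness (helper37) -/
theorem inKill {S : Finset ℕ} {a : ℕ → ℤ} (D : GalData S a) (hS : ∀ q ∈ S, q.Prime) (h2 : 2 ∈ S) :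
    InKill S a := by
  intro M _ hM S' hSS' hMS
  exact Flat2.exists_kill D hS h2 hM hSS' hMS

/-- the Steinberg relation at `2` (helper19) -/
theorem inTwo : InTwo := by
  intro M _ S 𝒪 _ _ _ _ _ _ h2 hM hNS hMS π ρ hatt hirr t ht hπt hns
  haveI : Fact (Nat.Prime 2) := ⟨Nat.prime_two⟩
  obtain ⟨A, hA, τ, hτ, hne⟩ := hns
  exact DR.OrdAll.exists_stRel_of_new (p := 2) h2 hM hNS hMS π ρ
    (fun ℓ hℓ hℓN hℓS A hA σ hσ => hatt ℓ hℓ hℓN hℓS (Finset.notMem_empty _) A hA σ hσ)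
    hirr t ht hπt (Or.inr ⟨A, hA, DR.OrdAll.nonScalarInertia_two hτ hne⟩)

end Fermat.Agent.P2.Sys.LocRel
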