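import Fermat.Agent.P2.Sys.LocRel
import Fermat.Agent.P2.LocQ.Full

/-!
# P2, block 5b-ii: the inputs of `LocRel` at the odd primes
-/

set_option autoImplicit false
set_option linter.style.haveILetI false

open IsLocalRing Polynomial ModularCurve CongruenceSubgroup

noncomputable section

namespace Fermat.Agent.P2.Sys.LocRel

open Sel

/-- the ramified case (helper95) -/
theorem inRam : InRam := by
  intro N _ p q hp hq hqp hqN hqN2 S0 S hS0 𝒪 _ _ _ _ _ hp𝒪 χ ρ hatt hram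
  exact LocQ.exists_stRel_of_ramified hp hq hqp hqN hqN2 hS0 hp𝒪 χ ρ
    (fun ℓ hℓ hℓN hℓ0 hℓS A hA σ hσ => hatt ℓ hℓ hℓN hℓ0 hℓS A hA σ hσ) hram

/-- the case `U_q ↦ ± 1` (helper95), from the full support theorem -/
theorem inU_of (hfull : ∀ (N : ℕ) [NeZero N], LocQ.FullSupport N) : InU := by
  intro N _ p q hp hq hqp hqN hqN2 S0 S hS0 𝒪 _ _ _ _ _ hp𝒪 χ ρ hatt hq0 he P hP
  exact LocQ.stRel_of_U_of_full (hfull N) hp hq hqp hqN hqN2 hq0 hS0 hp𝒪 χ ρ
    (fun ℓ hℓ hℓN hℓ0 hℓS A hA σ hσ => hatt ℓ hℓ hℓN hℓ0 hℓS A hA σ hσ) he hP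

/-- the case `U_q ↦ ± 1`, unconditionally -/
theorem inU : InU := inU_of fun N _ => LocQ.fullSupport N

end Fermat.Agent.P2.Sys.LocRel
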