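import Fermat.Agent.P2.Sys.CompWire
import Fermat.Agent.P2.Sys.LocIn
import Fermat.Agent.P2.Sys.LocInQ
import Fermat.Agent.S30

/-!
# The component theorem, unconditionally (P2 block 5b-ii)
-/

set_option autoImplicit false

namespace Fermat.Agent.P2.Sys

theorem compStmt {S : Finset ℕ} {a : ℕ → ℤ} (D : GalData S a) {Q : Finset ℕ}
    [NeZero (lev S Q)] {ε : ℕ → ℤ}
    (hS : ∀ q ∈ S, q.Prime) (h2 : 2 ∈ S) (hQ : ∀ q ∈ Q, q.Prime ∧ q ∉ S)
    (hε : ∀ q, ε q = 1 ∨ ε q = -1) : CompStmt D (lev S Q) Q ε :=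
  compStmt_lev D Fermat.Agent.S30.result LocRel.inU LocRel.inRam LocRel.inTwo
    (LocRel.inKill D hS h2) hS h2 hQ hε

end Fermat.Agent.P2.Sys
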