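import Fermat.Agent.P2.Defs
import Fermat.Agent.Petersson.Reduced
import Fermat.Agent.IntStr.Main

/-!
# The anemic Hecke ring of `signForms` (P2 block 5b-ii)

`TT M Q ε = anem M ⧸ annForms M Q ε` is finite and torsion free over `ℤ` and reduced; the
characters of `heckeAlgebra M 2 S₀` attached to it (`exists_hom`).
-/

set_option autoImplicit false

noncomputable section

open ModularCurve CongruenceSubgroup

namespace Fermat.Agent.P2.Sys

variable (M : ℕ) [NeZero M] (Q : Finset ℕ) (ε : ℕ → ℤ)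

/-- the action of a Hecke operator on forms -/
abbrev act (x : HeckeAlg) : Module.End ℂ (CuspForm (Gamma0 M) 2) :=
  ((CuspForm.heckeEvalForms M 2 x : CuspForm.heckeAlgebra M 2 ∅) :
    Module.End ℂ (CuspForm (Gamma0 M) 2))

/-- The Hecke ring. -/
def TT : Type := anem M ⧸ annForms M Q ε

instance instCommRingTT : CommRing (TT M Q ε) :=
  inferInstanceAs (CommRing (anem M ⧸ annForms M Q ε))

/-- the projection -/
def mkTT : anem M →+* TT M Q ε := Ideal.Quotient.mk (annForms M Q ε)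

variable {M Q ε}

theorem mkTT_surjective : Function.Surjective (mkTT M Q ε) := Ideal.Quotient.mk_surjective

theorem mkTT_eq_zero {x : anem M} : mkTT M Q ε x = 0 ↔ x ∈ annForms M Q ε :=
  Ideal.Quotient.eq_zero_iff_mem

theorem mkTT_eq {x y : anem M} : mkTT M Q ε x = mkTT M Q ε y ↔ x - y ∈ annForms M Q ε :=
  Ideal.Quotient.eq

theorem act_mul (x y : HeckeAlg) (f : CuspForm (Gamma0 M) 2) :
    act M (x * y) f = act M x (act M y f) := by
  rw [act, map_mul]; rfl

theorem act_add (x y : HeckeAlg) (f : CuspForm (Gamma0 M) 2) :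
    act M (x + y) f = act M x f + act M y f := by
  rw [act, map_add]; rfl

theorem act_sub (x y : HeckeAlg) (f : CuspForm (Gamma0 M) 2) :
    act M (x - y) f = act M x f - act M y f := by
  rw [act, map_sub]; rfl

theorem act_intCast (c : ℤ) (f : CuspForm (Gamma0 M) 2) :
    act M (c : HeckeAlg) f = (c : ℂ) • f := by
  rw [act, map_intCast, Int.cast_smul_eq_zsmul]
  change ((c : CuspForm.heckeAlgebra M 2 ∅) : Module.End ℂ (CuspForm (Gamma0 M) 2)) f = c • f
  have h : ((c : CuspForm.heckeAlgebra M 2 ∅) : Module.End ℂ (CuspForm (Gamma0 M) 2)) =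
      (c : Module.End ℂ (CuspForm (Gamma0 M) 2)) := rfl
  rw [h]
  exact Module.End.intCast_apply c f

theorem act_comm (x y : HeckeAlg) (f : CuspForm (Gamma0 M) 2) :
    act M x (act M y f) = act M y (act M x f) := by
  rw [← act_mul, mul_comm, act_mul]

theorem act_mem {f : CuspForm (Gamma0 M) 2} (hf : f ∈ signForms M Q ε) (x : HeckeAlg) :
    act M x f ∈ signForms M Q ε := by
  refine ⟨fun q hq => ?_, ?_⟩
  · have h := hf.1 q hq
    change act M (heckeGen q) (act M x f) = (ε q : ℂ) • act M x f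
    rw [act_comm]
    change act M x (act M (heckeGen q) f) = (ε q : ℂ) • act M x f
    have h' : act M (heckeGen q) f = (ε q : ℂ) • f := h
    rw [h', map_smul]
  · have h := hf.2
    change act M (heckeGen ⟨2, Nat.prime_two⟩ * heckeGen ⟨2, Nat.prime_two⟩) (act M x f) =
      act M x f
    rw [act_comm]
    change act M x (act M (heckeGen ⟨2, Nat.prime_two⟩ * heckeGen ⟨2, Nat.prime_two⟩) f) =
      act M x f
    have h' : act M (heckeGen ⟨2, Nat.prime_two⟩ * heckeGen ⟨2, Nat.prime_two⟩) f = f := h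
    rw [h']

theorem mem_annForms {x : anem M} : x ∈ annForms M Q ε ↔ ∀ f ∈ signForms M Q ε, act M x f = 0 :=
  Iff.rfl

theorem act_mem_heckeAlgebra {S : Set ℕ} (hS : ∀ ℓ : ℕ, ℓ.Prime → ¬ ℓ ∣ M → ℓ ∉ S) {x : HeckeAlg}
    (hx : x ∈ anem M) : act M x ∈ CuspForm.heckeAlgebra M 2 S := by
  induction hx using Algebra.adjoin_induction with
  | mem x hx =>
    obtain ⟨ℓ, hℓ, rfl⟩ := hx
    rw [act, CuspForm.heckeEvalForms_heckeGen_of_not_dvd hℓ]
    exact CuspForm.heckeTLin_mem_heckeAlgebra ℓ.2 hℓ (hS ℓ ℓ.2 hℓ)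
  | algebraMap r =>
    have h : act M (algebraMap ℤ HeckeAlg r) =
        algebraMap ℤ (Module.End ℂ (CuspForm (Gamma0 M) 2)) r := by
      rw [act, MvPolynomial.algebraMap_eq, CuspForm.heckeEvalForms_C]
      rfl
    rw [h]
    exact Subalgebra.algebraMap_mem _ r
  | add x y _ _ hx hy =>
    have h : act M (x + y) = act M x + act M y := by rw [act, map_add]; rfl
    rw [h]; exact Subalgebra.add_mem _ hx hy
  | mul x y _ _ hx hy =>
    have h : act M (x * y) = act M x * act M y := by rw [act, map_mul]; rfl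
    rw [h]; exact Subalgebra.mul_mem _ hx hy

theorem isReduced_TT : IsReduced (TT M Q ε) := by
  rw [isReduced_iff_pow_one_lt 2 one_lt_two]
  intro y hy
  obtain ⟨x, rfl⟩ := mkTT_surjective y
  rw [← map_pow, mkTT_eq_zero, mem_annForms] at hy
  rw [mkTT_eq_zero, mem_annForms]
  intro f hf
  have hx : act M x ∈ CuspForm.heckeAlgebra M 2 {q | q ∣ M} :=
    act_mem_heckeAlgebra (fun ℓ _ h => h) x.2
  refine Petersson.eq_zero_of_petN_self ?_
  rw [Petersson.petN_heckeAlgebra (fun q _ h => h) hx, ← act_mul]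
  have h := hy f hf
  rw [SubmonoidClass.coe_pow, pow_two] at h
  rw [h]
  exact Petersson.petN_zero_right f

theorem isTorsionFree_TT : Module.IsTorsionFree ℤ (TT M Q ε) := by
  refine Module.IsTorsionFree.of_smul_eq_zero fun n y h => ?_
  obtain ⟨x, rfl⟩ := mkTT_surjective y
  by_cases hn : n = 0
  · exact Or.inl hn
  refine Or.inr ?_
  rw [zsmul_eq_mul, ← map_intCast (mkTT M Q ε), ← map_mul,
    mkTT_eq_zero, mem_annForms] at h
  rw [mkTT_eq_zero, mem_annForms]
  intro f hf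
  have h1 := h f hf
  have h2 : ((n : anem M) : HeckeAlg) = (n : HeckeAlg) := rfl
  rw [MulMemClass.coe_mul, h2, act_mul, act_intCast] at h1
  exact (smul_eq_zero.mp h1).resolve_left (Int.cast_ne_zero.mpr hn)

theorem finite_TT : Module.Finite ℤ (TT M Q ε) := by
  have hfin : Module.Finite ℤ (CuspForm.heckeAlgebra M 2 ∅) :=
    IntStr.moduleFinite_heckeAlgebra M 2 ∅
  have hnoeth : IsNoetherian ℤ (CuspForm.heckeAlgebra M 2 ∅) := isNoetherian_of_isNoetherianRing_of_finite ℤ _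
  let φ : anem M →ₐ[ℤ] CuspForm.heckeAlgebra M 2 ∅ :=
    ((CuspForm.heckeEvalForms M 2).toIntAlgHom).comp (anem M).val
  have hR : Module.Finite ℤ φ.range := Module.IsNoetherian.finite ℤ (Subalgebra.toSubmodule φ.range)
  have hker : RingHom.ker φ.rangeRestrict ≤ annForms M Q ε := by
    intro x hx
    have h1 : CuspForm.heckeEvalForms M 2 (x : HeckeAlg) = 0 := congrArg Subtype.val hx
    rw [mem_annForms]
    intro f _
    rw [act, h1]
    rfl
  let e : φ.range →+* TT M Q ε :=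
    RingHom.liftOfSurjective (φ.rangeRestrict : anem M →+* φ.range)
      (AlgHom.rangeRestrict_surjective φ) ⟨mkTT M Q ε, fun x hx => by
        rw [RingHom.mem_ker, mkTT_eq_zero]
        exact hker hx⟩
  have he : Function.Surjective e := by
    intro y
    obtain ⟨x, rfl⟩ := mkTT_surjective y
    refine ⟨φ.rangeRestrict x, ?_⟩
    exact RingHom.liftOfRightInverse_comp_apply _ _ _ _ _
  exact Module.Finite.of_surjective e.toIntAlgHom.toLinearMap he

/-- the class of `t_ℓ` -/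
def tgen (M : ℕ) [NeZero M] (Q : Finset ℕ) (ε : ℕ → ℤ) (ℓ : Nat.Primes) (hℓ : ¬ (ℓ : ℕ) ∣ M) :
    TT M Q ε :=
  mkTT M Q ε ⟨heckeGen ℓ, Algebra.subset_adjoin ⟨ℓ, hℓ, rfl⟩⟩

/-- Every element of the Hecke algebra away from `S₀` acts on `signForms` through `anem M`. -/
theorem exists_anem {S₀ : Set ℕ} (hS : ∀ q : ℕ, q.Prime → q ∣ M → q ∈ S₀ ∨ q ∈ Q)
    {u : Module.End ℂ (CuspForm (Gamma0 M) 2)} (hu : u ∈ CuspForm.heckeAlgebra M 2 S₀) :
    ∃ x : anem M, ∀ f ∈ signForms M Q ε, u f = act M x f := by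
  induction hu using Algebra.adjoin_induction with
  | mem u hu =>
    rcases hu with ⟨ℓ, hℓ, hℓN, -, rfl⟩ | ⟨q, hqN, hq, hqS, rfl⟩
    · refine ⟨⟨heckeGen ⟨ℓ, hℓ⟩, Algebra.subset_adjoin ⟨⟨ℓ, hℓ⟩, hℓN, rfl⟩⟩, fun f _ => ?_⟩
      change _ = act M (heckeGen ⟨ℓ, hℓ⟩) f
      rw [act, CuspForm.heckeEvalForms_heckeGen_of_not_dvd (ℓ := ⟨ℓ, hℓ⟩) hℓN]
      rfl
    · refine ⟨(ε q : anem M), fun f hf => ?_⟩
      have h1 := hf.1 ⟨q, hq⟩ ((hS q hq hqN).resolve_left hqS)
      rw [CuspForm.heckeEvalForms_heckeGen_of_dvd (q := ⟨q, hq⟩) hqN] at h1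
      have h2 : ((ε q : anem M) : HeckeAlg) = (ε q : HeckeAlg) := rfl
      rw [h2, act_intCast]
      exact h1
  | algebraMap r =>
    refine ⟨(r : anem M), fun f _ => ?_⟩
    have h2 : ((r : anem M) : HeckeAlg) = (r : HeckeAlg) := rfl
    rw [h2, act_intCast, Int.cast_smul_eq_zsmul]
    rfl
  | add u v _ _ hu hv =>
    obtain ⟨x, hx⟩ := hu
    obtain ⟨y, hy⟩ := hv
    refine ⟨x + y, fun f hf => ?_⟩
    rw [AddMemClass.coe_add, act_add, LinearMap.add_apply, hx f hf, hy f hf]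
  | mul u v _ _ hu hv =>
    obtain ⟨x, hx⟩ := hu
    obtain ⟨y, hy⟩ := hv
    refine ⟨x * y, fun f hf => ?_⟩
    rw [MulMemClass.coe_mul, act_mul, Module.End.mul_apply, hy f hf, hx _ (act_mem hf y)]

/-- **The Hecke algebra maps to `TT`**: `T_ℓ ↦ t_ℓ`, `U_q ↦ ε_q`. -/
theorem exists_hom {S₀ : Set ℕ} (hS : ∀ q : ℕ, q.Prime → q ∣ M → q ∈ S₀ ∨ q ∈ Q) :
    ∃ j : CuspForm.heckeAlgebra M 2 S₀ →+* TT M Q ε,
      (∀ (ℓ : ℕ) (hℓ : ℓ.Prime) (hℓM : ¬ ℓ ∣ M) (hℓS : ℓ ∉ S₀),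
        j (CuspForm.heckeAlgebra.T hℓ hℓM hℓS) = tgen M Q ε ⟨ℓ, hℓ⟩ hℓM) ∧
      (∀ (q : ℕ) (hq : q.Prime) (hqM : q ∣ M) (hqS : q ∉ S₀),
        j (CuspForm.heckeAlgebra.U hq hqM hqS) = (ε q : TT M Q ε)) := by
  classical
  choose x hx using fun u : CuspForm.heckeAlgebra M 2 S₀ => exists_anem (Q := Q) (ε := ε) hS u.2
  -- uniqueness
  have huniq : ∀ (u : CuspForm.heckeAlgebra M 2 S₀) (y : anem M),
      (∀ f ∈ signForms M Q ε, (u : Module.End ℂ (CuspForm (Gamma0 M) 2)) f = act M y f) →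
      mkTT M Q ε (x u) = mkTT M Q ε y := by
    intro u y hy
    rw [mkTT_eq, mem_annForms]
    intro f hf
    rw [AddSubgroupClass.coe_sub, act_sub, ← hx u f hf, ← hy f hf, sub_self]
  refine ⟨{ toFun := fun u => mkTT M Q ε (x u)
            map_one' := ?_
            map_mul' := fun u v => ?_
            map_zero' := ?_
            map_add' := fun u v => ?_ }, fun ℓ hℓ hℓM hℓS => ?_, fun q hq hqM hqS => ?_⟩
  · rw [huniq 1 1 fun f _ => ?_, map_one]
    rw [OneMemClass.coe_one, OneMemClass.coe_one, act, map_one]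
    rfl
  · rw [← map_mul]
    refine huniq _ _ fun f hf => ?_
    rw [MulMemClass.coe_mul, MulMemClass.coe_mul, act_mul, Module.End.mul_apply, hx v f hf,
      hx u _ (act_mem hf _)]
  · rw [huniq 0 0 fun f _ => ?_, map_zero]
    rw [ZeroMemClass.coe_zero, ZeroMemClass.coe_zero, act, map_zero]
    rfl
  · rw [← map_add]
    refine huniq _ _ fun f hf => ?_
    rw [AddMemClass.coe_add, AddMemClass.coe_add, act_add, LinearMap.add_apply, hx v f hf,
      hx u f hf]
  · refine huniq _ _ fun f _ => ?_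
    change _ = act M (heckeGen ⟨ℓ, hℓ⟩) f
    rw [act, CuspForm.heckeEvalForms_heckeGen_of_not_dvd (ℓ := ⟨ℓ, hℓ⟩) hℓM]
    rfl
  · change mkTT M Q ε _ = _
    rw [← map_intCast (mkTT M Q ε)]
    refine huniq _ _ fun f hf => ?_
    have h1 := hf.1 ⟨q, hq⟩ ((hS q hq hqM).resolve_left hqS)
    rw [CuspForm.heckeEvalForms_heckeGen_of_dvd (q := ⟨q, hq⟩) hqM] at h1
    have h2 : ((ε q : anem M) : HeckeAlg) = (ε q : HeckeAlg) := rfl
    rw [h2, act_intCast]
    exact h1

/-- `TT` is generated by the `t_ℓ`. -/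
theorem adjoin_tgen : Algebra.adjoin ℤ
    {y : TT M Q ε | ∃ (ℓ : Nat.Primes) (hℓ : ¬ (ℓ : ℕ) ∣ M), y = tgen M Q ε ℓ hℓ} = ⊤ := by
  rw [eq_top_iff]
  rintro y -
  obtain ⟨⟨x, hx⟩, rfl⟩ := mkTT_surjective y
  induction hx using Algebra.adjoin_induction with
  | mem x hx =>
    obtain ⟨ℓ, hℓ, rfl⟩ := hx
    exact Algebra.subset_adjoin ⟨ℓ, hℓ, rfl⟩
  | algebraMap r => exact Subalgebra.algebraMap_mem _ r
  | add x y hx' hy' hx hy => exact Subalgebra.add_mem _ hx hy
  | mul x y hx' hy' hx hy => exact Subalgebra.mul_mem _ hx hy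

end Fermat.Agent.P2.Sys
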