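import Fermat.Agent.P2.B34.Main
import Fermat.Agent.P2.RT.PsiAux
import Fermat.Agent.P2.Sys.Red

/-!
# P2, block 5b-ii: the homomorphism `TT → F₄[Cl₂]` from `Block34Out`

* `exists_phiTT` : a ring homomorphism `Φ : TT (lev S Q) Q ε → F₄[Cl₂]` with
  `Φ (mkTT x) = β (clHecke x)`, `Φ t_ℓ = β (clT ℓ)`;
* the values at Frobenius elements;
* `F[C]` is a local ring; the structure map `zmap : ℤ₂ → F[C]` is local.
-/

set_option autoImplicit false
set_option linter.unusedSectionVars false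
set_option linter.style.haveILetI false

open NumberField

noncomputable section

namespace Fermat.Agent.P2.Sys

open Sel RT ModularCurve CongruenceSubgroup

local notation "Ω" => AlgebraicClosure ℚ

/-! ### The group ring `F[C]` -/

section Local

variable {F C : Type*} [Field F] [CharP F 2] [CommGroup C]

theorem isLocalHom_aug (hC : ∃ m : ℕ, ∀ c : C, c ^ 2 ^ m = 1) :
    IsLocalHom (Dih.aug : MonoidAlgebra F C →+* F) := by
  obtain ⟨m, hm⟩ := hC
  exact ⟨fun x hx => Dih.isUnit_of_aug hm hx.ne_zero⟩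

theorem isLocalRing_groupAlg (hC : ∃ m : ℕ, ∀ c : C, c ^ 2 ^ m = 1) :
    IsLocalRing (MonoidAlgebra F C) := by
  have := isLocalHom_aug (F := F) hC
  exact RingHom.domain_isLocalRing (Dih.aug : MonoidAlgebra F C →+* F)

theorem mem_maximalIdeal_iff_aug (hC : ∃ m : ℕ, ∀ c : C, c ^ 2 ^ m = 1)
    [IsLocalRing (MonoidAlgebra F C)] {x : MonoidAlgebra F C} :
    x ∈ IsLocalRing.maximalIdeal (MonoidAlgebra F C) ↔ Dih.aug x = 0 := by
  have := isLocalHom_aug (F := F) hC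
  rw [IsLocalRing.mem_maximalIdeal, mem_nonunits_iff, not_iff_comm]
  constructor
  · intro h
    exact (isUnit_iff_ne_zero.mpr h).of_map (Dih.aug : MonoidAlgebra F C →+* F)
  · intro h
    exact (h.map (Dih.aug : MonoidAlgebra F C →+* F)).ne_zero

variable (F C) in
/-- the structure map `ℤ₂ → F[C]` -/
def zmap : ℤ_[2] →+* MonoidAlgebra F C :=
  (algebraMap F (MonoidAlgebra F C)).comp
    ((ZMod.castHom (dvd_refl 2) F).comp PadicInt.toZMod)

theorem aug_zmap (x : ℤ_[2]) :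
    Dih.aug (zmap F C x) = ZMod.castHom (dvd_refl 2) F (PadicInt.toZMod x) := by
  change Dih.aug (MonoidAlgebra.single (1 : C) _) = _
  rw [Dih.aug_single]
  rfl

variable (F C) in
theorem isLocalHom_zmap : IsLocalHom (zmap F C) := by
  refine ⟨fun x hx => ?_⟩
  have h1 : ZMod.castHom (dvd_refl 2) F (PadicInt.toZMod x) ≠ 0 := by
    rw [← aug_zmap (C := C)]
    exact (hx.map (Dih.aug : MonoidAlgebra F C →+* F)).ne_zero
  have h2 : PadicInt.toZMod x ≠ 0 := fun h => h1 (by rw [h, map_zero])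
  by_contra h3
  refine h2 ?_
  rw [← RingHom.mem_ker, PadicInt.ker_toZMod]
  exact h3

end Local

/-! ### The homomorphism -/

section Phi

variable {S Q : Finset ℕ} {a : ℕ → ℤ} (D : GalData S a) (hS : ∀ q ∈ S, q.Prime)

/-- `F₄[Cl₂]` is a local ring -/
theorem isLocalRing_LamS (S : Finset ℕ) : IsLocalRing (LamS S) := isLocalRing_groupAlg (Cl2_pow S)

include D in
/-- **`β ∘ clHecke` kills the operators killing `signForms`.** -/
theorem beta_clHecke_eq_zero (h2 : 2 ∈ S) (hrich : Rich S) [NeZero (lev S Q)] {n : ℕ} (hn : n ≠ 0)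
    (hQ : ∀ q ∈ Q, AuxPrime D.ρ S n q) (hQ3 : ∀ q ∈ Q, 3 < q) {ε : ℕ → ℤ}
    (hε : ∀ q, ε q = 1 ∨ ε q = -1) {x : HeckeAlg} (hx : x ∈ anem (lev S Q))
    (hk : Kills (lev S Q) Q ε x) : betaCl D hS (clHecke (KS S) x) = 0 := by
  haveI := isTotallyComplex_KS hS
  have hM : lev S Q ≠ 0 := NeZero.ne _
  have hQ' : ∀ q ∈ Q, q.Prime ∧ q ∉ S := fun q hq => ⟨(hQ q hq).1, (hQ q hq).2.1⟩
  refine B34.block34Out S Q (KS S) (rK S) (finrank_KS hS) (rK_sq S) hS h2 hrich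
    (fun q hq => ⟨(hQ q hq).1, (hQ q hq).2.1, ?_, ?_, ?_⟩) ε hε (LamS S) (betaCl D hS)
    (fun d hd _ => exists_unit_clT_nonsquare (finrank_KS hS) (unr_chi3 D) (exists_chi3_ne_one D)
      (k := 3) (by decide) (chi3_pow_three D)
      (fun ℓ hℓ hS' P hP => inertia_le_KS D hℓ hS' P hP) (psiCl D hS)
      (fun c h => (psiCl_eq_one_iff D hS c).mp h) (kappa S) (Cl2_pow S) (betaCl D hS)
      (betaCl_single D hS) hS h2 (rS_sq S) (fun g h => (mem_KS_iff_fix S g).mpr h) hQ' hM hd)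
    (exists_unit_clT (finrank_KS hS) (unr_chi3 D) (exists_chi3_ne_one D)
      (fun ℓ hℓ hS' P hP => inertia_le_KS D hℓ hS' P hP) (psiCl D hS)
      (fun c h => (psiCl_eq_one_iff D hS c).mp h) (kappa S) (Cl2_pow S) (betaCl D hS)
      (betaCl_single D hS) hM) x hx hk
  · have := hQ3 q hq
    omega
  · have := hQ3 q hq
    omega
  · have := hQ3 q hq
    exact not_isSquare_aux D hS hn (hQ q hq) (by omega)

include D in
/-- **The homomorphism `TT → F₄[Cl₂]`.** -/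
theorem exists_phiTT (h2 : 2 ∈ S) (hrich : Rich S) [NeZero (lev S Q)] {n : ℕ} (hn : n ≠ 0)
    (hQ : ∀ q ∈ Q, AuxPrime D.ρ S n q) (hQ3 : ∀ q ∈ Q, 3 < q) {ε : ℕ → ℤ}
    (hε : ∀ q, ε q = 1 ∨ ε q = -1) :
    ∃ Φ : TT (lev S Q) Q ε →+* LamS S,
      (∀ x : anem (lev S Q), Φ (mkTT (lev S Q) Q ε x) = betaCl D hS (clHecke (KS S) x)) ∧
      ∀ (ℓ : Nat.Primes) (hℓ : ¬ (ℓ : ℕ) ∣ lev S Q),
        Φ (tgen (lev S Q) Q ε ℓ hℓ) = betaCl D hS (clT (KS S) ℓ) := by
  let φ : anem (lev S Q) →+* LamS S :=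
    ((betaCl D hS).comp (clHecke (KS S))).comp (anem (lev S Q)).val.toRingHom
  have hφ : ∀ x ∈ annForms (lev S Q) Q ε, φ x = 0 := fun x hx =>
    beta_clHecke_eq_zero D hS h2 hrich hn hQ hQ3 hε x.2 hx
  have h1 : ∀ x : anem (lev S Q), (Ideal.Quotient.lift (annForms (lev S Q) Q ε) φ hφ :
      TT (lev S Q) Q ε →+* LamS S) (mkTT (lev S Q) Q ε x) =
        betaCl D hS (clHecke (KS S) x) := fun x => Ideal.Quotient.lift_mk _ _ _
  refine ⟨Ideal.Quotient.lift (annForms (lev S Q) Q ε) φ hφ, h1, fun ℓ hℓ => ?_⟩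
  rw [← clHecke_heckeGen]
  exact h1 ⟨heckeGen ℓ, Algebra.subset_adjoin ⟨ℓ, hℓ, rfl⟩⟩

end Phi

end Fermat.Agent.P2.Sys
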