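import Fermat.Agent.P2.Sys.MainOf
import Fermat.Agent.P2.Sys.Phi
import Fermat.Agent.P2.Sys.CompFinal

/-!
# `Block5Out`, unconditionally
-/

set_option autoImplicit false

noncomputable section

open IsLocalRing ModularCurve CongruenceSubgroup NumberField

namespace Fermat.Agent.P2.Sys

open Fermat.Agent.P2.RT Fermat.Agent.P2.Sel

theorem killStmt : KillStmt := by
  intro S a D hS h2 hrich n Q _ hn hQ hQ3 ε hε x hx hk
  exact beta_clHecke_eq_zero D hS h2 hrich (n := n) (by omega) hQ hQ3 hε hx hk

theorem compAll : CompAll := by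
  intro S a D hS h2 _ n Q _ _ hQ _ ε hε
  exact compStmt D hS h2 (fun q hq => ⟨(hQ q hq).1, (hQ q hq).2.1⟩) hε

/-- **Block 5**. -/
theorem block5Out : Block5Out := block5_of Fermat.Agent.S30.result killStmt compAll

end Fermat.Agent.P2.Sys
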