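import Fermat.Agent.P2.Sys.LocalRing
import Fermat.Agent.P2.Sys.Red

/-!
# Counting systems of eigenvalues (P2 block 5b-ii)
-/

set_option autoImplicit false

noncomputable section

open scoped TensorProduct
open IsLocalRing ModularCurve CongruenceSubgroup

namespace Fermat.Agent.P2.Sys

/-- The number of homomorphisms of a finite free algebra to a field is at most its rank. -/
theorem card_algHom_le {𝒪 A L : Type*} [CommRing 𝒪] [Nontrivial 𝒪] [CommRing A] [Algebra 𝒪 A]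
    [Module.Finite 𝒪 A] [Module.Free 𝒪 A] [Field L] [Algebra 𝒪 L] :
    Finite (A →ₐ[𝒪] L) ∧ Nat.card (A →ₐ[𝒪] L) ≤ Module.finrank 𝒪 A := by
  let b := Module.finBasis 𝒪 A
  let v : (A →ₐ[𝒪] L) → (Fin (Module.finrank 𝒪 A) → L) := fun F i => F (b i)
  have hind : LinearIndependent L (fun F : A →ₐ[𝒪] L => (F : A → L)) :=
    (linearIndependent_monoidHom A L).comp (fun F : A →ₐ[𝒪] L => (F : A →* L))
      fun F G h => AlgHom.ext fun x => DFunLike.congr_fun h x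
  have hv : LinearIndependent L v := by
    rw [linearIndependent_iff'] at hind ⊢
    intro s c hc
    refine hind s c ?_
    funext x
    have hx := b.sum_repr x
    rw [← hx]
    simp only [Finset.sum_apply, Pi.smul_apply, Pi.zero_apply, map_sum, smul_eq_mul, map_smul,
      Finset.mul_sum]
    rw [Finset.sum_comm]
    refine Finset.sum_eq_zero fun i _ => ?_
    have h1 := congrFun hc i
    simp only [Finset.sum_apply, Pi.smul_apply, Pi.zero_apply, smul_eq_mul, v] at h1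
    have h2 : ∀ F : A →ₐ[𝒪] L, c F * ((b.repr x) i • F (b i)) =
        (b.repr x) i • (c F * F (b i)) := fun F => by rw [mul_smul_comm]
    simp only [h2]
    rw [← Finset.smul_sum, h1, smul_zero]
  have hfin : Finite (A →ₐ[𝒪] L) := hv.finite
  refine ⟨hfin, ?_⟩
  have := Fintype.ofFinite (A →ₐ[𝒪] L)
  have h := hv.fintype_card_le_finrank
  rwa [Module.finrank_fin_fun, ← Nat.card_eq_fintype_card] at h

/-- `PadicAlgCl 2` as a `ℤ_[2]`-algebra. -/
abbrev algP : Algebra ℤ_[2] (PadicAlgCl 2) :=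
  ((algebraMap ℚ_[2] (PadicAlgCl 2)).comp (algebraMap ℤ_[2] ℚ_[2])).toAlgebra

attribute [local instance] algP

theorem norm_algebraMap (c : ℤ_[2]) : ‖algebraMap ℤ_[2] (PadicAlgCl 2) c‖ = ‖c‖ := by
  have h1 : algebraMap ℤ_[2] (PadicAlgCl 2) c =
      ((algebraMap ℤ_[2] ℚ_[2] c : ℚ_[2]) : PadicAlgCl 2) := rfl
  rw [h1, PadicAlgCl.norm_extends]
  rfl

theorem norm_algebraMap_le_one (c : ℤ_[2]) : ‖algebraMap ℤ_[2] (PadicAlgCl 2) c‖ ≤ 1 := by
  rw [norm_algebraMap]; exact PadicInt.norm_le_one c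

theorem norm_intCast_P_le_one (c : ℤ) : ‖(c : PadicAlgCl 2)‖ ≤ 1 := by
  have h : (c : PadicAlgCl 2) = algebraMap ℤ_[2] (PadicAlgCl 2) (c : ℤ_[2]) := by
    rw [map_intCast]
  rw [h]; exact norm_algebraMap_le_one _

theorem mem_maximalIdeal_iff_norm (c : ℤ_[2]) :
    c ∈ maximalIdeal ℤ_[2] ↔ ‖algebraMap ℤ_[2] (PadicAlgCl 2) c‖ < 1 := by
  rw [norm_algebraMap, mem_maximalIdeal, mem_nonunits_iff, PadicInt.isUnit_iff]
  exact ⟨fun h => lt_of_le_of_ne (PadicInt.norm_le_one c) h, fun h => h.ne⟩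

/-- The kernel condition of `exists_localComponent` from residual congruences. -/
theorem ext_mem {T : Type} [CommRing T] {Λ : Type} [CommRing Λ] [IsLocalRing Λ]
    [Algebra ℤ_[2] Λ] [IsLocalHom (algebraMap ℤ_[2] Λ)] (g : T →+* Λ) (f : T →+* PadicAlgCl 2)
    (n : T → ℤ) (hn : ∀ t, g t - (n t : Λ) ∈ maximalIdeal Λ)
    (hn' : ∀ t, ‖f t - (n t : PadicAlgCl 2)‖ < 1) (z : tens ℤ_[2] T) :
    ∃ c : ℤ_[2], extO ℤ_[2] g z - algebraMap ℤ_[2] Λ c ∈ maximalIdeal Λ ∧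
      ‖extO ℤ_[2] f z - algebraMap ℤ_[2] (PadicAlgCl 2) c‖ < 1 := by
  induction z using TensorProduct.induction_on with
  | zero =>
    refine ⟨0, ?_, ?_⟩
    · rw [map_zero, map_zero, sub_zero]; exact zero_mem _
    · rw [map_zero, map_zero, sub_zero, norm_zero]; exact one_pos
  | tmul a t =>
    refine ⟨a * (n t : ℤ_[2]), ?_, ?_⟩
    · rw [extO_tmul, map_mul, map_intCast, ← mul_sub]
      exact Ideal.mul_mem_left _ _ (hn t)
    · rw [extO_tmul, map_mul, map_intCast, ← mul_sub, norm_mul]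
      calc _ ≤ 1 * ‖f t - (n t : PadicAlgCl 2)‖ :=
            mul_le_mul_of_nonneg_right (norm_algebraMap_le_one a) (norm_nonneg _)
        _ < 1 := by rw [one_mul]; exact hn' t
  | add x y hx hy =>
    obtain ⟨c, hc1, hc2⟩ := hx
    obtain ⟨d, hd1, hd2⟩ := hy
    refine ⟨c + d, ?_, ?_⟩
    · rw [map_add, map_add, add_sub_add_comm]
      exact Ideal.add_mem _ hc1 hd1
    · rw [map_add, map_add, add_sub_add_comm]
      exact lt_of_le_of_lt (IsUltrametricDist.norm_add_le_max _ _) (max_lt hc2 hd2)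

theorem extO_mem_of_eq_zero {T : Type} [CommRing T] {Λ : Type} [CommRing Λ] [IsLocalRing Λ]
    [Algebra ℤ_[2] Λ] [IsLocalHom (algebraMap ℤ_[2] Λ)] (g : T →+* Λ) (f : T →+* PadicAlgCl 2)
    (n : T → ℤ) (hn : ∀ t, g t - (n t : Λ) ∈ maximalIdeal Λ)
    (hn' : ∀ t, ‖f t - (n t : PadicAlgCl 2)‖ < 1) (z : tens ℤ_[2] T)
    (hz : extO ℤ_[2] f z = 0) : extO ℤ_[2] g z ∈ maximalIdeal Λ := by
  obtain ⟨c, hc1, hc2⟩ := ext_mem g f n hn hn' z
  rw [hz, zero_sub, norm_neg, ← mem_maximalIdeal_iff_norm] at hc2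
  have h1 : algebraMap ℤ_[2] Λ c ∈ maximalIdeal Λ := map_nonunit _ _ hc2
  have h2 := Ideal.add_mem _ hc1 h1
  rwa [sub_add_cancel] at h2

/-- Abstract counting: `P` is a property of characters of `T` which are residually `n`. -/
theorem card_le_abs {T : Type} [CommRing T] {Λ : Type} [CommRing Λ] [IsLocalRing Λ]
    [Algebra ℤ_[2] Λ] [IsLocalHom (algebraMap ℤ_[2] Λ)] (g : T →+* Λ)
    (n : T → ℤ) (hn : ∀ t, g t - (n t : Λ) ∈ maximalIdeal Λ)
    (P : (T →+* PadicAlgCl 2) → Prop) (hP : ∀ f, P f → ∀ t, ‖f t - (n t : PadicAlgCl 2)‖ < 1)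
    {A : Type} [CommRing A] [Algebra ℤ_[2] A] [Module.Finite ℤ_[2] A] [Module.Free ℤ_[2] A]
    (π : T →+* A)
    (huniv : ∀ (L : Type) [Field L] [Algebra ℤ_[2] L] (f : T →+* L),
        (∀ z : tens ℤ_[2] T, extO ℤ_[2] f z = 0 → extO ℤ_[2] g z ∈ maximalIdeal Λ) →
        ∃ F : A →ₐ[ℤ_[2]] L, ∀ t, F (π t) = f t) :
    Finite {f // P f} ∧ Nat.card {f // P f} ≤ Module.finrank ℤ_[2] A := by
  have key : ∀ f : {f // P f}, ∃ F : A →ₐ[ℤ_[2]] PadicAlgCl 2, ∀ t, F (π t) = f.1 t := fun f =>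
    huniv (PadicAlgCl 2) f.1 (extO_mem_of_eq_zero g f.1 n hn (hP f.1 f.2))
  choose F hF using key
  obtain ⟨h1, h2⟩ := card_algHom_le (𝒪 := ℤ_[2]) (A := A) (L := PadicAlgCl 2)
  have hinj : Function.Injective F := by
    intro f f' h
    refine Subtype.ext (RingHom.ext fun t => ?_)
    rw [← hF f t, ← hF f' t, h]
  exact ⟨Finite.of_injective F hinj, (Nat.card_le_card_of_injective F hinj).trans h2⟩

section Systems

variable {M : ℕ} [NeZero M] {Q : Finset ℕ} {ε : ℕ → ℤ} {a : ℕ → ℤ}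

/-- a choice of representatives -/
def rep (t : TT M Q ε) : anem M := (mkTT_surjective t).choose

theorem mk_rep (t : TT M Q ε) : mkTT M Q ε (rep t) = t :=
  (mkTT_surjective t).choose_spec

theorem lam_rep_sub (t : TT M Q ε) :
    lam a ((rep t - ((lam a (rep t) : ℤ) : anem M) : anem M) : HeckeAlg) = 0 := by
  have h2 : ((rep t - ((lam a (rep t) : ℤ) : anem M) : anem M) : HeckeAlg) =
      (rep t : HeckeAlg) - ((lam a (rep t) : ℤ) : HeckeAlg) := rfl
  rw [h2, map_sub, map_intCast, Int.cast_id, sub_self]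

theorem norm_sub_lt (f : TT M Q ε →+* PadicAlgCl 2)
    (hf : ∀ x : anem M, ‖f (mkTT M Q ε x)‖ < 1 ↔ Even (lam a x)) (t : TT M Q ε) :
    ‖f t - ((lam a (rep t) : ℤ) : PadicAlgCl 2)‖ < 1 := by
  have h1 := (hf (rep t - ((lam a (rep t) : ℤ) : anem M))).mpr (by
    rw [lam_rep_sub]; exact Even.zero)
  rw [map_sub, map_intCast, mk_rep, map_sub, map_intCast] at h1
  exact h1

/-- **Finiteness of the set of systems.** `A` is the local component of `TT`, cut out by `g`. -/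
theorem systems_card_le {Λ : Type} [CommRing Λ] [IsLocalRing Λ] [Algebra ℤ_[2] Λ]
    [IsLocalHom (algebraMap ℤ_[2] Λ)] (g : TT M Q ε →+* Λ)
    (hg : ∀ x : anem M, g (mkTT M Q ε x) - (lam a x : Λ) ∈ maximalIdeal Λ)
    {A : Type} [CommRing A] [Algebra ℤ_[2] A] [Module.Finite ℤ_[2] A] [Module.Free ℤ_[2] A]
    (π : TT M Q ε →+* A)
    (huniv : ∀ (L : Type) [Field L] [Algebra ℤ_[2] L] (f : TT M Q ε →+* L),
        (∀ z : tens ℤ_[2] (TT M Q ε), extO ℤ_[2] f z = 0 → extO ℤ_[2] g z ∈ maximalIdeal Λ) →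
        ∃ F : A →ₐ[ℤ_[2]] L, ∀ t, F (π t) = f t) :
    Finite (Systems M Q ε a) ∧ Nat.card (Systems M Q ε a) ≤ Module.finrank ℤ_[2] A :=
  card_le_abs g (fun t => lam a (rep t))
    (fun t => by have h := hg (rep t); rwa [mk_rep] at h)
    (fun f => ∀ x : anem M, ‖f (mkTT M Q ε x)‖ < 1 ↔ Even (lam a x))
    (fun f hf t => norm_sub_lt f hf t) π huniv

end Systems

end Fermat.Agent.P2.Sys
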