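import Mathlib
import Fermat.Agent.RT.Reduced
import Fermat.Agent.RT.Components

/-!
# The local component of a Hecke ring (P2 block 5b-ii)

`T` a reduced commutative ring, finite and torsion free over `ℤ`; `𝒪` a complete DVR of
characteristic zero; `g : T → Λ` a ring homomorphism to a local `𝒪`-algebra.  We construct the
local component `A` of `𝒪 ⊗ T` through which `g` factors: it is finite free over `𝒪`, reduced,
local, and generated over `𝒪` by the image of `T`.
-/

set_option autoImplicit false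

noncomputable section

open scoped TensorProduct
open IsLocalRing

namespace Fermat.Agent.P2.Sys

section AtPrime

variable (𝒪 : Type) [CommRing 𝒪] [IsDomain 𝒪] [IsDiscreteValuationRing 𝒪]
  [IsAdicComplete (maximalIdeal 𝒪) 𝒪] {B : Type} [CommRing B] [Algebra 𝒪 B] [Module.Finite 𝒪 B]
  (P : Ideal B) [P.IsMaximal]

theorem finite_atPrime : Module.Finite 𝒪 (Localization.AtPrime P) :=
  (Algebra.finite_maximalSpectrum_and_bijective_localization_of_module_finite
    (𝒪 := 𝒪) B).2.2.1 ⟨P, inferInstance⟩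

include 𝒪 in
theorem surjective_atPrime : Function.Surjective (algebraMap B (Localization.AtPrime P)) := by
  classical
  obtain ⟨-, hbij, -, -⟩ :=
    Algebra.finite_maximalSpectrum_and_bijective_localization_of_module_finite (𝒪 := 𝒪) B
  intro z
  obtain ⟨b, hb⟩ := hbij.2 (Function.update 0 (⟨P, inferInstance⟩ : MaximalSpectrum B) z)
  refine ⟨b, ?_⟩
  have h := congrFun hb (⟨P, inferInstance⟩ : MaximalSpectrum B)
  simp only [Function.update_self] at h
  exact h

theorem isTorsionFree_atPrime [Module.IsTorsionFree 𝒪 B] :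
    Module.IsTorsionFree 𝒪 (Localization.AtPrime P) := by
  classical
  obtain ⟨-, hbij, -, -⟩ :=
    Algebra.finite_maximalSpectrum_and_bijective_localization_of_module_finite (𝒪 := 𝒪) B
  let Φ : B →ₗ[𝒪] ∀ Q : MaximalSpectrum B, Localization.AtPrime Q.asIdeal :=
    { toFun := fun a Q => algebraMap B (Localization.AtPrime Q.asIdeal) a
      map_add' := fun a b => funext fun Q => map_add _ a b
      map_smul' := fun c a => funext fun Q => by
        simp only [RingHom.id_apply, Pi.smul_apply, Algebra.smul_def, map_mul,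
          ← IsScalarTower.algebraMap_apply] }
  have hΦ : Function.Bijective Φ := hbij
  let P' : MaximalSpectrum B := ⟨P, inferInstance⟩
  have hsingle : Function.Injective
      (Pi.single (M := fun Q : MaximalSpectrum B => Localization.AtPrime Q.asIdeal) P') := by
    intro x y hxy
    have h := congrFun hxy P'
    simpa using h
  let e := LinearEquiv.ofBijective Φ hΦ
  let g : Localization.AtPrime P →ₗ[𝒪] B :=
    e.symm.toLinearMap ∘ₗ
      LinearMap.single 𝒪 (fun Q : MaximalSpectrum B => Localization.AtPrime Q.asIdeal) P'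
  have hginj : Function.Injective g := e.symm.injective.comp hsingle
  exact Function.Injective.moduleIsTorsionFree (⇑g) hginj fun r m => map_smul g r m

theorem free_atPrime [Module.IsTorsionFree 𝒪 B] : Module.Free 𝒪 (Localization.AtPrime P) := by
  have := finite_atPrime 𝒪 P
  have := isTorsionFree_atPrime 𝒪 P
  exact Module.free_of_finite_type_torsion_free'

end AtPrime

variable (𝒪 : Type) [CommRing 𝒪] [IsDomain 𝒪] [IsDiscreteValuationRing 𝒪]
  [IsAdicComplete (maximalIdeal 𝒪) 𝒪] [CharZero 𝒪]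

/-- the ring `𝒪 ⊗ T` -/
abbrev tens (𝒪 T : Type) [CommRing 𝒪] [CommRing T] : Type := 𝒪 ⊗[ℤ] T

/-- the `𝒪`-linear extension of a ring homomorphism -/
def extO {T : Type} [CommRing T] {Λ : Type*} [CommRing Λ] [Algebra 𝒪 Λ] (g : T →+* Λ) :
    tens 𝒪 T →ₐ[𝒪] Λ :=
  Algebra.TensorProduct.lift (Algebra.ofId 𝒪 Λ) g.toIntAlgHom (fun _ _ => Commute.all _ _)

omit [IsDomain 𝒪] [IsDiscreteValuationRing 𝒪] [IsAdicComplete (maximalIdeal 𝒪) 𝒪]
  [CharZero 𝒪] in
theorem extO_tmul {T : Type} [CommRing T] {Λ : Type*} [CommRing Λ] [Algebra 𝒪 Λ] (g : T →+* Λ)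
    (c : 𝒪) (t : T) : extO 𝒪 g (c ⊗ₜ t) = algebraMap 𝒪 Λ c * g t := by
  rw [extO, Algebra.TensorProduct.lift_tmul]
  rfl

theorem exists_localComponent (T : Type) [CommRing T] [IsReduced T] [Module.Finite ℤ T]
    [Module.IsTorsionFree ℤ T] {Λ : Type} [CommRing Λ] [IsLocalRing Λ] [Algebra 𝒪 Λ]
    [IsLocalHom (algebraMap 𝒪 Λ)] (g : T →+* Λ) :
    ∃ (A : Type) (_ : CommRing A) (_ : IsLocalRing A) (_ : Algebra 𝒪 A) (_ : Module.Finite 𝒪 A)
      (_ : Module.Free 𝒪 A) (_ : IsReduced A) (_ : IsLocalHom (algebraMap 𝒪 A))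
      (π : T →+* A) (gA : A →ₐ[𝒪] Λ) (_ : IsLocalHom (gA : A →+* Λ)),
      (∀ t, gA (π t) = g t) ∧ Algebra.adjoin 𝒪 (Set.range π) = ⊤ ∧
      ∀ (L : Type) [Field L] [Algebra 𝒪 L] (f : T →+* L),
        (∀ z : tens 𝒪 T, extO 𝒪 f z = 0 → extO 𝒪 g z ∈ maximalIdeal Λ) →
        ∃ F : A →ₐ[𝒪] L, ∀ t, F (π t) = f t := by
  classical
  have hTfree : Module.Free ℤ T := Module.free_of_finite_type_torsion_free'
  let B := 𝒪 ⊗[ℤ] T
  let G : B →ₐ[𝒪] Λ := extO 𝒪 g
  have hG : ∀ t, G (1 ⊗ₜ t) = g t := fun t => by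
    change extO 𝒪 g (1 ⊗ₜ t) = g t
    rw [extO_tmul, map_one, one_mul]
  let P : Ideal B := (maximalIdeal Λ).comap (G : B →+* Λ)
  have hPp : P.IsPrime := Ideal.comap_isPrime _ _
  have hBfin : Module.Finite 𝒪 B := inferInstance
  have hBint : Algebra.IsIntegral 𝒪 B := Algebra.IsIntegral.of_finite _ _
  have hPcomap : P.comap (algebraMap 𝒪 B) = maximalIdeal 𝒪 := by
    ext c
    rw [Ideal.mem_comap, Ideal.mem_comap]
    have : (G : B →+* Λ) (algebraMap 𝒪 B c) = algebraMap 𝒪 Λ c := G.commutes c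
    rw [this, mem_maximalIdeal, mem_maximalIdeal, mem_nonunits_iff, mem_nonunits_iff,
      not_iff_not]
    exact isUnit_map_iff (algebraMap 𝒪 Λ) c
  have hPmax : P.IsMaximal := by
    refine Ideal.isMaximal_of_isIntegral_of_isMaximal_comap (R := 𝒪) P ?_
    rw [hPcomap]
    exact maximalIdeal.isMaximal 𝒪
  let A := Localization.AtPrime P
  have hAfin : Module.Finite 𝒪 A := finite_atPrime 𝒪 P
  have hsurj : Function.Surjective (algebraMap B A) := surjective_atPrime 𝒪 P
  have hBtf : Module.IsTorsionFree 𝒪 B := inferInstance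
  have hAfree : Module.Free 𝒪 A := free_atPrime 𝒪 P
  let π : T →+* A := (algebraMap B A).comp (Algebra.TensorProduct.includeRight : T →ₐ[ℤ] B)
  have hπ : ∀ t, π t = algebraMap B A (1 ⊗ₜ t) := fun t => rfl
  have hadj : Algebra.adjoin 𝒪 (Set.range π) = ⊤ := by
    rw [eq_top_iff]
    rintro x -
    obtain ⟨z, rfl⟩ := hsurj x
    induction z using TensorProduct.induction_on with
    | zero => rw [map_zero]; exact Subalgebra.zero_mem _
    | tmul a t =>
      have h1 : (a ⊗ₜ[ℤ] t : B) = algebraMap 𝒪 B a * (1 ⊗ₜ t) := by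
        rw [Algebra.TensorProduct.algebraMap_apply, Algebra.TensorProduct.tmul_mul_tmul, mul_one,
          one_mul]
        rfl
      rw [h1, map_mul, ← IsScalarTower.algebraMap_apply 𝒪 B A]
      exact Subalgebra.mul_mem _ (Subalgebra.algebraMap_mem _ a)
        (Algebra.subset_adjoin ⟨t, rfl⟩)
    | add x y hx hy => rw [map_add]; exact Subalgebra.add_mem _ hx hy
  have hred : IsReduced A := RT.Reduced.isReduced_of_adjoin_range_eq_top T 𝒪 A π hadj
  have hlh : IsLocalHom (algebraMap 𝒪 A) := by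
    refine ⟨fun c hc => ?_⟩
    by_contra hn
    have h1 : algebraMap 𝒪 B c ∈ P := by
      rw [← Ideal.mem_comap, hPcomap]; exact hn
    have h2 : algebraMap B A (algebraMap 𝒪 B c) ∈ maximalIdeal A :=
      (IsLocalization.AtPrime.to_map_mem_maximal_iff A P _).mpr h1
    rw [← IsScalarTower.algebraMap_apply 𝒪 B A] at h2
    exact h2 hc
  have hunit : ∀ y : P.primeCompl, IsUnit ((G : B →+* Λ) y) := by
    rintro ⟨y, hy⟩
    by_contra hn
    exact hy hn
  let gA₀ : A →+* Λ := IsLocalization.lift (M := P.primeCompl) hunit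
  have hgA₀ : ∀ b, gA₀ (algebraMap B A b) = G b := fun b => IsLocalization.lift_eq hunit b
  let gA : A →ₐ[𝒪] Λ :=
    { gA₀ with
      commutes' := fun c => by
        change gA₀ (algebraMap 𝒪 A c) = algebraMap 𝒪 Λ c
        rw [IsScalarTower.algebraMap_apply 𝒪 B A, hgA₀]
        exact G.commutes c }
  have hlh2 : IsLocalHom (gA : A →+* Λ) := by
    refine ⟨fun a ha => ?_⟩
    obtain ⟨b, rfl⟩ := hsurj a
    have h1 : IsUnit (G b) := by
      have := hgA₀ b
      rw [← this]; exact ha
    by_contra hn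
    have h2 : b ∈ P := (IsLocalization.AtPrime.to_map_mem_maximal_iff A P _).mp hn
    exact h2 h1
  refine ⟨A, inferInstance, inferInstance, inferInstance, hAfin, hAfree, hred, hlh, π, gA, hlh2,
    fun t => (hgA₀ _).trans (hG t), hadj, ?_⟩
  intro L _ _ f hf
  have hunit' : ∀ y : P.primeCompl, IsUnit ((extO 𝒪 f : B →+* L) y) := by
    rintro ⟨y, hy⟩
    refine isUnit_iff_ne_zero.mpr fun h0 => hy ?_
    exact hf y h0
  let F₀ : A →+* L := IsLocalization.lift (M := P.primeCompl) hunit'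
  have hF₀ : ∀ b, F₀ (algebraMap B A b) = extO 𝒪 f b := fun b => IsLocalization.lift_eq hunit' b
  refine ⟨{ F₀ with
    commutes' := fun c => by
      change F₀ (algebraMap 𝒪 A c) = algebraMap 𝒪 L c
      rw [IsScalarTower.algebraMap_apply 𝒪 B A, hF₀]
      exact (extO 𝒪 f).commutes c }, fun t => ?_⟩
  change F₀ (π t) = f t
  rw [hπ, hF₀, extO_tmul, map_one, one_mul]

end Fermat.Agent.P2.Sys
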