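import Fermat.Agent.P2.Sys.Red
import Fermat.Agent.P2.Sys.LocalRing
import Fermat.Agent.P2.RT.ECurve
import Fermat.Agent.Density.Final

/-!
# The family of representations attached to the local component (P2 block 5b-ii, part (B))

`A` is the local component of `ℤ₂ ⊗ TT`: finite free and reduced over `ℤ₂`, generated by the image
of `π : TT → A`, with `π x ≡ lam a x` modulo the maximal ideal.  For each minimal prime of `A` we
get a complete discrete valuation ring and, from the component theorem, a representation.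
-/

set_option autoImplicit false
set_option linter.unusedSectionVars false

noncomputable section

open ModularCurve CongruenceSubgroup IsLocalRing

namespace Fermat.Agent.P2.Sys

open Sel Fermat.Agent.P2.RT

local notation "Ω" => AlgebraicClosure ℚ

/-! ## The residue field of `A` -/

section Residue

variable {M : ℕ} [NeZero M] {Q : Finset ℕ} {ε a : ℕ → ℤ} {A : Type} [CommRing A] [IsLocalRing A]
  (π : TT M Q ε →+* A)

/-- every element of `ℤ₂` is `0` or `1` modulo the maximal ideal -/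
theorem padicInt_two (c : ℤ_[2]) : c ∈ maximalIdeal ℤ_[2] ∨ c - 1 ∈ maximalIdeal ℤ_[2] := by
  have h2 : ∀ x : ℤ_[2], PadicInt.toZMod x = 0 → x ∈ maximalIdeal ℤ_[2] := fun x hx => by
    have h : x ∈ RingHom.ker (PadicInt.toZMod (p := 2)) := hx
    rwa [PadicInt.ker_toZMod] at h
  have h3 : ∀ z : ZMod 2, z = 0 ∨ z = 1 := by decide
  rcases h3 (PadicInt.toZMod c) with h | h
  · exact Or.inl (h2 c h)
  · exact Or.inr (h2 _ (by rw [map_sub, map_one, h, sub_self]))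

/-- the residual condition from a local homomorphism `A → Λ`. -/
theorem res_of_even {Λ : Type} [CommRing Λ] [IsLocalRing Λ] (gA : A →+* Λ) [IsLocalHom gA]
    (g : TT M Q ε →+* Λ) (hgA : ∀ t, gA (π t) = g t)
    (hg : ∀ x : anem M, g (mkTT M Q ε x) ∈ maximalIdeal Λ ↔ Even (lam a x)) (x : anem M) :
    π (mkTT M Q ε x) - ((lam a x : ℤ) : A) ∈ maximalIdeal A := by
  have h1 : lam a ((x - ((lam a x : ℤ) : anem M) : anem M) : HeckeAlg) = 0 := by
    have h2 : ((x - ((lam a x : ℤ) : anem M) : anem M) : HeckeAlg) =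
      (x : HeckeAlg) - ((lam a x : ℤ) : HeckeAlg) := rfl
    rw [h2, map_sub, map_intCast, Int.cast_id, sub_self]
  have h2 := (hg (x - ((lam a x : ℤ) : anem M))).mpr (by rw [h1]; exact Even.zero)
  have h3 : π (mkTT M Q ε x) - ((lam a x : ℤ) : A) =
      π (mkTT M Q ε (x - ((lam a x : ℤ) : anem M))) := by
    rw [map_sub, map_sub, map_intCast, map_intCast]
  rw [h3, mem_maximalIdeal, mem_nonunits_iff]
  intro hu
  have h4 := hu.map gA
  rw [hgA] at h4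
  exact h2 h4

theorem res_of_sub {Λ : Type} [CommRing Λ] [IsLocalRing Λ] (gA : A →+* Λ) [IsLocalHom gA]
    (g : TT M Q ε →+* Λ) (hgA : ∀ t, gA (π t) = g t)
    (hg : ∀ x : anem M, g (mkTT M Q ε x) - ((lam a x : ℤ) : Λ) ∈ maximalIdeal Λ) (x : anem M) :
    π (mkTT M Q ε x) - ((lam a x : ℤ) : A) ∈ maximalIdeal A := by
  rw [mem_maximalIdeal, mem_nonunits_iff]
  intro hu
  have h4 := hu.map gA
  rw [map_sub, hgA, map_intCast] at h4
  exact hg x h4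

/-- The residue field of `A` is `𝔽₂`. -/
theorem mem_or_sub_one_mem [Algebra ℤ_[2] A] [IsLocalHom (algebraMap ℤ_[2] A)]
    (hadj : Algebra.adjoin ℤ_[2] (Set.range π) = ⊤)
    (hres : ∀ x : anem M, π (mkTT M Q ε x) - ((lam a x : ℤ) : A) ∈ maximalIdeal A)
    (h2 : (2 : A) ∈ maximalIdeal A) (y : A) :
    y ∈ maximalIdeal A ∨ y - 1 ∈ maximalIdeal A := by
  have hy : y ∈ Algebra.adjoin ℤ_[2] (Set.range π) := by rw [hadj]; trivial
  induction hy using Algebra.adjoin_induction with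
  | mem y hy =>
    obtain ⟨t, rfl⟩ := hy
    obtain ⟨x, rfl⟩ := mkTT_surjective t
    have h1 := hres x
    rcases Int.even_or_odd (lam a x) with ⟨k, hk⟩ | ⟨k, hk⟩
    · left
      have h3 : π (mkTT M Q ε x) = (π (mkTT M Q ε x) - ((lam a x : ℤ) : A)) + (k : A) * 2 := by
        rw [hk]; push_cast; ring
      rw [h3]
      exact add_mem h1 (Ideal.mul_mem_left _ _ h2)
    · right
      have h3 : π (mkTT M Q ε x) - 1 =
          (π (mkTT M Q ε x) - ((lam a x : ℤ) : A)) + (k : A) * 2 := by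
        rw [hk]; push_cast; ring
      rw [h3]
      exact add_mem h1 (Ideal.mul_mem_left _ _ h2)
  | algebraMap c =>
    rcases padicInt_two c with h | h
    · exact Or.inl (map_nonunit (algebraMap ℤ_[2] A) _ h)
    · right
      have := map_nonunit (algebraMap ℤ_[2] A) _ h
      rwa [map_sub, map_one] at this
  | add x y _ _ hx hy =>
    rcases hx with hx | hx <;> rcases hy with hy | hy
    · exact Or.inl (add_mem hx hy)
    · right
      have : x + y - 1 = x + (y - 1) := by ring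
      rw [this]; exact add_mem hx hy
    · right
      have : x + y - 1 = (x - 1) + y := by ring
      rw [this]; exact add_mem hx hy
    · left
      have : x + y = (x - 1) + (y - 1) + 2 := by ring
      rw [this]; exact add_mem (add_mem hx hy) h2
  | mul x y _ _ hx hy =>
    rcases hx with hx | hx
    · exact Or.inl (Ideal.mul_mem_right _ _ hx)
    rcases hy with hy | hy
    · exact Or.inl (Ideal.mul_mem_left _ _ hy)
    · right
      have : x * y - 1 = (x - 1) * y + (y - 1) := by ring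
      rw [this]; exact add_mem (Ideal.mul_mem_right _ _ hx) hy

theorem pi_tgen_sub
    (hres : ∀ x : anem M, π (mkTT M Q ε x) - ((lam a x : ℤ) : A) ∈ maximalIdeal A)
    (ℓ : Nat.Primes) (hℓ : ¬ (ℓ : ℕ) ∣ M) :
    π (tgen M Q ε ℓ hℓ) - ((a ℓ : ℤ) : A) ∈ maximalIdeal A := by
  have h := hres ⟨heckeGen ℓ, Algebra.subset_adjoin ⟨ℓ, hℓ, rfl⟩⟩
  have h1 : lam a (heckeGen ℓ) = a ℓ := MvPolynomial.aeval_X _ ℓ
  rw [h1] at h
  exact h

end Residue

/-! ## The component theorem as a hypothesis -/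

/-- **The component theorem** (helper13's `exists_comp` and helper63's `LocRel`). -/
def CompStmt {S : Finset ℕ} {a : ℕ → ℤ} (D : GalData S a) (M : ℕ) [NeZero M] (Q : Finset ℕ)
    (ε : ℕ → ℤ) : Prop :=
  ∀ (𝒪' : Type) [CommRing 𝒪'] [IsDomain 𝒪'] [IsDiscreteValuationRing 𝒪']
    [IsAdicComplete (maximalIdeal 𝒪') 𝒪'] [Finite (ResidueField 𝒪')] [CharZero 𝒪']
    [Algebra ℤ_[2] 𝒪'] [Module.Finite ℤ_[2] 𝒪'] [IsLocalHom (algebraMap ℤ_[2] 𝒪')]
    (θ : TT M Q ε →+* 𝒪')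
    (_ : ∀ (g : GQ) (L : IntermediateField ℚ Ω) [FiniteDimensional ℚ L] (B : Finset ℕ),
      ∃ (ℓ : Nat.Primes) (hℓ : ¬ (ℓ : ℕ) ∣ M), (ℓ : ℕ) ∉ B ∧ ∃ P : ValuationSubring Ω,
        P.LiesOverPrime ℓ ∧ ∃ φ : GQ, P.IsFrobeniusAt φ ℓ ∧ (∀ x ∈ L, φ x = g x) ∧
          residue 𝒪' (θ (tgen M Q ε ℓ hℓ)) = ((a ℓ : ℤ) : ResidueField 𝒪')),
    ∃ (R : Type) (_ : CommRing R) (_ : IsDomain R) (_ : IsLocalRing R) (_ : CharZero R)
      (_ : Algebra ℤ_[2] R) (_ : Module.Finite ℤ_[2] R) (_ : Algebra 𝒪' R)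
      (_ : IsScalarTower ℤ_[2] 𝒪' R), Function.Injective (algebraMap 𝒪' R) ∧
      ∃ ρ : GQ →* Matrix (Fin 2) (Fin 2) R,
        (2 : R) ∈ maximalIdeal R ∧
        (∀ (ℓ : Nat.Primes) (hℓ : ¬ (ℓ : ℕ) ∣ M) (P : ValuationSubring Ω), P.LiesOverPrime ℓ →
          ∀ φ : GQ, P.IsFrobeniusAt φ ℓ → (ρ φ).trace = algebraMap 𝒪' R (θ (tgen M Q ε ℓ hℓ))) ∧
        (∀ ℓ : ℕ, ℓ.Prime → ¬ ℓ ∣ M → ∀ P : ValuationSubring Ω, P.LiesOverPrime ℓ →
          ∀ g ∈ P.inertiaSubgroupIn ℚ, ρ g = 1) ∧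
        (∀ g, (ρ g).det = algebraMap ℤ_[2] R (D.ρ g : Matrix (Fin 2) (Fin 2) ℤ_[2]).det) ∧
        (∀ g, residue R (ρ g).trace =
          ((PadicInt.toZMod (D.ρ g : Matrix (Fin 2) (Fin 2) ℤ_[2]).trace).val :
            ResidueField R)) ∧
        (∀ k : ℕ, ∃ L : IntermediateField ℚ Ω, FiniteDimensional ℚ L ∧
          ∀ h : GQ, (∀ x ∈ L, h x = x) → ∀ i j, (2 : R) ^ k ∣ (ρ h - 1) i j) ∧
        ∀ q, q ∈ S ∨ q ∈ Q → ∃ e : ℤ, (e = 1 ∨ e = -1) ∧ (q ∈ Q → e = ε q) ∧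
          ∀ P : ValuationSubring Ω, P.LiesOverPrime q →
            StRel P q (e : R) (fun g => (ρ g).det) (fun g => ρ g)

/-! ## The components of `A` -/

section Comp

variable {S : Finset ℕ} {a : ℕ → ℤ} (D : GalData S a) {M : ℕ} [NeZero M] {Q : Finset ℕ}
  {ε : ℕ → ℤ} {A : Type} [CommRing A] [IsLocalRing A] [Algebra ℤ_[2] A] [Module.Finite ℤ_[2] A]
  [Module.Free ℤ_[2] A] [IsReduced A] (π : TT M Q ε →+* A)

/-- a homomorphism from a local ring to a finite extension is local -/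
theorem map_mem_of_mem {𝒪' : Type} [CommRing 𝒪'] [IsLocalRing 𝒪'] [Algebra ℤ_[2] 𝒪']
    [Module.Finite ℤ_[2] 𝒪'] (f : A →ₐ[ℤ_[2]] 𝒪') {x : A} (hx : x ∈ maximalIdeal A) :
    f x ∈ maximalIdeal 𝒪' := by
  have h1 : ((f : A →+* 𝒪').comp (algebraMap ℤ_[2] A)).IsIntegral := by
    have : (f : A →+* 𝒪').comp (algebraMap ℤ_[2] A) = algebraMap ℤ_[2] 𝒪' := f.comp_algebraMap
    rw [this]
    exact algebraMap_isIntegral_iff.mpr (Algebra.IsIntegral.of_finite ℤ_[2] 𝒪')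
  have h2 : (f : A →+* 𝒪').IsIntegral := RingHom.IsIntegral.tower_top _ _ h1
  have h3 : ((maximalIdeal 𝒪').comap (f : A →+* 𝒪')).IsMaximal :=
    Ideal.isMaximal_comap_of_isIntegral_of_isMaximal' (f : A →+* 𝒪') h2 (maximalIdeal 𝒪')
  have h4 := IsLocalRing.eq_maximalIdeal h3
  have h5 : x ∈ (maximalIdeal 𝒪').comap (f : A →+* 𝒪') := by rw [h4]; exact hx
  exact h5

theorem exists_comp_of_minimal (hcomp : CompStmt D M Q ε)
    (hres : ∀ x : anem M, π (mkTT M Q ε x) - ((lam a x : ℤ) : A) ∈ maximalIdeal A)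
    (𝔭 : Ideal A) (h𝔭 : 𝔭 ∈ minimalPrimes A) :
    ∃ (R : Type) (_ : CommRing R) (_ : IsDomain R) (_ : IsLocalRing R) (_ : CharZero R)
      (_ : Algebra ℤ_[2] R) (_ : Module.Finite ℤ_[2] R) (j : A →ₐ[ℤ_[2]] R)
      (ρ : GQ →* Matrix (Fin 2) (Fin 2) R), (∀ x, j x = 0 → x ∈ 𝔭) ∧
        (2 : R) ∈ maximalIdeal R ∧
        (∀ (ℓ : Nat.Primes) (hℓ : ¬ (ℓ : ℕ) ∣ M) (P : ValuationSubring Ω), P.LiesOverPrime ℓ →
          ∀ φ : GQ, P.IsFrobeniusAt φ ℓ → (ρ φ).trace = j (π (tgen M Q ε ℓ hℓ))) ∧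
        (∀ ℓ : ℕ, ℓ.Prime → ¬ ℓ ∣ M → ∀ P : ValuationSubring Ω, P.LiesOverPrime ℓ →
          ∀ g ∈ P.inertiaSubgroupIn ℚ, ρ g = 1) ∧
        (∀ g, (ρ g).det = algebraMap ℤ_[2] R (D.ρ g : Matrix (Fin 2) (Fin 2) ℤ_[2]).det) ∧
        (∀ g, residue R (ρ g).trace =
          ((PadicInt.toZMod (D.ρ g : Matrix (Fin 2) (Fin 2) ℤ_[2]).trace).val :
            ResidueField R)) ∧
        (∀ k : ℕ, ∃ L : IntermediateField ℚ Ω, FiniteDimensional ℚ L ∧
          ∀ h : GQ, (∀ x ∈ L, h x = x) → ∀ i j, (2 : R) ^ k ∣ (ρ h - 1) i j) ∧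
        ∀ q, q ∈ S ∨ q ∈ Q → ∃ e : ℤ, (e = 1 ∨ e = -1) ∧ (q ∈ Q → e = ε q) ∧
          ∀ P : ValuationSubring Ω, P.LiesOverPrime q →
            StRel P q (e : R) (fun g => (ρ g).det) (fun g => ρ g) := by
  have h𝔭p : 𝔭.IsPrime := h𝔭.1.1
  obtain ⟨𝒪', i1, i2, i3, i4, i5, i6, i7, i8, i9, i10, -, f, hf⟩ :=
    Fermat.Agent.RT.Components.exists_dvr_of_isPrime ℤ_[2] A 𝔭
      (Fermat.Agent.RT.Components.comap_eq_bot_of_mem_minimalPrimes ℤ_[2] A 𝔭 h𝔭)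
  obtain ⟨R, j1, j2, j3, j4, j5, j6, j7, j8, hinj, ρ, h1, h2, h3, h4, h5, h6, h7⟩ :=
    hcomp 𝒪' ((f : A →+* 𝒪').comp π) (fun g L _ B => by
      obtain ⟨ℓ, hℓ, hℓB, P, φ, hP, hφ, hφL⟩ :=
        Density.Final.exists_frobenius_eq L (B ∪ M.primeFactors) g
      rw [Finset.mem_union, not_or] at hℓB
      have hℓM : ¬ ℓ ∣ M := fun h => hℓB.2 (Nat.mem_primeFactors.mpr ⟨hℓ, h, NeZero.ne M⟩)
      refine ⟨⟨ℓ, hℓ⟩, hℓM, hℓB.1, P, hP, φ, hφ, hφL, ?_⟩
      have h1 := map_mem_of_mem f (pi_tgen_sub π hres ⟨ℓ, hℓ⟩ hℓM)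
      rw [map_sub, map_intCast, ← residue_eq_zero_iff, map_sub, map_intCast, sub_eq_zero] at h1
      exact h1)
  refine ⟨R, j1, j2, j3, j4, j5, j6, (IsScalarTower.toAlgHom ℤ_[2] 𝒪' R).comp f, ρ, ?_, h1, h2,
    h3, h4, h5, h6, h7⟩
  intro x hx
  have hx' : algebraMap 𝒪' R (f x) = 0 := hx
  have hx'' : f x = 0 := hinj (hx'.trans (map_zero _).symm)
  rw [← hf]
  exact hx''

/-- **The family of representations.** -/
theorem exists_family (hcomp : CompStmt D M Q ε)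
    (hres : ∀ x : anem M, π (mkTT M Q ε x) - ((lam a x : ℤ) : A) ∈ maximalIdeal A) :
    ∃ (𝔉 : Type) (_ : Finite 𝔉) (_ : Nonempty 𝔉) (R : 𝔉 → Type) (_ : ∀ f, CommRing (R f))
      (_ : ∀ f, IsDomain (R f)) (_ : ∀ f, IsLocalRing (R f)) (_ : ∀ f, CharZero (R f))
      (_ : ∀ f, Algebra ℤ_[2] (R f)) (_ : ∀ f, Module.Finite ℤ_[2] (R f))
      (j : ∀ f, A →ₐ[ℤ_[2]] R f) (ρ : ∀ f, GQ →* Matrix (Fin 2) (Fin 2) (R f)),
      (∀ x, (∀ f, j f x = 0) → x = 0) ∧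
      Cong ρ (rhoBar D.ρ) (detRep D.ρ) ∧
      (∀ f (ℓ : Nat.Primes) (hℓ : ¬ (ℓ : ℕ) ∣ M) (P : ValuationSubring Ω), P.LiesOverPrime ℓ →
        ∀ φ : GQ, P.IsFrobeniusAt φ ℓ → (ρ f φ).trace = j f (π (tgen M Q ε ℓ hℓ))) ∧
      (∀ f (x : R f), 2 * x = 0 → x = 0) ∧
      (∀ k : ℕ, ∃ L : IntermediateField ℚ Ω, FiniteDimensional ℚ L ∧
        ∀ g : GQ, (∀ x ∈ L, g x = x) → ∀ f i j, (2 : R f) ^ k ∣ (ρ f g - 1) i j) ∧
      (∀ ℓ : ℕ, ℓ.Prime → ¬ ℓ ∣ M → ∀ P : ValuationSubring Ω, P.LiesOverPrime ℓ →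
        ∀ g ∈ P.inertiaSubgroupIn ℚ, ∀ f, ρ f g = 1) ∧
      ∃ σ : 𝔉 → ℕ → ℤ, (∀ f q, σ f q = 1 ∨ σ f q = -1) ∧ (∀ f, ∀ q ∈ Q, σ f q = ε q) ∧
        ∀ f q, q ∈ S ∨ q ∈ Q → ∀ P : ValuationSubring Ω, P.LiesOverPrime q →
          StRel P q (σ f q : R f) (fun g => (ρ f g).det) (fun g => ρ f g) := by
  classical
  have hnoeth : IsNoetherianRing A := IsNoetherianRing.of_finite ℤ_[2] A
  have hfin : (minimalPrimes A).Finite := minimalPrimes.finite_of_isNoetherianRing A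
  have hfin' : Finite (minimalPrimes A) := hfin
  have hne : Nonempty (minimalPrimes A) := by
    obtain ⟨𝔭, h𝔭, -⟩ := Ideal.exists_minimalPrimes_le (I := (⊥ : Ideal A)) (J := maximalIdeal A)
      bot_le
    exact ⟨⟨𝔭, h𝔭⟩⟩
  choose R j1 j2 j3 j4 j5 j6 j ρ h0 h1 h2 h3 h4 h5 h6 h7 using
    fun 𝔭 : minimalPrimes A => exists_comp_of_minimal D π hcomp hres 𝔭.1 𝔭.2
  choose e he1 he2 he3 using h7
  choose L hL1 hL2 using h6
  refine ⟨minimalPrimes A, hfin', hne, R, j1, j2, j3, j4, j5, j6, j, ρ, ?_, ?_, h2, ?_, ?_, ?_, ?_⟩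
  · intro x hx
    have h8 : x ∈ sInf (minimalPrimes A) := by
      rw [Ideal.mem_sInf]
      intro P hP
      exact h0 ⟨P, hP⟩ x (hx ⟨P, hP⟩)
    have h9 : sInf (minimalPrimes A) = (⊥ : Ideal A) := by
      have := Ideal.sInf_minimalPrimes (I := (⊥ : Ideal A))
      rw [minimalPrimes, this]
      exact nilradical_eq_bot_iff.mpr inferInstance
    rw [h9, Ideal.mem_bot] at h8
    exact h8
  · refine ⟨h1, fun f g => ?_, fun f g => ?_⟩
    · rw [h4 f g, detRep_apply]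
    · rw [h5 f g, trace_redRep]
  · intro f x hx
    have : (2 : R f) ≠ 0 := two_ne_zero
    exact (mul_eq_zero.mp hx).resolve_left this
  · intro k
    refine ⟨⨆ f, L f k, ?_, fun g hg f => ?_⟩
    · have : ∀ f, FiniteDimensional ℚ (L f k) := fun f => hL1 f k
      exact IntermediateField.finiteDimensional_iSup_of_finite
    · exact hL2 f k g fun x hx => hg x (le_iSup (fun f => L f k) f hx)
  · intro ℓ hℓ hℓM P hP g hg f
    exact h3 f ℓ hℓ hℓM P hP g hg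
  · refine ⟨fun f q => if h : q ∈ S ∨ q ∈ Q then e f q h else 1, fun f q => ?_, fun f q hq => ?_,
      fun f q hq P hP => ?_⟩
    · dsimp only
      split_ifs with h
      · exact he1 f q h
      · exact Or.inl rfl
    · dsimp only
      rw [dif_pos (Or.inr hq)]
      exact he2 f q (Or.inr hq) hq
    · dsimp only
      rw [dif_pos hq]
      exact he3 f q hq P hP

end Comp

end Fermat.Agent.P2.Sys
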