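import Fermat.Agent.P2.Sys.Red
import Fermat.Agent.P2.RT.ECurve
import Fermat.Agent.BrauerNesbittGalois
import Fermat.Agent.S30Wiring

/-!
# P2, block 5b-ii: the local relations of a component

`ρ : GaloisRepAdic R` attached to a point `θ : TT M Q ε →+* R` with residual traces those of the
auxiliary curve: for every `q ∈ S ∪ Q` the Steinberg relation holds at all places over `q`, with a
sign `e = ± 1`, `e = ε q` for `q ∈ Q` (`exists_stRel`).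
-/

set_option autoImplicit false
set_option linter.unusedSectionVars false
set_option linter.style.haveILetI false

open IsLocalRing Polynomial ModularCurve CongruenceSubgroup

noncomputable section

namespace Fermat.Agent.P2.Sys.LocRel

open Sel RT

local notation "Ω" => AlgebraicClosure ℚ

/-! ### Inputs -/

/-- `ρ` is attached to the character `χ` (Frobenius elements outside `N` and `S`). -/
def Att {N : ℕ} [NeZero N] {S0 : Set ℕ} (S : Finset ℕ) {𝒪 : Type} [CommRing 𝒪] [IsLocalRing 𝒪]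
    (χ : CuspForm.heckeAlgebra N 2 S0 →+* 𝒪) (ρ : GaloisRepAdic 𝒪) : Prop :=
  ∀ (ℓ : ℕ) (hℓ : ℓ.Prime) (hℓN : ¬ ℓ ∣ N) (hℓ0 : ℓ ∉ S0), ℓ ∉ S →
    ∀ A : ValuationSubring Ω, A.LiesOverPrime ℓ → ∀ σ : GQ, A.IsFrobeniusAt σ ℓ →
      LinearMap.charpoly (ρ.ρ σ) =
        X ^ 2 - C (χ (CuspForm.heckeAlgebra.T hℓ hℓN hℓ0)) * X + C (ℓ : 𝒪)

/-- Input (i): `U_q ↦ u`, `u ^ 2 = 1` (helper95). -/
def InU : Prop :=
  ∀ {N : ℕ} [NeZero N] {p q : ℕ} (_ : p.Prime) (hq : q.Prime) (_ : q ≠ p) (hqN : q ∣ N)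
    (_ : ¬ q ^ 2 ∣ N) {S0 : Set ℕ} {S : Finset ℕ} (_ : ∀ ℓ ∈ S0, ℓ ∈ S) {𝒪 : Type}
    [CommRing 𝒪] [IsDomain 𝒪] [IsDiscreteValuationRing 𝒪] [Finite (ResidueField 𝒪)]
    [CharZero 𝒪] (_ : (p : 𝒪) ∈ maximalIdeal 𝒪) (χ : CuspForm.heckeAlgebra N 2 S0 →+* 𝒪)
    (ρ : GaloisRepAdic 𝒪) (_ : Att S χ ρ) (hq0 : q ∉ S0)
    (_ : χ (CuspForm.heckeAlgebra.U hq hqN hq0) * χ (CuspForm.heckeAlgebra.U hq hqN hq0) = 1),
    ∀ P : ValuationSubring Ω, P.LiesOverPrime q →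
      StRel P q (χ (CuspForm.heckeAlgebra.U hq hqN hq0)) (fun g => LinearMap.det (ρ.ρ g))
        (fun g => ρ.ρ g)

/-- Input (ii): the ramified case (helper95). -/
def InRam : Prop :=
  ∀ {N : ℕ} [NeZero N] {p q : ℕ} (_ : p.Prime) (_ : q.Prime) (_ : q ≠ p) (_ : q ∣ N)
    (_ : ¬ q ^ 2 ∣ N) {S0 : Set ℕ} {S : Finset ℕ} (_ : ∀ ℓ ∈ S0, ℓ ∈ S) {𝒪 : Type}
    [CommRing 𝒪] [IsDomain 𝒪] [IsDiscreteValuationRing 𝒪] [Finite (ResidueField 𝒪)]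
    [CharZero 𝒪] (_ : (p : 𝒪) ∈ maximalIdeal 𝒪) (χ : CuspForm.heckeAlgebra N 2 S0 →+* 𝒪)
    (ρ : GaloisRepAdic 𝒪) (_ : Att S χ ρ) (_ : ¬ ρ.IsUnramifiedAt q),
    ∃ e : ℤ, (e = 1 ∨ e = -1) ∧ ∀ P : ValuationSubring Ω, P.LiesOverPrime q →
      StRel P q (e : 𝒪) (fun g => LinearMap.det (ρ.ρ g)) (fun g => ρ.ρ g)

/-- Input at `2` (helper19, `exists_stRel_of_new` for `p = 2`). -/
def InTwo : Prop :=
  ∀ {M : ℕ} [NeZero M] {S : Finset ℕ} {𝒪 : Type} [CommRing 𝒪] [IsDomain 𝒪]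
    [IsDiscreteValuationRing 𝒪] [IsAdicComplete (maximalIdeal 𝒪) 𝒪] [Finite (ResidueField 𝒪)]
    [CharZero 𝒪] (_ : ((2 : ℕ) : 𝒪) ∈ maximalIdeal 𝒪) (_ : ¬ 2 ∣ M)
    (hNS : ∀ q : ℕ, q.Prime → q ∣ M * 2 → q ∈ S) (hMS : ∀ q : ℕ, q.Prime → q ∣ M → q ∈ S)
    (π : CuspForm.heckeAlgebra (M * 2) 2 (↑S : Set ℕ) →+* 𝒪) (ρ : GaloisRepAdic 𝒪)
    (_ : Att ∅ π ρ) (_ : ρ.residual.IsAbsolutelyIrreducible)
    (t : S30Wiring.AnemicAlg S) (_ : S30Wiring.anemicEval (N := M) hMS t = 0)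
    (_ : π (S30Wiring.anemicEval hNS t) ≠ 0)
    (_ : ∃ A : ValuationSubring Ω, A.LiesOverPrime 2 ∧ ∃ τ ∈ A.inertiaSubgroupIn ℚ,
      ρ.residual.ρ τ ≠ 1),
    ∃ e : 𝒪, (e = 1 ∨ e = -1) ∧ ∀ A : ValuationSubring Ω, A.LiesOverPrime 2 →
      StRel A 2 e (fun g => LinearMap.det (ρ.ρ g)) (fun g => ρ.ρ g)

/-- the eigensystem `a` on the anemic algebra -/
def evA (S : Finset ℕ) (a : ℕ → ℤ) : S30Wiring.AnemicAlg S →+* ℤ :=
  (MvPolynomial.aeval (R := ℤ) fun ℓ : {ℓ : Nat.Primes // (ℓ : ℕ) ∉ S} =>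
    a ((ℓ : Nat.Primes) : ℕ)).toRingHom

/-- Input: `2`-newness (helper37, `exists_kill`). -/
def InKill (S : Finset ℕ) (a : ℕ → ℤ) : Prop :=
  ∀ {M : ℕ} [NeZero M] (_ : ¬ 2 ∣ M) {S' : Finset ℕ} (_ : S ⊆ S')
    (hMS : ∀ q : ℕ, q.Prime → q ∣ M → q ∈ S'),
    ∃ t : S30Wiring.AnemicAlg S', S30Wiring.anemicEval (N := M) hMS t = 0 ∧
      ¬ (2 : ℤ) ∣ evA S' a t

/-! ### The residual representation of the curve -/

section

variable {S : Finset ℕ} {a : ℕ → ℤ} (D : GalData S a)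

/-- trace form -/
theorem eq_zero_of_trace {X : Matrix (Fin 2) (Fin 2) (ZMod 2)}
    (h : ∀ g : GQ, (X * rhoBar D.ρ g).trace = 0) : X = 0 := by
  obtain ⟨s, hs⟩ := exists_rhoBar_s D
  obtain ⟨t, ht⟩ := exists_rhoBar_t D
  have h1 := h 1
  have h2 := h s
  have h3 := h t
  have h4 := h (s * t)
  rw [map_one] at h1
  rw [hs] at h2
  rw [ht] at h3
  rw [map_mul, hs, ht] at h4
  obtain ⟨x, hx⟩ : ∃ x, x = X 0 0 := ⟨_, rfl⟩
  obtain ⟨y, hy⟩ : ∃ y, y = X 0 1 := ⟨_, rfl⟩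
  obtain ⟨z, hz⟩ : ∃ z, z = X 1 0 := ⟨_, rfl⟩
  obtain ⟨w, hw⟩ : ∃ w, w = X 1 1 := ⟨_, rfl⟩
  have hX : X = !![x, y; z, w] := by rw [hx, hy, hz, hw]; exact Matrix.eta_fin_two X
  rw [hX] at h1 h2 h3 h4 ⊢
  simp only [Matrix.trace_fin_two, Matrix.mul_apply, Fin.sum_univ_two, Matrix.of_apply,
    Matrix.cons_val', Matrix.cons_val_zero, Matrix.cons_val_one, Fin.isValue,
    mul_zero, mul_one, zero_add, add_zero, Matrix.empty_val', Matrix.cons_val_fin_one]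
    at h1 h2 h3 h4
  have hx0 : x = 0 ∧ y = 0 ∧ z = 0 ∧ w = 0 := by
    revert h1 h2 h3 h4
    clear hX hx hy hz hw hs ht h
    revert x y z w
    decide
  rw [hx0.1, hx0.2.1, hx0.2.2.1, hx0.2.2.2]
  ext i j
  fin_cases i <;> fin_cases j <;> rfl

/-- For `τ` acting non trivially there is `g` with different traces of `τ g` and `g`. -/
theorem exists_trace_ne' {τ : GQ} (hτ : rhoBar D.ρ τ ≠ 1) :
    ∃ g : GQ, (rhoBar D.ρ (τ * g)).trace ≠ (rhoBar D.ρ g).trace := by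
  by_contra hcon
  push Not at hcon
  refine hτ (sub_eq_zero.mp (eq_zero_of_trace D (X := rhoBar D.ρ τ - 1) fun g => ?_))
  rw [sub_mul, one_mul, ← map_mul, Matrix.trace_sub, hcon g, sub_self]

theorem level_rhoBar : ∃ L : IntermediateField ℚ Ω, FiniteDimensional ℚ L ∧
    ∀ h : GQ, (∀ x ∈ L, h x = x) → rhoBar D.ρ h = 1 := by
  obtain ⟨L, hL, h⟩ := D.cont 1
  refine ⟨L, hL, fun g hg => (rhoBar_eq_one_iff D g).mpr fun i j => ?_⟩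
  have := h g hg i j
  rwa [pow_one] at this

/-- `rhoBar` as a `ResidualGaloisRep` -/
def barRep : ResidualGaloisRep (ZMod 2) where
  V := Fin 2 → ZMod 2
  finrank_eq := by simp
  ρ := (Matrix.toLinAlgEquiv' : Matrix (Fin 2) (Fin 2) (ZMod 2) ≃ₐ[ZMod 2] _).toMonoidHom.comp
    (rhoBar D.ρ)
  factorsThroughFiniteLevel := by
    obtain ⟨L, hL, h⟩ := level_rhoBar D
    refine ⟨L, hL, fun σ hσ => ?_⟩
    rw [MonoidHom.comp_apply, h σ hσ, map_one]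

theorem trace_barRep (g : GQ) :
    LinearMap.trace (ZMod 2) (barRep D).V ((barRep D).ρ g) = (rhoBar D.ρ g).trace := by
  change LinearMap.trace (ZMod 2) (Fin 2 → ZMod 2) (Matrix.toLin' (rhoBar D.ρ g)) = _
  rw [Matrix.trace_toLin'_eq]

theorem span_rhoBar : Submodule.span (ZMod 2) (Set.range (rhoBar D.ρ)) = ⊤ := by
  obtain ⟨s, hs⟩ := exists_rhoBar_s D
  obtain ⟨t, ht⟩ := exists_rhoBar_t D
  rw [eq_top_iff]
  rintro X -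
  have m1 : (1 : Matrix (Fin 2) (Fin 2) (ZMod 2)) ∈
      Submodule.span (ZMod 2) (Set.range (rhoBar D.ρ)) :=
    Submodule.subset_span ⟨1, map_one _⟩
  have m2 := Submodule.subset_span (R := ZMod 2) (s := Set.range (rhoBar D.ρ)) ⟨s, rfl⟩
  have m3 := Submodule.subset_span (R := ZMod 2) (s := Set.range (rhoBar D.ρ)) ⟨t, rfl⟩
  have m4 := Submodule.subset_span (R := ZMod 2) (s := Set.range (rhoBar D.ρ)) ⟨s * t, rfl⟩
  rw [hs] at m2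
  rw [ht] at m3
  rw [map_mul, hs, ht] at m4
  have hX : X = (X 0 0 + X 0 1 + X 1 0) • (1 : Matrix (Fin 2) (Fin 2) (ZMod 2)) +
      (X 0 0 + X 1 1) • !![0, 1; 1, 1] + (X 0 0 + X 0 1 + X 1 1) • !![0, 1; 1, 0] +
      (X 1 0 + X 0 1) • (!![0, 1; 1, 1] * !![0, 1; 1, 0]) := by
    obtain ⟨x, hx⟩ : ∃ x, x = X 0 0 := ⟨_, rfl⟩
    obtain ⟨y, hy⟩ : ∃ y, y = X 0 1 := ⟨_, rfl⟩
    obtain ⟨z, hz⟩ : ∃ z, z = X 1 0 := ⟨_, rfl⟩
    obtain ⟨w, hw⟩ : ∃ w, w = X 1 1 := ⟨_, rfl⟩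
    rw [← hx, ← hy, ← hz, ← hw, Matrix.eta_fin_two X, ← hx, ← hy, ← hz, ← hw]
    clear hx hy hz hw
    revert x y z w
    decide
  rw [hX]
  exact add_mem (add_mem (add_mem (Submodule.smul_mem _ _ m1) (Submodule.smul_mem _ _ m2))
    (Submodule.smul_mem _ _ m3)) (Submodule.smul_mem _ _ m4)

theorem absIrr_barRep : (barRep D).IsAbsolutelyIrreducible := by
  rw [BN2.isAbsolutelyIrreducible_iff_span]
  have h := congrArg (Submodule.map (Matrix.toLinAlgEquiv' : Matrix (Fin 2) (Fin 2) (ZMod 2)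
    ≃ₐ[ZMod 2] _).toLinearMap) (span_rhoBar D)
  rw [Submodule.map_span, Submodule.map_top, LinearMap.range_eq_top.mpr
    (AlgEquiv.surjective _), ← Set.range_comp] at h
  exact h

end

/-! ### The theorem -/

section

variable {S Q : Finset ℕ} {a : ℕ → ℤ} (D : GalData S a) {M : ℕ} [NeZero M] {ε : ℕ → ℤ}
  {R : Type} [CommRing R] [IsDomain R] [IsDiscreteValuationRing R]
  (θ : TT M Q ε →+* R) (ρ₀ : GaloisRepAdic R)

/-- `ρ₀` is attached to `θ` -/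
def AttTT : Prop :=
  ∀ (ℓ : Nat.Primes) (hℓ : ¬ (ℓ : ℕ) ∣ M) (P : ValuationSubring Ω), P.LiesOverPrime ℓ →
    ∀ φ : GQ, P.IsFrobeniusAt φ ℓ → LinearMap.charpoly (ρ₀.ρ φ) =
      X ^ 2 - C (θ (tgen M Q ε ℓ hℓ)) * X + C ((ℓ : ℕ) : R)

/-- the residual traces are those of the curve -/
def ResTr : Prop :=
  ∀ g : GQ, residue R (LinearMap.trace R ρ₀.V (ρ₀.ρ g)) =
    ((PadicInt.toZMod (D.ρ g : Matrix (Fin 2) (Fin 2) ℤ_[2]).trace).val : ResidueField R)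

variable {θ ρ₀}

theorem AttTT.att (h : AttTT θ ρ₀) {S0 : Set ℕ} (S1 : Finset ℕ)
    {j : CuspForm.heckeAlgebra M 2 S0 →+* TT M Q ε}
    (hj : ∀ (ℓ : ℕ) (hℓ : ℓ.Prime) (hℓM : ¬ ℓ ∣ M) (hℓS : ℓ ∉ S0),
      j (CuspForm.heckeAlgebra.T hℓ hℓM hℓS) = tgen M Q ε ⟨ℓ, hℓ⟩ hℓM) :
    Att S1 (θ.comp j) ρ₀ := by
  intro ℓ hℓ hℓN hℓ0 _ A hA σ hσ
  rw [h ⟨ℓ, hℓ⟩ hℓN A hA σ hσ, RingHom.comp_apply, hj]

/-- the sign from `U_q ↦ ε_q` -/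
theorem stRel_of_mem_Q (hU : InU) (h2R : (2 : R) ∈ maximalIdeal R) [Finite (ResidueField R)]
    [CharZero R] (hQ : ∀ q ∈ Q, q.Prime ∧ q ∉ S)
    (hM : ∀ q : ℕ, q.Prime → (q ∣ M ↔ q ∈ S ∨ q ∈ Q)) (hsq : ∀ q : ℕ, q.Prime → ¬ q ^ 2 ∣ M)
    (h2 : 2 ∈ S) (hε : ∀ q, ε q = 1 ∨ ε q = -1) (hatt : AttTT θ ρ₀) {q : ℕ} (hq : q ∈ Q)
    (P : ValuationSubring Ω) (hP : P.LiesOverPrime q) :
    StRel P q (ε q : R) (fun g => LinearMap.det (ρ₀.ρ g)) (fun g => ρ₀.ρ g) := by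
  obtain ⟨hqp, hqS⟩ := hQ q hq
  have hqM : q ∣ M := (hM q hqp).mpr (Or.inr hq)
  obtain ⟨j, hjT, hjU⟩ := exists_hom (M := M) (Q := Q) (ε := ε) (S₀ := (↑S : Set ℕ))
    fun r hr hrM => (hM r hr).mp hrM
  have hqS' : q ∉ (↑S : Set ℕ) := hqS
  have hu : (θ.comp j) (CuspForm.heckeAlgebra.U hqp hqM hqS') = (ε q : R) := by
    rw [RingHom.comp_apply, hjU, map_intCast]
  have hee : (ε q : R) * ε q = 1 := by
    rcases hε q with h | h <;> rw [h] <;> norm_num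
  have h := hU (N := M) (p := 2) (q := q) Nat.prime_two hqp
    (fun h => hqS (h ▸ h2)) hqM (hsq q hqp) (S0 := (↑S : Set ℕ)) (S := S) (fun ℓ hℓ => hℓ)
    (by exact_mod_cast h2R) (θ.comp j) ρ₀ (hatt.att S hjT) hqS' (by rw [hu, hee]) P hP
  rwa [hu] at h

theorem exists_stRel_of_mem_S (hR : InRam) (h2R : (2 : R) ∈ maximalIdeal R)
    [Finite (ResidueField R)] [CharZero R]
    (hS : ∀ q ∈ S, q.Prime) (hM : ∀ q : ℕ, q.Prime → (q ∣ M ↔ q ∈ S ∨ q ∈ Q))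
    (hsq : ∀ q : ℕ, q.Prime → ¬ q ^ 2 ∣ M)
    (hatt : AttTT θ ρ₀) (hram : ∀ q ∈ S, ∀ P : ValuationSubring Ω, P.LiesOverPrime q →
      ∃ t ∈ P.inertiaSubgroupIn ℚ, ρ₀.residual.ρ t ≠ 1) {q : ℕ} (hq : q ∈ S) (hq2 : q ≠ 2) :
    ∃ e : ℤ, (e = 1 ∨ e = -1) ∧ ∀ P : ValuationSubring Ω, P.LiesOverPrime q →
      StRel P q (e : R) (fun g => LinearMap.det (ρ₀.ρ g)) (fun g => ρ₀.ρ g) := by
  obtain ⟨j, hjT, hjU⟩ := exists_hom (M := M) (Q := Q) (ε := ε) (S₀ := (↑(S ∪ Q) : Set ℕ))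
    fun r hr hrM => Or.inl (by
      rw [Finset.mem_coe, Finset.mem_union]
      exact (hM r hr).mp hrM)
  refine hR (N := M) (p := 2) (q := q) Nat.prime_two (hS q hq) hq2
    ((hM q (hS q hq)).mpr (Or.inl hq)) (hsq q (hS q hq)) (S0 := (↑(S ∪ Q) : Set ℕ))
    (S := S ∪ Q) (fun ℓ hℓ => hℓ) (by exact_mod_cast h2R) (θ.comp j) ρ₀ (hatt.att _ hjT) ?_
  intro hun
  obtain ⟨P, hP⟩ := FrobExists.exists_liesOverPrime Ω (hS q hq)
  obtain ⟨t, ht, hne⟩ := hram q hq P hP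
  refine hne ?_
  change (ρ₀.ρ t).baseChange (ResidueField R) = 1
  rw [hun P hP t ht]
  exact LinearMap.baseChange_one _ _

/-- trace of a Frobenius -/
theorem AttTT.trace (h : AttTT θ ρ₀) {ℓ : Nat.Primes} (hℓ : ¬ (ℓ : ℕ) ∣ M)
    {P : ValuationSubring Ω} (hP : P.LiesOverPrime ℓ) {φ : GQ} (hφ : P.IsFrobeniusAt φ ℓ) :
    LinearMap.trace R ρ₀.V (ρ₀.ρ φ) = θ (tgen M Q ε ℓ hℓ) := by
  have h1 := h ℓ hℓ P hP φ hφ
  rw [BN2.charpoly_eq_of_finrank_two ρ₀.finrank_eq] at h1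
  have h2 := congrArg (fun p => p.coeff 1) h1
  simpa [coeff_X, coeff_C] using h2

theorem cast_val_toZMod {k : Type*} [Ring k] (h : (2 : k) = 0) (n : ℤ) :
    (((PadicInt.toZMod ((n : ℤ) : ℤ_[2])).val : ℕ) : k) = (n : k) := by
  rw [map_intCast]
  have h1 : (2 : ℤ) ∣ n - (((n : ZMod 2)).val : ℤ) := by
    have h2 : (((((n : ZMod 2)).val : ℤ)) : ZMod 2) = (n : ZMod 2) := by
      rw [Int.cast_natCast, ZMod.natCast_zmod_val]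
    exact_mod_cast (ZMod.intCast_eq_intCast_iff_dvd_sub _ _ 2).mp h2
  obtain ⟨c, hc⟩ := h1
  have h3 : n = 2 * c + (((n : ZMod 2)).val : ℤ) := by linarith
  conv_rhs => rw [h3]
  push_cast
  rw [h, zero_mul, zero_add]

/-- residual congruence on generators -/
theorem residue_tgen (h2R : (2 : R) ∈ maximalIdeal R) (hM : ∀ q : ℕ, q.Prime → (q ∣ M ↔ q ∈ S ∨ q ∈ Q))
    (hatt : AttTT θ ρ₀) (hres : ResTr D ρ₀) {ℓ : Nat.Primes} (hℓ : ¬ (ℓ : ℕ) ∣ M) :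
    residue R (θ (tgen M Q ε ℓ hℓ)) = (a ℓ : ResidueField R) := by
  obtain ⟨P, hP⟩ := FrobExists.exists_liesOverPrime Ω ℓ.2
  obtain ⟨φ, hφ⟩ := FrobExists.exists_isFrobeniusAt P ℓ.2 hP
  have hS : (ℓ : ℕ) ∉ S := fun h => hℓ ((hM ℓ ℓ.2).mpr (Or.inl h))
  rw [← hatt.trace hℓ hP hφ, hres φ, D.trace_frob ℓ ℓ.2 hS P hP φ hφ]
  refine cast_val_toZMod ?_ _
  rw [← map_ofNat (residue R) 2]
  exact (residue_eq_zero_iff _).mpr h2R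

/-- residual congruence on the anemic algebra -/
theorem residue_anemic (h2R : (2 : R) ∈ maximalIdeal R)
    (hM : ∀ q : ℕ, q.Prime → (q ∣ M ↔ q ∈ S ∨ q ∈ Q)) (hatt : AttTT θ ρ₀) (hres : ResTr D ρ₀)
    {S' : Finset ℕ} (hNS : ∀ q : ℕ, q.Prime → q ∣ M → q ∈ S')
    {j : CuspForm.heckeAlgebra M 2 (↑S' : Set ℕ) →+* TT M Q ε}
    (hj : ∀ (ℓ : ℕ) (hℓ : ℓ.Prime) (hℓM : ¬ ℓ ∣ M) (hℓS : ℓ ∉ (↑S' : Set ℕ)),
      j (CuspForm.heckeAlgebra.T hℓ hℓM hℓS) = tgen M Q ε ⟨ℓ, hℓ⟩ hℓM)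
    (t : S30Wiring.AnemicAlg S') :
    residue R ((θ.comp j) (S30Wiring.anemicEval hNS t)) = (evA S' a t : ResidueField R) := by
  have h : ((residue R).comp ((θ.comp j).comp (S30Wiring.anemicEval hNS).toRingHom)) =
      (Int.castRingHom (ResidueField R)).comp (evA S' a) := by
    refine MvPolynomial.ringHom_ext (fun n => ?_) fun ℓ => ?_
    · simp
    · have hℓM : ¬ ((ℓ : Nat.Primes) : ℕ) ∣ M := fun h => ℓ.2 (hNS _ ℓ.1.2 h)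
      have h1 : S30Wiring.anemicEval hNS (MvPolynomial.X ℓ) =
          CuspForm.heckeAlgebra.T (S := (↑S' : Set ℕ)) (k := 2) ℓ.1.2 hℓM
            (fun h => ℓ.2 (Finset.mem_coe.mp h)) := MvPolynomial.aeval_X _ _
      have h2 : evA S' a (MvPolynomial.X ℓ) = a ((ℓ : Nat.Primes) : ℕ) :=
        MvPolynomial.aeval_X _ _
      change residue R (θ (j (S30Wiring.anemicEval hNS (MvPolynomial.X ℓ)))) =
        ((evA S' a (MvPolynomial.X ℓ) : ℤ) : ResidueField R)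
      rw [h1, h2, hj]
      exact residue_tgen D h2R hM hatt hres hℓM
  exact congrArg (fun f => f t) h

include D in
theorem exists_stRel_two (hT : InTwo) (hK : InKill S a) (h2R : (2 : R) ∈ maximalIdeal R)
    [IsAdicComplete (maximalIdeal R) R] [Finite (ResidueField R)] [CharZero R]
    (hM : ∀ q : ℕ, q.Prime → (q ∣ M ↔ q ∈ S ∨ q ∈ Q)) (hsq : ∀ q : ℕ, q.Prime → ¬ q ^ 2 ∣ M)
    (h2 : 2 ∈ S) (hatt : AttTT θ ρ₀) (hres : ResTr D ρ₀)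
    (habs : ρ₀.residual.IsAbsolutelyIrreducible)
    (hram : ∀ q ∈ S, ∀ P : ValuationSubring Ω, P.LiesOverPrime q →
      ∃ t ∈ P.inertiaSubgroupIn ℚ, ρ₀.residual.ρ t ≠ 1) :
    ∃ e : ℤ, (e = 1 ∨ e = -1) ∧ ∀ P : ValuationSubring Ω, P.LiesOverPrime 2 →
      StRel P 2 (e : R) (fun g => LinearMap.det (ρ₀.ρ g)) (fun g => ρ₀.ρ g) := by
  obtain ⟨M', rfl⟩ : ∃ M', M = M' * 2 := by
    obtain ⟨c, hc⟩ := (hM 2 Nat.prime_two).mpr (Or.inl h2)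
    exact ⟨c, by rw [hc, mul_comm]⟩
  haveI : NeZero M' := ⟨fun h => NeZero.ne (M' * 2) (by rw [h, zero_mul])⟩
  have h2M : ¬ 2 ∣ M' := fun ⟨c, hc⟩ => hsq 2 Nat.prime_two ⟨c, by rw [hc]; ring⟩
  have hNS : ∀ q : ℕ, q.Prime → q ∣ M' * 2 → q ∈ S ∪ Q := fun q hq h =>
    Finset.mem_union.mpr ((hM q hq).mp h)
  have hMS : ∀ q : ℕ, q.Prime → q ∣ M' → q ∈ S ∪ Q := fun q hq h =>
    hNS q hq (h.mul_right 2)
  obtain ⟨j, hjT, hjU⟩ := exists_hom (M := M' * 2) (Q := Q) (ε := ε)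
    (S₀ := (↑(S ∪ Q) : Set ℕ)) fun r hr hrM => Or.inl (Finset.mem_coe.mpr (hNS r hr hrM))
  obtain ⟨t, ht, hta⟩ := hK h2M (S' := S ∪ Q) Finset.subset_union_left hMS
  have hπ : (θ.comp j) (S30Wiring.anemicEval hNS t) ≠ 0 := by
    intro h0
    have h1 := residue_anemic D h2R hM hatt hres hNS hjT t
    rw [h0, map_zero] at h1
    refine hta ?_
    by_contra hodd
    rw [← even_iff_two_dvd, Int.not_even_iff_odd] at hodd
    obtain ⟨c, hc⟩ := hodd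
    have h20 : (2 : ResidueField R) = 0 := by
      rw [← map_ofNat (residue R) 2]
      exact (residue_eq_zero_iff _).mpr h2R
    rw [hc] at h1
    push_cast at h1
    rw [h20, zero_mul, zero_add] at h1
    exact zero_ne_one h1
  obtain ⟨P, hP⟩ := FrobExists.exists_liesOverPrime Ω Nat.prime_two
  obtain ⟨τ, hτ, hne⟩ := hram 2 h2 P hP
  obtain ⟨e, he, h⟩ := hT (M := M') (S := S ∪ Q) (by exact_mod_cast h2R) h2M hNS hMS (θ.comp j) ρ₀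
    (hatt.att ∅ hjT) habs t ht hπ ⟨P, hP, τ, hτ, hne⟩
  rcases he with rfl | rfl
  · exact ⟨1, Or.inl rfl, fun P hP => by rw [Int.cast_one]; exact h P hP⟩
  · exact ⟨-1, Or.inr rfl, fun P hP => by rw [Int.cast_neg, Int.cast_one]; exact h P hP⟩

include D in
/-- **The local relations.** -/
theorem exists_stRel (hU : InU) (hR : InRam) (hT : InTwo) (hK : InKill S a)
    (h2R : (2 : R) ∈ maximalIdeal R)
    [IsAdicComplete (maximalIdeal R) R] [Finite (ResidueField R)] [CharZero R]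
    (hS : ∀ q ∈ S, q.Prime) (hQ : ∀ q ∈ Q, q.Prime ∧ q ∉ S)
    (hM : ∀ q : ℕ, q.Prime → (q ∣ M ↔ q ∈ S ∨ q ∈ Q)) (hsq : ∀ q : ℕ, q.Prime → ¬ q ^ 2 ∣ M)
    (h2 : 2 ∈ S) (hε : ∀ q, ε q = 1 ∨ ε q = -1) (hatt : AttTT θ ρ₀) (hres : ResTr D ρ₀)
    (habs : ρ₀.residual.IsAbsolutelyIrreducible)
    (hram : ∀ q ∈ S, ∀ P : ValuationSubring Ω, P.LiesOverPrime q →
      ∃ t ∈ P.inertiaSubgroupIn ℚ, ρ₀.residual.ρ t ≠ 1) {q : ℕ} (hq : q ∈ S ∨ q ∈ Q) :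
    ∃ e : ℤ, (e = 1 ∨ e = -1) ∧ (q ∈ Q → e = ε q) ∧
      ∀ P : ValuationSubring Ω, P.LiesOverPrime q →
      StRel P q (e : R) (fun g => LinearMap.det (ρ₀.ρ g)) (fun g => ρ₀.ρ g) := by
  rcases hq with hq | hq
  · have hqQ : q ∉ Q := fun h => (hQ q h).2 hq
    by_cases hq2 : q = 2
    · subst hq2
      obtain ⟨e, he, h⟩ := exists_stRel_two D hT hK h2R hM hsq h2 hatt hres habs hram
      exact ⟨e, he, fun h => absurd h hqQ, h⟩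
    · obtain ⟨e, he, h⟩ := exists_stRel_of_mem_S hR h2R hS hM hsq hatt hram hq hq2
      exact ⟨e, he, fun h => absurd h hqQ, h⟩
  · exact ⟨ε q, hε q, fun _ => rfl,
      fun P hP => stRel_of_mem_Q hU h2R hQ hM hsq h2 hε hatt hq P hP⟩

/-! ### The level `lev S Q` -/

theorem dvd_lev_iff (hS : ∀ q ∈ S, q.Prime) (hQ : ∀ q ∈ Q, q.Prime ∧ q ∉ S) (q : ℕ)
    (hq : q.Prime) : q ∣ lev S Q ↔ q ∈ S ∨ q ∈ Q := by
  rw [lev, hq.prime.dvd_mul, hq.prime.dvd_finsetProd_iff, hq.prime.dvd_finsetProd_iff]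
  constructor
  · rintro (⟨r, hr, h⟩ | ⟨r, hr, h⟩)
    · exact Or.inl (((Nat.prime_dvd_prime_iff_eq hq (hS r hr)).mp h) ▸ hr)
    · exact Or.inr (((Nat.prime_dvd_prime_iff_eq hq (hQ r hr).1).mp h) ▸ hr)
  · rintro (h | h)
    · exact Or.inl ⟨q, h, dvd_rfl⟩
    · exact Or.inr ⟨q, h, dvd_rfl⟩

theorem lev_eq_prod (hQ : ∀ q ∈ Q, q.Prime ∧ q ∉ S) : lev S Q = ∏ q ∈ S ∪ Q, q := by
  rw [lev, Finset.prod_union (Finset.disjoint_right.mpr fun q hq => (hQ q hq).2)]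

theorem squarefree_lev (hS : ∀ q ∈ S, q.Prime) (hQ : ∀ q ∈ Q, q.Prime ∧ q ∉ S) :
    Squarefree (lev S Q) := by
  rw [lev_eq_prod hQ]
  have hp : ∀ q ∈ S ∪ Q, q.Prime := fun q hq => by
    rcases Finset.mem_union.mp hq with h | h
    · exact hS q h
    · exact (hQ q h).1
  refine Finset.squarefree_prod_of_pairwise_isCoprime (fun q hq r hr hqr => ?_)
    fun q hq => (hp q hq).prime.squarefree
  exact (Nat.coprime_iff_isRelPrime.mp ((Nat.coprime_primes (hp q hq) (hp r hr)).mpr hqr))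

theorem not_sq_dvd_lev (hS : ∀ q ∈ S, q.Prime) (hQ : ∀ q ∈ Q, q.Prime ∧ q ∉ S) (q : ℕ)
    (hq : q.Prime) : ¬ q ^ 2 ∣ lev S Q := fun h =>
  hq.one_lt.ne' (Nat.isUnit_iff.mp (squarefree_lev hS hQ q (by rwa [← pow_two])))

end

end Fermat.Agent.P2.Sys.LocRel
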