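import Fermat.Agent.P2.Sys.Family
import Fermat.Agent.P2.Sys.LocRel
import Fermat.Agent.P2.Sys.FamilyA

/-!
# The component theorem from `exists_comp` and the local relations (P2 block 5b-ii)
-/

set_option autoImplicit false
set_option linter.unusedSectionVars false

noncomputable section

open ModularCurve CongruenceSubgroup IsLocalRing

namespace Fermat.Agent.P2.Sys

open Sel

local notation "Ω" => AlgebraicClosure ℚ

theorem compStmt_of {S : Finset ℕ} {a : ℕ → ℤ} (D : GalData S a) {M : ℕ} [NeZero M]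
    {Q : Finset ℕ} {ε : ℕ → ℤ} (h30 : Fermat.Agent.RT.Datum.S30Statement)
    (hU : LocRel.InU) (hR : LocRel.InRam) (hT : LocRel.InTwo) (hK : LocRel.InKill S a)
    (hS : ∀ q ∈ S, q.Prime) (h2 : 2 ∈ S) (hQ : ∀ q ∈ Q, q.Prime ∧ q ∉ S)
    (hM : ∀ q : ℕ, q.Prime → (q ∣ M ↔ q ∈ S ∨ q ∈ Q)) (hsq : ∀ q : ℕ, q.Prime → ¬ q ^ 2 ∣ M)
    (hε : ∀ q, ε q = 1 ∨ ε q = -1) : CompStmt D M Q ε := by
  intro 𝒪' _ _ _ _ _ _ _ _ _ θ hdens
  have h2𝒪 : (2 : 𝒪') ∈ maximalIdeal 𝒪' := by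
    have h1 : (2 : ℤ_[2]) ∈ maximalIdeal ℤ_[2] := by
      rw [PadicInt.maximalIdeal_eq_span_p]
      exact Ideal.mem_span_singleton_self _
    have h3 := map_nonunit (algebraMap ℤ_[2] 𝒪') _ h1
    rwa [map_ofNat] at h3
  obtain ⟨R, i1, i2, i3, i4, i5, i6, i7, i8, i9, i10, i11, i12, hinj, ρ₀, H⟩ :=
    exists_comp (M := M) (Q := Q) (ε := ε) (𝒪' := 𝒪') D θ h30
      (fun q hq => (hM q (hS q hq)).mpr (Or.inl hq)) h2 h2𝒪
      (fun g L _ => by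
        obtain ⟨ℓ, hℓ, -, P, hP, φ, hφ, hφL, h⟩ := hdens g L ∅
        exact ⟨ℓ, hℓ, P, φ, hP, hφ, hφL, h⟩)
  refine ⟨R, i1, i2, inferInstance, i6, i7, i8, i9, i10, hinj, mat ρ₀, H.two_mem, H.tr, H.unr',
    H.det, H.res, H.cont, ?_⟩
  intro q hq
  have hatt : LocRel.AttTT ((algebraMap 𝒪' R).comp θ) ρ₀ := fun ℓ hℓ P hP φ hφ =>
    H.charpoly ℓ hℓ P hP φ hφ
  have hres : LocRel.ResTr D ρ₀ := fun g => by
    have h := H.res g
    rw [trace_mat] at h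
    exact h
  obtain ⟨e, he, heQ, hst⟩ := LocRel.exists_stRel D hU hR hT hK H.two_mem hS hQ hM hsq h2 hε hatt
    hres H.absIrr H.ram hq
  exact ⟨e, he, heQ, fun P hP => stRel_mat ρ₀ (hst P hP)⟩

/-- At the level `lev S Q`. -/
theorem compStmt_lev {S : Finset ℕ} {a : ℕ → ℤ} (D : GalData S a) {Q : Finset ℕ}
    [NeZero (lev S Q)] {ε : ℕ → ℤ} (h30 : Fermat.Agent.RT.Datum.S30Statement)
    (hU : LocRel.InU) (hR : LocRel.InRam) (hT : LocRel.InTwo) (hK : LocRel.InKill S a)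
    (hS : ∀ q ∈ S, q.Prime) (h2 : 2 ∈ S) (hQ : ∀ q ∈ Q, q.Prime ∧ q ∉ S)
    (hε : ∀ q, ε q = 1 ∨ ε q = -1) : CompStmt D (lev S Q) Q ε :=
  compStmt_of D h30 hU hR hT hK hS h2 hQ (LocRel.dvd_lev_iff hS hQ) (LocRel.not_sq_dvd_lev hS hQ) hε

end Fermat.Agent.P2.Sys
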