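import Fermat.Agent.P2.RT.Trace
import Fermat.Agent.Density.Final

/-!
# The ring of traces of the family attached to a Hecke ring (P2 block 5b-ii)

`A` a finite `ℤ₂`-algebra embedded in `∏ R i`, `ρ i : G_ℚ → GL₂(R i)` with Frobenius traces the
images of elements `t ℓ` generating `A`: the ring of traces `trAlg ρ` is (the image of) `A`.
-/

set_option autoImplicit false

noncomputable section

open IsLocalRing

namespace Fermat.Agent.P2.Sys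

open Fermat.Agent.P2.RT

local notation "Ω" => AlgebraicClosure ℚ
local notation "Γℚ" => (AlgebraicClosure ℚ ≃ₐ[ℚ] AlgebraicClosure ℚ)

/-- closedness of submodules of finite `ℤ₂`-modules. -/
theorem mem_of_forall_pow {X : Type*} [AddCommGroup X] [Module ℤ_[2] X] [Module.Finite ℤ_[2] X]
    (N : Submodule ℤ_[2] X) (x : X) (h : ∀ k : ℕ, ∃ y ∈ N, ∃ z : X, x - y = (2 : ℤ_[2]) ^ k • z) :
    x ∈ N := by
  rw [← Submodule.Quotient.mk_eq_zero]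
  have h1 : (Submodule.Quotient.mk x : X ⧸ N) ∈
      ⨅ k : ℕ, (maximalIdeal ℤ_[2]) ^ k • (⊤ : Submodule ℤ_[2] (X ⧸ N)) := by
    rw [Submodule.mem_iInf]
    intro k
    obtain ⟨y, hy, z, hz⟩ := h k
    have h2 : (Submodule.Quotient.mk x : X ⧸ N) = (2 : ℤ_[2]) ^ k • Submodule.Quotient.mk z := by
      rw [← Submodule.Quotient.mk_smul, ← hz, Submodule.Quotient.mk_sub,
        (Submodule.Quotient.mk_eq_zero N).mpr hy, sub_zero]
    rw [h2]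
    refine Submodule.smul_mem_smul (Ideal.pow_mem_pow ?_ k) Submodule.mem_top
    rw [PadicInt.maximalIdeal_eq_span_p]
    exact Ideal.mem_span_singleton_self _
  rw [Ideal.iInf_pow_smul_eq_bot_of_isLocalRing _ (maximalIdeal.isMaximal ℤ_[2]).ne_top] at h1
  exact (Submodule.mem_bot _).mp h1

theorem trace_sub_dvd {R : Type*} [CommRing R] (X Y : Matrix (Fin 2) (Fin 2) R) (c : R)
    (h : ∀ i j, c ∣ (Y - 1) i j) : c ∣ (X * Y).trace - X.trace := by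
  have h1 : (X * Y).trace - X.trace = (X * (Y - 1)).trace := by
    rw [mul_sub, mul_one, Matrix.trace_sub]
  rw [h1, Matrix.trace_fin_two, Matrix.mul_apply, Matrix.mul_apply, Fin.sum_univ_two,
    Fin.sum_univ_two]
  exact dvd_add (dvd_add (dvd_mul_of_dvd_right (h _ _) _) (dvd_mul_of_dvd_right (h _ _) _))
    (dvd_add (dvd_mul_of_dvd_right (h _ _) _) (dvd_mul_of_dvd_right (h _ _) _))

variable {ι : Type*} [Finite ι] {R : ι → Type*}
  [∀ i, CommRing (R i)] [∀ i, IsLocalRing (R i)] [∀ i, Algebra ℤ_[2] (R i)]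
  [∀ i, Module.Finite ℤ_[2] (R i)]
  {A : Type*} [CommRing A] [Algebra ℤ_[2] A] [Module.Finite ℤ_[2] A]
  (Φ : A →ₐ[ℤ_[2]] ∀ i, R i)
  (ρ : ∀ i, Γℚ →* Matrix (Fin 2) (Fin 2) (R i))
  (hcont : ∀ k : ℕ, ∃ L : IntermediateField ℚ Ω, FiniteDimensional ℚ L ∧
    ∀ h : Γℚ, (∀ x ∈ L, h x = x) → ∀ i a b, (2 : R i) ^ k ∣ (ρ i h - 1) a b)
  (B : Finset ℕ) (t : ℕ → A)
  (ht : ∀ ℓ : ℕ, ℓ.Prime → ℓ ∉ B → ∀ P : ValuationSubring Ω, P.LiesOverPrime ℓ →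
    ∀ φ : Γℚ, P.IsFrobeniusAt φ ℓ → ∀ i, (ρ i φ).trace = Φ (t ℓ) i)

include hcont ht in
theorem trS_mem_range (g : Γℚ) : trS ρ g ∈ Φ.range := by
  change trS ρ g ∈ Subalgebra.toSubmodule Φ.range
  refine mem_of_forall_pow _ _ fun k => ?_
  obtain ⟨L, hL, h⟩ := hcont k
  obtain ⟨ℓ, hℓ, hℓB, P, φ, hP, hφ, hφg⟩ := Density.Final.exists_frobenius_eq L B g
  refine ⟨Φ (t ℓ), ⟨t ℓ, rfl⟩, ?_⟩
  have h1 : ∀ i, (2 : R i) ^ k ∣ (ρ i g).trace - (ρ i φ).trace := by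
    intro i
    have h2 : g = φ * (φ⁻¹ * g) := by group
    rw [h2, map_mul]
    refine trace_sub_dvd _ _ _ fun a b => h _ (fun x hx => ?_) i a b
    rw [AlgEquiv.mul_apply, ← hφg x hx]
    exact φ.symm_apply_apply x
  choose z hz using h1
  refine ⟨z, ?_⟩
  funext i
  rw [Pi.sub_apply, trS_apply, ← ht ℓ hℓ hℓB P hP φ hφ i, hz, Pi.smul_apply, Algebra.smul_def,
    map_pow, map_ofNat]

variable (hgen : Algebra.adjoin ℤ_[2] {x | ∃ ℓ : ℕ, ℓ.Prime ∧ ℓ ∉ B ∧ x = t ℓ} = ⊤)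

include hcont ht hgen in
/-- **The ring of traces is the image of the Hecke ring.** -/
theorem trAlg_eq_range : trAlg ρ = Φ.range := by
  refine le_antisymm ?_ ?_
  · refine Algebra.adjoin_le ?_
    rintro _ ⟨g, rfl⟩
    exact trS_mem_range Φ ρ hcont B t ht g
  · rw [← Algebra.map_top, ← hgen, AlgHom.map_adjoin]
    refine Algebra.adjoin_le ?_
    rintro _ ⟨_, ⟨ℓ, hℓ, hℓB, rfl⟩, rfl⟩
    obtain ⟨P, hP⟩ := FrobExists.exists_liesOverPrime Ω hℓ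
    obtain ⟨φ, hφ⟩ := FrobExists.exists_isFrobeniusAt P hℓ hP
    have h1 : Φ (t ℓ) = trS ρ φ := by
      funext i
      rw [trS_apply, ht ℓ hℓ hℓB P hP φ hφ i]
    change Φ (t ℓ) ∈ trAlg ρ
    rw [h1]
    exact trS_mem ρ φ

include hcont ht hgen in
/-- **The Hecke ring is the ring of traces.** -/
theorem exists_equiv_trAlg (hΦ : Function.Injective Φ) :
    ∃ e : A ≃ₐ[ℤ_[2]] trAlg ρ, (∀ x, ((e x : trAlg ρ) : ∀ i, R i) = Φ x) ∧
      ∀ ℓ : ℕ, ℓ.Prime → ℓ ∉ B → ∀ P : ValuationSubring Ω, P.LiesOverPrime ℓ →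
        ∀ φ : Γℚ, P.IsFrobeniusAt φ ℓ → e (t ℓ) = tA ρ φ := by
  have h := trAlg_eq_range Φ ρ hcont B t ht hgen
  let e : A ≃ₐ[ℤ_[2]] trAlg ρ :=
    (AlgEquiv.ofInjective Φ hΦ).trans (Subalgebra.equivOfEq _ _ h.symm)
  have he : ∀ x, ((e x : trAlg ρ) : ∀ i, R i) = Φ x := fun x => rfl
  refine ⟨e, he, fun ℓ hℓ hℓB P hP φ hφ => Subtype.ext ?_⟩
  rw [he]
  funext i
  exact (ht ℓ hℓ hℓB P hP φ hφ i).symm

end Fermat.Agent.P2.Sys
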