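import Fermat.Agent.P2.Sys.Alg
import Fermat.Agent.P2.Sys.TrAlg
import Fermat.Agent.P2.RT.Main

/-!
# The core of `Block5Out` (P2 block 5b-ii)

From the local component `A` of the Hecke ring, the family of Galois representations attached to it
and `g : TT → F[C]`, the conclusion of `Block5Out`.
-/

set_option autoImplicit false

noncomputable section

open IsLocalRing ModularCurve CongruenceSubgroup

namespace Fermat.Agent.P2.Sys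

open Fermat.Agent.P2.RT Fermat.Agent.P2.Sel

local notation "Ω" => AlgebraicClosure ℚ

theorem prime_dvd_lev {S Q : Finset ℕ} (hS : ∀ q ∈ S, q.Prime) (hQ : ∀ q ∈ Q, q.Prime) {ℓ : ℕ}
    (hℓ : ℓ.Prime) : ℓ ∣ lev S Q ↔ ℓ ∈ S ∨ ℓ ∈ Q := by
  have key : ∀ {T : Finset ℕ}, (∀ q ∈ T, q.Prime) → (ℓ ∣ ∏ q ∈ T, q ↔ ℓ ∈ T) := by
    intro T hT
    constructor
    · intro h
      obtain ⟨q, hq, hd⟩ := (Nat.Prime.prime hℓ).exists_mem_finset_dvd h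
      rwa [(Nat.prime_dvd_prime_iff_eq hℓ (hT q hq)).mp hd]
    · exact fun h => Finset.dvd_prod_of_mem _ h
  rw [lev, hℓ.dvd_mul, key hS, key hQ]

section

variable {S : Finset ℕ} {a : ℕ → ℤ} (D : GalData S a) {n : ℕ} [NeZero n] {Q : Finset ℕ}
  [NeZero (lev S Q)] {ε : ℕ → ℤ}
  {C F : Type} [CommGroup C] [Finite C] [Field F] [CharP F 2]
  {A : Type} [CommRing A] [Algebra ℤ_[2] A] [Module.Finite ℤ_[2] A] [Module.Free ℤ_[2] A]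
  {𝔉 : Type} [Finite 𝔉] {R : 𝔉 → Type}
  [∀ f, CommRing (R f)] [∀ f, IsLocalRing (R f)] [∀ f, Algebra ℤ_[2] (R f)]
  [∀ f, Module.Finite ℤ_[2] (R f)]
  {ρ : ∀ f, GQ →* Matrix (Fin 2) (Fin 2) (R f)}

/-- The elements `π (t_ℓ)`. -/
def tl (π : TT (lev S Q) Q ε →+* A) (ℓ : ℕ) : A :=
  open Classical in
  if h : ∃ hℓ : ℓ.Prime, ¬ ℓ ∣ lev S Q then π (tgen (lev S Q) Q ε ⟨ℓ, h.choose⟩ h.choose_spec)
  else 0

omit [Algebra ℤ_[2] A] [Module.Finite ℤ_[2] A] [Module.Free ℤ_[2] A] in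
theorem tl_eq (π : TT (lev S Q) Q ε →+* A) (ℓ : Nat.Primes) (hℓ : ¬ (ℓ : ℕ) ∣ lev S Q) :
    tl π ℓ = π (tgen (lev S Q) Q ε ℓ hℓ) := by
  rw [tl, dif_pos ⟨ℓ.2, hℓ⟩]
  rfl

omit [Module.Finite ℤ_[2] A] [Module.Free ℤ_[2] A] in
theorem adjoin_tl (π : TT (lev S Q) Q ε →+* A)
    (hπ : Algebra.adjoin ℤ_[2] (Set.range π) = ⊤) :
    Algebra.adjoin ℤ_[2] {x | ∃ ℓ : ℕ, ℓ.Prime ∧ ℓ ∉ (lev S Q).primeFactors ∧ x = tl π ℓ} = ⊤ := by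
  rw [eq_top_iff, ← hπ]
  refine Algebra.adjoin_le ?_
  rintro _ ⟨y, rfl⟩
  have hy : y ∈ Algebra.adjoin ℤ {y : TT (lev S Q) Q ε |
      ∃ (ℓ : Nat.Primes) (hℓ : ¬ (ℓ : ℕ) ∣ lev S Q), y = tgen (lev S Q) Q ε ℓ hℓ} := by
    rw [adjoin_tgen]; exact Algebra.mem_top
  change π y ∈ Algebra.adjoin ℤ_[2] _
  induction hy using Algebra.adjoin_induction with
  | mem x hx =>
    obtain ⟨ℓ, hℓ, rfl⟩ := hx
    exact Algebra.subset_adjoin ⟨ℓ, ℓ.2, fun h => hℓ (Nat.dvd_of_mem_primeFactors h),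
      (tl_eq π ℓ hℓ).symm⟩
  | algebraMap r =>
    rw [eq_intCast, map_intCast]
    exact intCast_mem _ r
  | add x y _ _ hx hy => rw [map_add]; exact add_mem hx hy
  | mul x y _ _ hx hy => rw [map_mul]; exact mul_mem hx hy

/-- **The core.** -/
theorem core (hS : ∀ q ∈ S, q.Prime) (hQ : ∀ q ∈ Q, AuxPrime D.ρ S n q)
    (hsel : ∀ ξ ∈ Selmer (resRep D.ρ) S Q, ∃ x : Fin 2 → ZMod 2, ξ = cob (resRep D.ρ) x)
    (hε : ∀ q, ε q = 1 ∨ ε q = -1)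
    -- the class group side
    (G₀ : Subgroup GQ) (hG₀ : ∀ g, g ∈ G₀ ↔ rhoBar D.ρ g = 1 ∨ (rhoBar D.ρ g).trace = 1)
    {Cl : Type} [CommGroup Cl] [Finite Cl]
    (hC : ∃ m : ℕ, ∀ c : C, c ^ 2 ^ m = 1)
    (κ : Cl →* C) (hκ : ∀ x, κ x = 1 → Odd (orderOf x)) (ψ : Cl →* Fˣ)
    (cl : ValuationSubring Ω → Cl)
    (AR : ∀ (X : Type) [CommGroup X] [Finite X] [IsCyclic X] (χ : G₀ →* X),
      (∃ L : IntermediateField ℚ Ω, FiniteDimensional ℚ L ∧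
        ∀ h : G₀, (∀ x ∈ L, (h : GQ) x = x) → χ h = 1) →
      (∀ ℓ : ℕ, ℓ.Prime → ∀ P : ValuationSubring Ω, P.LiesOverPrime ℓ →
        ∀ h : G₀, (h : GQ) ∈ P.inertiaSubgroupIn ℚ → χ h = 1) →
      ∃ U : Subgroup Cl,
        (∀ ℓ : ℕ, ℓ.Prime → ℓ ∉ S ∪ Q → ∀ P : ValuationSubring Ω, P.LiesOverPrime ℓ →
          ∀ f : G₀, P.IsFrobeniusAt (f : GQ) ℓ → cl P ^ orderOf (χ f) ∈ U) ∧
        ∀ (g : G₀) (L : IntermediateField ℚ Ω), FiniteDimensional ℚ L → ∀ Bd : Finset ℕ,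
          ∃ ℓ : ℕ, ℓ.Prime ∧ ℓ ∉ Bd ∧ ∃ P : ValuationSubring Ω, P.LiesOverPrime ℓ ∧
            ∃ f : G₀, P.IsFrobeniusAt (f : GQ) ℓ ∧ (∀ x ∈ L, (f : GQ) x = (g : GQ) x) ∧
              ((rhoBar D.ρ g).trace = 1 → ψ (cl P) ≠ 1) ∧ (χ g ≠ 1 → cl P ∉ U))
    -- the Hecke side
    (g : TT (lev S Q) Q ε →+* MonoidAlgebra F C)
    (hgcl : ∀ (ℓ : Nat.Primes) (hℓ : ¬ (ℓ : ℕ) ∣ lev S Q), ∀ P : ValuationSubring Ω,
      P.LiesOverPrime ℓ → ∀ φ ∈ G₀, P.IsFrobeniusAt φ ℓ →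
        g (tgen (lev S Q) Q ε ℓ hℓ) = MonoidAlgebra.single (κ (cl P)) (ψ (cl P) : F) +
        MonoidAlgebra.single (κ (cl P))⁻¹ (((ψ (cl P))⁻¹ : Fˣ) : F))
    [IsLocalRing (MonoidAlgebra F C)] [Algebra ℤ_[2] (MonoidAlgebra F C)]
    [IsLocalHom (algebraMap ℤ_[2] (MonoidAlgebra F C))]
    (hg : ∀ x : anem (lev S Q), g (mkTT (lev S Q) Q ε x) - (lam a x : MonoidAlgebra F C) ∈
      maximalIdeal (MonoidAlgebra F C))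
    (π : TT (lev S Q) Q ε →+* A) (gA : A →ₐ[ℤ_[2]] MonoidAlgebra F C)
    (hgA : ∀ t, gA (π t) = g t) (hπ : Algebra.adjoin ℤ_[2] (Set.range π) = ⊤)
    (huniv : ∀ (L : Type) [Field L] [Algebra ℤ_[2] L] (f : TT (lev S Q) Q ε →+* L),
        (∀ z : tens ℤ_[2] (TT (lev S Q) Q ε), extO ℤ_[2] f z = 0 →
          extO ℤ_[2] g z ∈ maximalIdeal (MonoidAlgebra F C)) →
        ∃ F : A →ₐ[ℤ_[2]] L, ∀ t, F (π t) = f t)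
    -- the family
    (j : ∀ f, A →ₐ[ℤ_[2]] R f) (hj : ∀ x, (∀ f, j f x = 0) → x = 0)
    (H : Cong ρ (rhoBar D.ρ) (detRep D.ρ)) (htf : ∀ f (x : R f), 2 * x = 0 → x = 0)
    (hcont : ∀ k : ℕ, ∃ L : IntermediateField ℚ Ω, FiniteDimensional ℚ L ∧
      ∀ g : GQ, (∀ x ∈ L, g x = x) → ∀ f i j, (2 : R f) ^ k ∣ (ρ f g - 1) i j)
    (hunr : ∀ ℓ : ℕ, ℓ.Prime → ℓ ∉ S → ℓ ∉ Q → ∀ P : ValuationSubring Ω, P.LiesOverPrime ℓ →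
      ∀ g ∈ P.inertiaSubgroupIn ℚ, ∀ f, ρ f g = 1)
    (σ : 𝔉 → ℕ → ℤ) (hσ : ∀ f q, σ f q = 1 ∨ σ f q = -1) (hσε : ∀ f, ∀ q ∈ Q, σ f q = ε q)
    (hst : ∀ f q, q ∈ S ∨ q ∈ Q → ∀ P : ValuationSubring Ω, P.LiesOverPrime q →
      StRel P q (σ f q : R f) (fun g => (ρ f g).det) (fun g => ρ f g))
    (htr : ∀ (ℓ : Nat.Primes) (hℓ : ¬ (ℓ : ℕ) ∣ lev S Q), ∀ P : ValuationSubring Ω,
      P.LiesOverPrime ℓ → ∀ φ : GQ, P.IsFrobeniusAt φ ℓ → ∀ f,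
        (ρ f φ).trace = j f (π (tgen (lev S Q) Q ε ℓ hℓ))) :
    (∀ x ∈ anem (lev S Q), Kills (lev S Q) Q ε x → (2 : ℤ) ^ n ∣ lam a x) ∧
      Finite (Systems (lev S Q) Q ε a) ∧ Nat.card (Systems (lev S Q) Q ε a) ≤ Nat.card C := by
  have hQp : ∀ q ∈ Q, q.Prime := fun q hq => (hQ q hq).1
  have hM : lev S Q ≠ 0 := NeZero.ne _
  have hndvd : ∀ {ℓ : ℕ}, ℓ.Prime → ℓ ∉ (lev S Q).primeFactors → ¬ ℓ ∣ lev S Q := by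
    intro ℓ hℓ h h'
    exact h (Nat.mem_primeFactors.mpr ⟨hℓ, h', hM⟩)
  -- the ring of traces
  let Φ : A →ₐ[ℤ_[2]] ∀ f, R f := Pi.algHom _ _ j
  have hΦ : Function.Injective Φ := by
    rw [injective_iff_map_eq_zero]
    intro x hx
    exact hj x fun f => congrFun hx f
  obtain ⟨e, he, het⟩ := exists_equiv_trAlg Φ ρ hcont (lev S Q).primeFactors (tl π)
    (fun ℓ hℓ hℓM P hP φ hφ f => by
      have h1 : tl π ℓ = π (tgen (lev S Q) Q ε ⟨ℓ, hℓ⟩ (hndvd hℓ hℓM)) :=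
        tl_eq π ⟨ℓ, hℓ⟩ (hndvd hℓ hℓM)
      rw [h1]
      exact htr ⟨ℓ, hℓ⟩ (hndvd hℓ hℓM) P hP φ hφ f) (adjoin_tl π hπ) hΦ
  have het' : ∀ (ℓ : Nat.Primes) (hℓ : ¬ (ℓ : ℕ) ∣ lev S Q), ∀ P : ValuationSubring Ω,
      P.LiesOverPrime ℓ → ∀ φ : GQ, P.IsFrobeniusAt φ ℓ →
        e (π (tgen (lev S Q) Q ε ℓ hℓ)) = tA ρ φ := by
    intro ℓ hℓ P hP φ hφ
    rw [← tl_eq π ℓ hℓ]
    exact het ℓ ℓ.2 (fun h => hℓ (Nat.dvd_of_mem_primeFactors h)) P hP φ hφ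
  let phi0 : trAlg ρ →+* MonoidAlgebra F C := (gA : A →+* MonoidAlgebra F C).comp
    ((e.symm : trAlg ρ ≃ₐ[ℤ_[2]] A) : trAlg ρ →+* A)
  have hphi0 : ∀ x, phi0 (e x) = gA x := fun x => by
    change gA (e.symm (e x)) = gA x
    rw [e.symm_apply_apply]
  obtain ⟨hinj, hrk⟩ := rt_main D (n := n) hQ hsel H htf hcont hunr σ hσ ε hε hσε hst G₀ hG₀ hC κ hκ
    ψ cl phi0 (fun ℓ hℓ hℓS hℓQ P hP f hf hfr _ => by
      have hℓM : ¬ ℓ ∣ lev S Q := fun h => ((prime_dvd_lev hS hQp hℓ).mp h).elim hℓS hℓQ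
      rw [← het' ⟨ℓ, hℓ⟩ hℓM P hP f hfr, hphi0, hgA]
      exact hgcl ⟨ℓ, hℓ⟩ hℓM P hP f hf hfr) AR
  obtain ⟨hfin, hcard⟩ := systems_card_le (a := a) g hg π huniv
  refine ⟨fun x hx hk => ?_, hfin, hcard.trans ?_⟩
  · let θ : anem (lev S Q) →+* trAlg ρ :=
      ((e : A ≃ₐ[ℤ_[2]] trAlg ρ) : A →+* trAlg ρ).comp (π.comp (mkTT (lev S Q) Q ε))
    refine dvd_of_eq_zero D hinj (fun q hq => (prime_dvd_lev hS hQp (hS q hq)).mpr (Or.inl hq)) θ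
      (fun ℓ hℓ => ?_) hx ?_
    · obtain ⟨P, hP⟩ := FrobExists.exists_liesOverPrime Ω ℓ.2
      obtain ⟨φ, hφ⟩ := FrobExists.exists_isFrobeniusAt P ℓ.2 hP
      exact ⟨P, hP, φ, hφ, het' ℓ hℓ P hP φ hφ⟩
    · change e (π (mkTT (lev S Q) Q ε ⟨x, hx⟩)) = 0
      rw [mkTT_eq_zero.mpr (show (⟨x, hx⟩ : anem (lev S Q)) ∈ annForms (lev S Q) Q ε from hk),
        map_zero, map_zero]
  · rw [e.toLinearEquiv.finrank_eq]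
    exact hrk

end

end Fermat.Agent.P2.Sys
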