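import Mathlib

/-!
# Counting lemmas for `R = T` (P2 blocks 5b, 6c)

* `injective_of_span`: a surjection `A → T₀` onto a finite free module of rank `≥` the number of
  generators of `A` is injective;
* `injective_of_finrank_le`: the same with `dim (A/𝔪A) ≤ rank T₀`;
* `exists_smul_not_mem` : determinant trick.
-/

set_option autoImplicit false

open IsLocalRing

namespace Fermat.Agent.P2.Sys

section Count

variable {𝒪 : Type*} [CommRing 𝒪] [Nontrivial 𝒪] {A T₀ : Type*} [AddCommGroup A] [Module 𝒪 A]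
  [AddCommGroup T₀] [Module 𝒪 T₀] [Module.Finite 𝒪 T₀] [Module.Free 𝒪 T₀]

/-- If `A` is generated by `#ι ≤ rank T₀` elements, a surjection `A → T₀` is injective. -/
theorem injective_of_span {ι : Type*} [Fintype ι] (v : ι → A)
    (hv : Submodule.span 𝒪 (Set.range v) = ⊤) (hcard : Fintype.card ι ≤ Module.finrank 𝒪 T₀)
    (f : A →ₗ[𝒪] T₀) (hf : Function.Surjective f) : Function.Injective f := by
  classical
  let φ : (ι → 𝒪) →ₗ[𝒪] A := Fintype.linearCombination 𝒪 v
  have hφ : Function.Surjective φ := by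
    rw [← LinearMap.range_eq_top, Fintype.range_linearCombination, hv]
  have hcomp : Function.Surjective (f ∘ₗ φ) := hf.comp hφ
  have h1 : Module.finrank 𝒪 T₀ ≤ Fintype.card ι := by
    have := LinearMap.finrank_range_le (f ∘ₗ φ)
    rwa [LinearMap.range_eq_top.mpr hcomp, finrank_top, Module.finrank_fintype_fun_eq_card] at this
  have h2 : Fintype.card ι = Module.finrank 𝒪 T₀ := le_antisymm hcard h1
  let b := Module.finBasis 𝒪 T₀
  let e : T₀ ≃ₗ[𝒪] (ι → 𝒪) :=
    (b.reindex (Fintype.equivOfCardEq (by rw [Fintype.card_fin, h2]))).equivFun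
  have h3 : Function.Injective ((e : T₀ →ₗ[𝒪] (ι → 𝒪)) ∘ₗ (f ∘ₗ φ)) :=
    OrzechProperty.injective_of_surjective_endomorphism _ (e.surjective.comp hcomp)
  have h4 : Function.Injective (f ∘ φ) := fun x y hxy => h3 (congrArg e hxy)
  intro x y hxy
  obtain ⟨x, rfl⟩ := hφ x
  obtain ⟨y, rfl⟩ := hφ y
  rw [h4 hxy]

/-- Version with generators modulo `c A`, `c` in the Jacobson radical (`𝒪` local). -/
theorem injective_of_span_mod [IsLocalRing 𝒪] [Module.Finite 𝒪 A] {ι : Type*} [Fintype ι]
    (v : ι → A) {c : 𝒪} (hc : c ∈ maximalIdeal 𝒪)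
    (hv : ∀ a, ∃ a', a - c • a' ∈ Submodule.span 𝒪 (Set.range v))
    (hcard : Fintype.card ι ≤ Module.finrank 𝒪 T₀)
    (f : A →ₗ[𝒪] T₀) (hf : Function.Surjective f) : Function.Injective f := by
  refine injective_of_span v ?_ hcard f hf
  rw [eq_top_iff]
  refine Submodule.le_of_le_smul_of_le_jacobson_bot (I := maximalIdeal 𝒪)
    Module.Finite.fg_top (IsLocalRing.maximalIdeal_le_jacobson _) ?_
  intro a _
  obtain ⟨a', ha⟩ := hv a
  rw [← sub_add_cancel a (c • a')]
  exact Submodule.add_mem_sup ha (Submodule.smul_mem_smul hc trivial)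

/-- Version with dimensions: `dim_k (k ⊗ A) ≤ rank T₀`. -/
theorem injective_of_finrank_le [IsLocalRing 𝒪] [Module.Finite 𝒪 A]
    (hcard : Module.finrank (ResidueField 𝒪) (TensorProduct 𝒪 (ResidueField 𝒪) A) ≤
      Module.finrank 𝒪 T₀)
    (f : A →ₗ[𝒪] T₀) (hf : Function.Surjective f) : Function.Injective f := by
  classical
  obtain ⟨n, v, hv⟩ : ∃ (n : ℕ) (v : Fin n → A), Submodule.span 𝒪 (Set.range v) = ⊤ ∧
      n = Module.finrank (ResidueField 𝒪) (TensorProduct 𝒪 (ResidueField 𝒪) A) := by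
    let b := Module.finBasis (ResidueField 𝒪) (TensorProduct 𝒪 (ResidueField 𝒪) A)
    have hs : ∀ i, ∃ a : A, TensorProduct.mk 𝒪 (ResidueField 𝒪) A 1 a = b i := fun i =>
      TensorProduct.mk_surjective 𝒪 A (ResidueField 𝒪) residue_surjective (b i)
    choose v hv using hs
    refine ⟨_, v, ?_, rfl⟩
    refine IsLocalRing.span_eq_top_of_tmul_eq_basis v b fun i => hv i
  exact injective_of_span v hv.1 (by rw [Fintype.card_fin, hv.2]; exact hcard) f hf

end Count

section Det

/-- **Determinant trick.** `M` generated by `g` elements over `R`, `c M ⊆ I M`; then `c^g` is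
congruent modulo `I` to an element annihilating `M`. -/
theorem exists_pow_sub_mem {R M : Type*} [CommRing R] [AddCommGroup M] [Module R M]
    [Module.Finite R M] {g : ℕ} (hg : (⊤ : Submodule R M).spanFinrank ≤ g) (I : Ideal R) (c : R)
    (h : ∀ m : M, c • m ∈ I • (⊤ : Submodule R M)) :
    ∃ a : R, (∀ m : M, a • m = 0) ∧ c ^ g - a ∈ I := by
  classical
  obtain ⟨p, hp, hdeg, hcoef, heval⟩ :=
    LinearMap.exists_monic_and_natDegree_eq_and_coeff_mem_pow_and_aeval_eq_zero R
      (LinearMap.lsmul R M c) I (by rintro _ ⟨m, rfl⟩; exact h m)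
  refine ⟨c ^ (g - p.natDegree) * p.eval c, fun m => ?_, ?_⟩
  · have h1 : (Polynomial.aeval (LinearMap.lsmul R M c) p) m = (p.eval c) • m := by
      have h2 : LinearMap.lsmul R M c = algebraMap R (Module.End R M) c := rfl
      rw [h2, Polynomial.aeval_algebraMap_apply_eq_algebraMap_eval]
      rfl
    rw [mul_smul, ← h1, heval]
    simp
  · have hle : p.natDegree ≤ g := by rw [hdeg]; exact hg
    have e : c ^ g = c ^ (g - p.natDegree) * c ^ p.natDegree := by
      rw [← pow_add, Nat.sub_add_cancel hle]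
    rw [e, ← mul_sub]
    refine I.mul_mem_left _ ?_
    rw [Polynomial.eval_eq_sum_range, Finset.sum_range_succ, hp.coeff_natDegree, one_mul,
      sub_add_cancel_right]
    refine I.neg_mem_iff.mpr (Ideal.sum_mem _ fun k hk => I.mul_mem_right _ ?_)
    have hk' := Finset.mem_range.mp hk
    exact Ideal.pow_le_self (by omega) (hcoef k)

/-- If every element of `R` killing `M` lies in `I`, `M` is generated by `g` elements and
`c^g ∉ I`, then `c M ⊄ I M`. -/
theorem exists_smul_not_mem {R M : Type*} [CommRing R] [AddCommGroup M] [Module R M]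
    [Module.Finite R M] {g : ℕ} (hg : (⊤ : Submodule R M).spanFinrank ≤ g) (I : Ideal R) {c : R}
    (hann : ∀ a : R, (∀ m : M, a • m = 0) → a ∈ I) (hc : c ^ g ∉ I) :
    ∃ m : M, c • m ∉ I • (⊤ : Submodule R M) := by
  by_contra hcon
  push Not at hcon
  obtain ⟨a, ha, hca⟩ := exists_pow_sub_mem hg I c hcon
  exact hc ((Submodule.sub_mem_iff_left I (hann a ha)).mp hca)

end Det

end Fermat.Agent.P2.Sys
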