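import Fermat.Agent.P2.Sys.ResCong
import Fermat.Agent.P2.RT.Psi
import Fermat.Agent.Density.Final

/-!
# The density form of the residual congruence for `F₄[Cl2]` (P2 block 5b-ii)
-/

set_option autoImplicit false
set_option linter.unusedSectionVars false
set_option linter.style.haveILetI false

noncomputable section

open IsLocalRing ModularCurve CongruenceSubgroup

namespace Fermat.Agent.P2.Sys

open Sel Fermat.Agent.P2.RT

local notation "Ω" => AlgebraicClosure ℚ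

theorem mem_maximalIdeal_of_aug {S : Finset ℕ} [IsLocalRing (LamS S)] {x : LamS S}
    (h : Dih.aug x = 0) : x ∈ maximalIdeal (LamS S) := by
  rw [mem_maximalIdeal, mem_nonunits_iff]
  intro hu
  have h1 := hu.map (Dih.aug (F := F4) (C := Cl2 S))
  rw [h] at h1
  exact not_isUnit_zero h1

theorem F4_add_inv {u : F4ˣ} (hu : u ≠ 1) : (u : F4) + ((u⁻¹ : F4ˣ) : F4) = 1 := by
  have h3 : u ^ 3 = 1 := by
    have h := pow_card_eq_one' (x := u)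
    rwa [card_F4_units] at h
  have h3' : (u : F4) ^ 3 = 1 := by
    rw [← Units.val_pow_eq_pow_val, h3, Units.val_one]
  have h4 : ((u : F4) - 1) * ((u : F4) ^ 2 + u + 1) = 0 := by linear_combination h3'
  have h5 : (u : F4) - 1 ≠ 0 := by
    rw [sub_ne_zero]
    intro h
    exact hu (Units.ext h)
  have h6 := (mul_eq_zero.mp h4).resolve_left h5
  have h7 : (u : F4) * ((u : F4) + ((u⁻¹ : F4ˣ) : F4)) = u := by
    rw [mul_add, Units.mul_inv]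
    have h2 : (2 : F4) = 0 := CharTwo.two_eq_zero
    linear_combination h6 - (u : F4) * h2
  have h8 : (u : F4) ≠ 0 := u.ne_zero
  exact mul_left_cancel₀ h8 (h7.trans (mul_one _).symm)

variable {S : Finset ℕ} {a : ℕ → ℤ} {M : ℕ} [NeZero M] {Q : Finset ℕ} {ε : ℕ → ℤ}

theorem intCast_F4 {x : ℤ} {y : ZMod 2} (h : (x : ZMod 2) = y) :
    (x : F4) = ZMod.castHom (dvd_refl 2) F4 y := by
  rw [← h, map_intCast]

/-- **Density form of the residual congruence.** -/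
theorem hdens_of_beta (D : GalData S a) (hS : ∀ q ∈ S, q.Prime) (hSM : ∀ q ∈ S, q ∣ M)
    [IsLocalRing (LamS S)] (g : TT M Q ε →+* LamS S)
    (hg : ∀ (ℓ : Nat.Primes) (hℓ : ¬ (ℓ : ℕ) ∣ M),
      g (tgen M Q ε ℓ hℓ) = betaCl D hS (clT (KS S) ℓ))
    (σ : GQ) (L : IntermediateField ℚ Ω) (hL : FiniteDimensional ℚ L) :
    ∃ (ℓ : ℕ) (hℓ : ℓ.Prime) (hM : ¬ ℓ ∣ M) (P : ValuationSubring Ω) (φ : GQ),
      P.LiesOverPrime ℓ ∧ P.IsFrobeniusAt φ ℓ ∧ (∀ x ∈ L, φ x = σ x) ∧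
      g (tgen M Q ε ⟨ℓ, hℓ⟩ hM) - (a ℓ : LamS S) ∈ maximalIdeal (LamS S) := by
  obtain ⟨L₀, hL₀, hlev⟩ := level_rhoBar D
  haveI : FiniteDimensional ℚ (L ⊔ L₀ : IntermediateField ℚ Ω) :=
    IntermediateField.finiteDimensional_sup _ _
  -- `ρbar` of elements which agree on `L₀`
  have heq : ∀ φ : GQ, (∀ x ∈ (L ⊔ L₀ : IntermediateField ℚ Ω), φ x = σ x) →
      rhoBar D.ρ φ = rhoBar D.ρ σ := by
    intro φ hx
    have h2 : rhoBar D.ρ (σ⁻¹ * φ) = 1 := by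
      refine hlev _ fun x hx' => ?_
      change σ⁻¹ (φ x) = x
      rw [hx x ((le_sup_right : L₀ ≤ L ⊔ L₀) hx')]
      change (σ⁻¹ * σ) x = x
      rw [inv_mul_cancel]
      rfl
    have h3 : φ = σ * (σ⁻¹ * φ) := by group
    rw [h3, map_mul, h2, mul_one]
  have hprim : ∀ ℓ : ℕ, ℓ.Prime → ℓ ∉ M.primeFactors → ¬ ℓ ∣ M := fun ℓ hℓ h hd =>
    h (Nat.mem_primeFactors.mpr ⟨hℓ, hd, NeZero.ne M⟩)
  have haug : ∀ x : ℤ, Dih.aug ((x : ℤ) : LamS S) = (x : F4) := fun x => map_intCast _ x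
  by_cases hσ : σ ∈ (KS S).fixingSubgroup
  · haveI := isTotallyComplex_KS hS
    obtain ⟨ℓ, hℓ, hB, P, hP, φ, hφ, hx, hcl⟩ :=
      AR.exists_frobenius_notMem (finrank_KS hS) (fun _ : Unit => chi3 D)
        (fun _ => unr_chi3 D) (L ⊔ L₀) M.primeFactors ⟨σ, hσ⟩
    have hM := hprim ℓ hℓ hB
    have hℓS : ℓ ∉ S := fun h => hM (hSM ℓ h)
    have hφσ := heq φ hx
    have hgℓ : g (tgen M Q ε ⟨ℓ, hℓ⟩ hM) = betaCl D hS (clT (KS S) ℓ) := hg ⟨ℓ, hℓ⟩ hM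
    refine ⟨ℓ, hℓ, hM, P, φ, hP, hφ, fun x hx' => hx x ((le_sup_left : L ≤ L ⊔ L₀) hx'), ?_⟩
    refine mem_maximalIdeal_of_aug ?_
    have htr := trace_frob_rhoE D (PadicInt.toZMod (p := 2)) hℓ hℓS hP hφ
    rw [hgℓ, betaCl_clT_of_mem D hS hℓ hℓS hP hφ φ.2, map_sub, map_add, Dih.aug_single,
      Dih.aug_single, haug]
    by_cases hχ : chi3 D ⟨σ, hσ⟩ = 1
    · have h1 : rhoBar D.ρ σ = 1 := (chi3_eq_one_iff D ⟨σ, hσ⟩).mp hχ
      have h2 : chi3 D φ = 1 := (chi3_eq_one_iff D φ).mpr (hφσ.trans h1)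
      have h3 : psiCl D hS (AR.clsAt (KS S) P) = 1 :=
        (psiCl_eq_one_iff D hS _).mpr (AR.clsAt_mem_Vsub hℓ hP hφ h2)
      have h4 : ((a ℓ : ℤ) : ZMod 2) = 0 := by
        rw [← htr, hφσ, h1]
        decide
      rw [h3, inv_one, Units.val_one, intCast_F4 h4, map_zero, sub_zero]
      exact CharTwo.add_self_eq_zero 1
    · have h3 : psiCl D hS (AR.clsAt (KS S) P) ≠ 1 := fun h =>
        hcl () hχ ((psiCl_eq_one_iff D hS _).mp h)
      have h4 : ((a ℓ : ℤ) : ZMod 2) = 1 := by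
        rw [← htr, hφσ]
        exact (trace_rhoBar_iff D ⟨σ, hσ⟩).mpr hχ
      rw [F4_add_inv h3, intCast_F4 h4, map_one, sub_self]
  · obtain ⟨ℓ, hℓ, hB, P, φ, hP, hφ, hx⟩ :=
      Density.Final.exists_frobenius_eq (L ⊔ L₀) M.primeFactors σ
    have hM := hprim ℓ hℓ hB
    have hℓS : ℓ ∉ S := fun h => hM (hSM ℓ h)
    have hφσ := heq φ hx
    have hgℓ : g (tgen M Q ε ⟨ℓ, hℓ⟩ hM) = betaCl D hS (clT (KS S) ℓ) := hg ⟨ℓ, hℓ⟩ hM
    have hφK : φ ∉ (KS S).fixingSubgroup := by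
      rw [mem_KS_iff D, hφσ, ← mem_KS_iff D]
      exact hσ
    refine ⟨ℓ, hℓ, hM, P, φ, hP, hφ, fun x hx' => hx x ((le_sup_left : L ≤ L ⊔ L₀) hx'), ?_⟩
    refine mem_maximalIdeal_of_aug ?_
    have htr := trace_frob_rhoE D (PadicInt.toZMod (p := 2)) hℓ hℓS hP hφ
    have h4 : ((a ℓ : ℤ) : ZMod 2) = 0 := by
      rw [← htr]
      have h5 : (rhoBar D.ρ φ).trace ≠ 1 := fun h => hφK ((mem_KS_iff D φ).mpr (Or.inr h))
      revert h5
      generalize (rhoBar D.ρ φ).trace = t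
      revert t
      decide
    rw [hgℓ, betaCl_clT_of_notMem D hS hℓ hℓS hP hφ hφK, zero_sub, map_neg, haug, intCast_F4 h4,
      map_zero, neg_zero]

/-- **The hypothesis `hg`** of the local component: `g x ∈ 𝔪 ↔ Even (lam a x)`. -/
theorem mem_iff_even_of_beta (D : GalData S a) (hS : ∀ q ∈ S, q.Prime) (h2S : 2 ∈ S)
    (hSM : ∀ q ∈ S, q ∣ M) (h30 : Fermat.Agent.RT.Datum.S30Statement)
    [IsLocalRing (LamS S)] (g : TT M Q ε →+* LamS S)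
    (hg : ∀ (ℓ : Nat.Primes) (hℓ : ¬ (ℓ : ℕ) ∣ M),
      g (tgen M Q ε ℓ hℓ) = betaCl D hS (clT (KS S) ℓ)) (x : anem M) :
    g (mkTT M Q ε x) - ((lam a x : ℤ) : LamS S) ∈ maximalIdeal (LamS S) ∧
      (g (mkTT M Q ε x) ∈ maximalIdeal (LamS S) ↔ Even (lam a x)) := by
  refine mem_iff_even D h30 (hSM 2 h2S) hSM ?_ g (hdens_of_beta D hS hSM g hg) x
  refine mem_maximalIdeal_of_aug ?_
  rw [map_ofNat]
  exact CharTwo.two_eq_zero

end Fermat.Agent.P2.Sys
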