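import Fermat.Agent.P2.Defs
import Fermat.Agent.CMP.CharExtend
import Fermat.Agent.RT.Components
import Fermat.Agent.IntStr.Main

/-!
# Extension of systems of eigenvalues to the full Hecke ring of `signForms` (P2 block 5b-ii)
-/

set_option autoImplicit false

noncomputable section

open ModularCurve CongruenceSubgroup IsLocalRing

namespace Fermat.Agent.P2.Sys

/-! ### The full Hecke ring -/

variable (M : ℕ) [NeZero M] (Q : Finset ℕ) (ε : ℕ → ℤ)

/-- the ideal of `HeckeAlg` killing `signForms M Q ε` -/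
def annAll : Ideal HeckeAlg where
  carrier := {x | Kills M Q ε x}
  zero_mem' := fun f _ => by
    rw [map_zero, ZeroMemClass.coe_zero, LinearMap.zero_apply]
  add_mem' := fun {x y} hx hy f hf => by
    rw [map_add, AddMemClass.coe_add, LinearMap.add_apply, hx f hf, hy f hf,
      add_zero]
  smul_mem' := fun c x hx f hf => by
    rw [smul_eq_mul, map_mul, MulMemClass.coe_mul, Module.End.mul_apply,
      hx f hf, map_zero]

/-- The full Hecke ring of `signForms`. -/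
abbrev FT : Type := HeckeAlg ⧸ annAll M Q ε

variable {M Q ε}

theorem mem_annAll {x : HeckeAlg} : x ∈ annAll M Q ε ↔ Kills M Q ε x := Iff.rfl

theorem mem_annForms' {x : anem M} : x ∈ annForms M Q ε ↔ Kills M Q ε (x : HeckeAlg) := Iff.rfl

theorem finite_FT : Module.Finite ℤ (FT M Q ε) := by
  have hfin : Module.Finite ℤ (CuspForm.heckeAlgebra M 2 ∅) :=
    IntStr.moduleFinite_heckeAlgebra M 2 ∅
  have hnoeth : IsNoetherian ℤ (CuspForm.heckeAlgebra M 2 ∅) :=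
    isNoetherian_of_isNoetherianRing_of_finite ℤ _
  let φ : HeckeAlg →ₐ[ℤ] CuspForm.heckeAlgebra M 2 ∅ := (CuspForm.heckeEvalForms M 2).toIntAlgHom
  have hR : Module.Finite ℤ φ.range := Module.IsNoetherian.finite ℤ (Subalgebra.toSubmodule φ.range)
  have hker : RingHom.ker φ.rangeRestrict ≤ annAll M Q ε := by
    intro x hx
    have h1 : CuspForm.heckeEvalForms M 2 (x : HeckeAlg) = 0 := congrArg Subtype.val hx
    intro f _
    rw [h1]
    rfl
  let e : φ.range →+* FT M Q ε :=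
    RingHom.liftOfSurjective (φ.rangeRestrict : HeckeAlg →+* φ.range)
      (AlgHom.rangeRestrict_surjective φ) ⟨Ideal.Quotient.mk (annAll M Q ε), fun x hx => by
        rw [RingHom.mem_ker, Ideal.Quotient.eq_zero_iff_mem]
        exact hker hx⟩
  have he : Function.Surjective e := by
    intro y
    obtain ⟨x, rfl⟩ := Ideal.Quotient.mk_surjective y
    refine ⟨φ.rangeRestrict x, ?_⟩
    exact RingHom.liftOfRightInverse_comp_apply _ _ _ _ _
  exact Module.Finite.of_surjective e.toIntAlgHom.toLinearMap he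

/-- the inclusion of the anemic Hecke ring -/
def incl (M : ℕ) [NeZero M] (Q : Finset ℕ) (ε : ℕ → ℤ) :
    (anem M ⧸ annForms M Q ε) →+* FT M Q ε :=
  Ideal.Quotient.lift (annForms M Q ε)
    ((Ideal.Quotient.mk (annAll M Q ε)).comp (anem M).val.toRingHom)
    fun _ hx => Ideal.Quotient.eq_zero_iff_mem.mpr hx

theorem incl_mk (x : anem M) : incl M Q ε (Ideal.Quotient.mk _ x) =
    Ideal.Quotient.mk (annAll M Q ε) (x : HeckeAlg) := rfl

theorem incl_injective : Function.Injective (incl M Q ε) := by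
  rw [injective_iff_map_eq_zero]
  intro y hy
  obtain ⟨x, rfl⟩ := Ideal.Quotient.mk_surjective y
  rw [incl_mk, Ideal.Quotient.eq_zero_iff_mem] at hy
  exact Ideal.Quotient.eq_zero_iff_mem.mpr hy

theorem mk_gen_eq {q : Nat.Primes} (hq : (q : ℕ) ∈ Q) :
    Ideal.Quotient.mk (annAll M Q ε) (heckeGen q) = (ε q : FT M Q ε) := by
  rw [← map_intCast (Ideal.Quotient.mk (annAll M Q ε)), Ideal.Quotient.mk_eq_mk_iff_sub_mem]
  intro f hf
  have h1 := hf.1 q hq
  rw [map_sub, AddSubgroupClass.coe_sub, LinearMap.sub_apply, h1, map_intCast]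
  have h2 : ((ε q : CuspForm.heckeAlgebra M 2 ∅) : Module.End ℂ (CuspForm (Gamma0 M) 2)) =
      (ε q : Module.End ℂ (CuspForm (Gamma0 M) 2)) := rfl
  rw [h2, Module.End.intCast_apply, Int.cast_smul_eq_zsmul, sub_self]

theorem mk_gen_two_sq : (Ideal.Quotient.mk (annAll M Q ε) (heckeGen ⟨2, Nat.prime_two⟩)) ^ 2 = 1 := by
  rw [← map_pow, ← map_one (Ideal.Quotient.mk (annAll M Q ε)), Ideal.Quotient.mk_eq_mk_iff_sub_mem]
  intro f hf
  have h1 := hf.2
  rw [map_sub, AddSubgroupClass.coe_sub, LinearMap.sub_apply, pow_two, h1, map_one]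
  exact sub_self f

/-! ### Extension of characters -/

theorem exists_extend_gen {T F : Type*} [CommRing T] [CommRing F] (i : T →+* F)
    (hi : Function.Injective i) [Module.Finite ℤ F] {K : Type*} [Field K] [IsAlgClosed K]
    (θ : T →+* K) : ∃ χ : F →+* K, ∀ x, χ (i x) = θ x := by
  let _ : Algebra T F := i.toAlgebra
  have hint : Algebra.IsIntegral T F := by
    have : Algebra.IsIntegral ℤ F := Algebra.IsIntegral.of_finite ℤ F
    have : IsScalarTower ℤ T F := IsScalarTower.of_algebraMap_eq' (RingHom.ext_int _ _)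
    exact Algebra.IsIntegral.tower_top ℤ
  obtain ⟨χ₀, hχ₀⟩ := CMP.CharExtend.exists_extend (A := T) (B := F) (K := K) hi θ
  exact ⟨χ₀, RingHom.congr_fun hχ₀⟩

/-- Characters with values in a complete DVR extend, after a finite extension, along injective
homomorphisms into rings finite over `ℤ`. -/
theorem exists_dvr_extend (𝒪 : Type) [CommRing 𝒪] [IsDomain 𝒪] [IsDiscreteValuationRing 𝒪]
    [IsAdicComplete (maximalIdeal 𝒪) 𝒪] [CharZero 𝒪] [Finite (ResidueField 𝒪)]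
    {T F : Type} [CommRing T] [CommRing F] (i : T →+* F) (hi : Function.Injective i)
    [Module.Finite ℤ F] (θ : T →+* 𝒪) :
    ∃ (𝒪' : Type) (_ : CommRing 𝒪') (_ : IsDomain 𝒪') (_ : IsDiscreteValuationRing 𝒪')
      (_ : IsAdicComplete (maximalIdeal 𝒪') 𝒪') (_ : Finite (ResidueField 𝒪'))
      (_ : CharZero 𝒪') (_ : Algebra 𝒪 𝒪') (_ : Module.Finite 𝒪 𝒪') (_ : Module.Free 𝒪 𝒪')
      (_ : IsLocalHom (algebraMap 𝒪 𝒪')),
      Function.Injective (algebraMap 𝒪 𝒪') ∧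
      ∃ χ : F →+* 𝒪', ∀ x, χ (i x) = algebraMap 𝒪 𝒪' (θ x) := by
  let K := AlgebraicClosure (FractionRing 𝒪)
  have hK : Function.Injective (algebraMap 𝒪 K) := by
    rw [IsScalarTower.algebraMap_eq 𝒪 (FractionRing 𝒪) K]
    exact (algebraMap (FractionRing 𝒪) K).injective.comp (IsFractionRing.injective _ _)
  obtain ⟨χ₀, hχ₀⟩ := exists_extend_gen i hi ((algebraMap 𝒪 K).comp θ)
  obtain ⟨s, hs⟩ := Module.Finite.fg_top (R := ℤ) (M := F)
  have hsint : ∀ x ∈ χ₀ '' (s : Set F), IsIntegral 𝒪 x := by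
    rintro _ ⟨b, -, rfl⟩
    obtain ⟨p, hp, hpb⟩ := Algebra.IsIntegral.isIntegral (R := ℤ) b
    refine ⟨p.map (Int.castRingHom 𝒪), hp.map _, ?_⟩
    rw [Polynomial.eval₂_map, RingHom.ext_int ((algebraMap 𝒪 K).comp (Int.castRingHom 𝒪))
      (χ₀.comp (algebraMap ℤ F)), ← Polynomial.hom_eval₂, hpb, map_zero]
  let B : Subalgebra 𝒪 K := Algebra.adjoin 𝒪 (χ₀ '' (s : Set F))
  have hfin : Module.Finite 𝒪 B :=
    ⟨(Submodule.fg_top _).mpr (fg_adjoin_of_finite (s.finite_toSet.image _) hsint)⟩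
  have hmem : ∀ x, χ₀ x ∈ B := by
    intro x
    have hx : x ∈ Submodule.span ℤ (s : Set F) := by rw [hs]; trivial
    induction hx using Submodule.span_induction with
    | mem x hx => exact Algebra.subset_adjoin ⟨x, hx, rfl⟩
    | zero => rw [map_zero]; exact B.zero_mem
    | add x y _ _ hx hy => rw [map_add]; exact B.add_mem hx hy
    | smul c x _ hx => rw [map_zsmul]; exact zsmul_mem hx c
  have hinj : Function.Injective (algebraMap 𝒪 B) := fun x y hxy =>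
    hK (congrArg Subtype.val hxy)
  obtain ⟨𝒪', i1, i2, i3, i4, i5, i6, i7, i8, i9, i10, h1, φ, hφ⟩ :=
    RT.Components.exists_dvr_of_isDomain 𝒪 B hinj
  refine ⟨𝒪', i1, i2, i3, i4, i5, i6, i7, i8, i9, i10, h1, ?_⟩
  let j : F →+* B := χ₀.codRestrict B hmem
  refine ⟨(φ : B →+* 𝒪').comp j, fun x => ?_⟩
  have h2 : j (i x) = algebraMap 𝒪 B (θ x) := Subtype.ext (hχ₀ x)
  rw [RingHom.comp_apply, h2]
  exact φ.commutes (θ x)

/-- the abstract version of `exists_extU` -/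
theorem exists_extU_aux (𝒪 : Type) [CommRing 𝒪] [IsDomain 𝒪] [IsDiscreteValuationRing 𝒪]
    [IsAdicComplete (maximalIdeal 𝒪) 𝒪] [CharZero 𝒪] [Finite (ResidueField 𝒪)]
    {H A T F : Type} [CommRing H] [CommRing A] [CommRing T] [CommRing F]
    (c : A → H) (mT : A → T) (mF : H →+* F) (i : T →+* F) (hi : Function.Injective i)
    (hc : ∀ x, i (mT x) = mF (c x)) (hfin : Module.Finite ℤ F) (θ : T →+* 𝒪)
    (P : H → Prop) (hP : ∀ x, P x → mF x = 0) {ι : Type} (N : ι → Prop) (g : ι → H) (e : ι → ℤ)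
    (he : ∀ q, N q → mF (g q) = (e q : F)) (u : H) (hu : mF u ^ 2 = 1) :
    ∃ (𝒪' : Type) (_ : CommRing 𝒪') (_ : IsDomain 𝒪') (_ : IsDiscreteValuationRing 𝒪')
      (_ : IsAdicComplete (maximalIdeal 𝒪') 𝒪') (_ : Finite (ResidueField 𝒪'))
      (_ : CharZero 𝒪') (_ : Algebra 𝒪 𝒪') (_ : Module.Finite 𝒪 𝒪') (_ : Module.Free 𝒪 𝒪')
      (_ : IsLocalHom (algebraMap 𝒪 𝒪')),
      Function.Injective (algebraMap 𝒪 𝒪') ∧
      ∃ χ : H →+* 𝒪', (∀ x, χ (c x) = algebraMap 𝒪 𝒪' (θ (mT x))) ∧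
        (∀ x, P x → χ x = 0) ∧ (∀ q, N q → χ (g q) = (e q : 𝒪')) ∧ (χ u = 1 ∨ χ u = -1) := by
  obtain ⟨𝒪', i1, i2, i3, i4, i5, i6, i7, i8, i9, i10, h1, χ, hχ⟩ :=
    exists_dvr_extend 𝒪 i hi θ
  refine ⟨𝒪', i1, i2, i3, i4, i5, i6, i7, i8, i9, i10, h1,
    χ.comp mF, fun x => ?_, fun x hx => ?_, fun q hq => ?_, ?_⟩
  · rw [RingHom.comp_apply, ← hc, hχ]
  · rw [RingHom.comp_apply, hP x hx, map_zero]
  · rw [RingHom.comp_apply, he q hq, map_intCast]
  · have h2 := congrArg χ hu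
    rw [map_pow, map_one, pow_two] at h2
    exact mul_self_eq_one_iff.mp h2

/-- the abstract version of `exists_extK` -/
theorem exists_extK_aux {K : Type*} [Field K] [IsAlgClosed K]
    {H A T F : Type} [CommRing H] [CommRing A] [CommRing T] [CommRing F]
    (c : A → H) (mT : A → T) (mF : H →+* F) (i : T →+* F) (hi : Function.Injective i)
    (hc : ∀ x, i (mT x) = mF (c x)) (hfin : Module.Finite ℤ F) (θ : T →+* K)
    (P : H → Prop) (hP : ∀ x, P x → mF x = 0) {ι : Type} (N : ι → Prop) (g : ι → H) (e : ι → ℤ)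
    (he : ∀ q, N q → mF (g q) = (e q : F)) (u : H) (hu : mF u ^ 2 = 1) :
    ∃ χ : H →+* K, (∀ x, χ (c x) = θ (mT x)) ∧
        (∀ x, P x → χ x = 0) ∧ (∀ q, N q → χ (g q) = (e q : K)) ∧ (χ u = 1 ∨ χ u = -1) := by
  obtain ⟨χ, hχ⟩ := exists_extend_gen i hi θ
  refine ⟨χ.comp mF, fun x => ?_, fun x hx => ?_, fun q hq => ?_, ?_⟩
  · rw [RingHom.comp_apply, ← hc, hχ]
  · rw [RingHom.comp_apply, hP x hx, map_zero]
  · rw [RingHom.comp_apply, he q hq, map_intCast]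
  · have h2 := congrArg χ hu
    rw [map_pow, map_one, pow_two] at h2
    exact mul_self_eq_one_iff.mp h2

/-- **Extension of systems.** -/
theorem exists_extU {M : ℕ} [NeZero M] {Q : Finset ℕ} {ε : ℕ → ℤ} (𝒪 : Type) [CommRing 𝒪]
    [IsDomain 𝒪] [IsDiscreteValuationRing 𝒪] [IsAdicComplete (maximalIdeal 𝒪) 𝒪] [CharZero 𝒪]
    [Finite (ResidueField 𝒪)] (θ : (anem M ⧸ annForms M Q ε) →+* 𝒪) :
    ∃ (𝒪' : Type) (_ : CommRing 𝒪') (_ : IsDomain 𝒪') (_ : IsDiscreteValuationRing 𝒪')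
      (_ : IsAdicComplete (maximalIdeal 𝒪') 𝒪') (_ : Finite (ResidueField 𝒪'))
      (_ : CharZero 𝒪') (_ : Algebra 𝒪 𝒪') (_ : Module.Finite 𝒪 𝒪') (_ : Module.Free 𝒪 𝒪')
      (_ : IsLocalHom (algebraMap 𝒪 𝒪')),
      Function.Injective (algebraMap 𝒪 𝒪') ∧
      ∃ χ : HeckeAlg →+* 𝒪', (∀ x : anem M, χ (x : HeckeAlg) =
          algebraMap 𝒪 𝒪' (θ (Ideal.Quotient.mk (annForms M Q ε) x))) ∧
        (∀ x : HeckeAlg, Kills M Q ε x → χ x = 0) ∧
        (∀ q : Nat.Primes, (q : ℕ) ∈ Q → χ (heckeGen q) = (ε q : 𝒪')) ∧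
        (χ (heckeGen ⟨2, Nat.prime_two⟩) = 1 ∨ χ (heckeGen ⟨2, Nat.prime_two⟩) = -1) :=
  exists_extU_aux 𝒪 (fun x : anem M => (x : HeckeAlg)) (Ideal.Quotient.mk (annForms M Q ε))
    (Ideal.Quotient.mk (annAll M Q ε)) (incl M Q ε) incl_injective incl_mk finite_FT θ
    (fun x => Kills M Q ε x) (fun _ hx => Ideal.Quotient.eq_zero_iff_mem.mpr hx)
    (fun q : Nat.Primes => (q : ℕ) ∈ Q) heckeGen (fun q => ε q) (fun _ hq => mk_gen_eq hq)
    (heckeGen ⟨2, Nat.prime_two⟩) mk_gen_two_sq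

/-- The version with values in an algebraically closed field. -/
theorem exists_extK {M : ℕ} [NeZero M] {Q : Finset ℕ} {ε : ℕ → ℤ} {K : Type*} [Field K]
    [IsAlgClosed K] (θ : (anem M ⧸ annForms M Q ε) →+* K) :
    ∃ χ : HeckeAlg →+* K, (∀ x : anem M, χ (x : HeckeAlg) =
          θ (Ideal.Quotient.mk (annForms M Q ε) x)) ∧
        (∀ x : HeckeAlg, Kills M Q ε x → χ x = 0) ∧
        (∀ q : Nat.Primes, (q : ℕ) ∈ Q → χ (heckeGen q) = (ε q : K)) ∧
        (χ (heckeGen ⟨2, Nat.prime_two⟩) = 1 ∨ χ (heckeGen ⟨2, Nat.prime_two⟩) = -1) :=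
  exists_extK_aux (fun x : anem M => (x : HeckeAlg)) (Ideal.Quotient.mk (annForms M Q ε))
    (Ideal.Quotient.mk (annAll M Q ε)) (incl M Q ε) incl_injective incl_mk finite_FT θ
    (fun x => Kills M Q ε x) (fun _ hx => Ideal.Quotient.eq_zero_iff_mem.mpr hx)
    (fun q : Nat.Primes => (q : ℕ) ∈ Q) heckeGen (fun q => ε q) (fun _ hq => mk_gen_eq hq)
    (heckeGen ⟨2, Nat.prime_two⟩) mk_gen_two_sq

end Fermat.Agent.P2.Sys
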