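import Fermat.Agent.P2.Defs
import Fermat.Agent.PseudoRepGal
import Fermat.Agent.FrobCompareDet
import Fermat.Agent.CMP.Density
import Fermat.Agent.P2.RT.Local

/-!
# P2, block 5b-ii: matrix form of a `GaloisRepAdic`
-/

set_option autoImplicit false
set_option linter.overlappingInstances false
set_option linter.style.haveILetI false

open IsLocalRing Polynomial
open scoped TensorProduct

noncomputable section

namespace Fermat.Agent.P2.Sys

open Sel

local notation "Ω" => AlgebraicClosure ℚ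

variable {R : Type} [CommRing R] [IsLocalRing R] (ρ₀ : GaloisRepAdic R)

/-- a basis -/
def bas : Module.Basis (Fin 2) R ρ₀.V := Module.finBasisOfFinrankEq R ρ₀.V ρ₀.finrank_eq

/-- the matrix form -/
def mat : GQ →* Matrix (Fin 2) (Fin 2) R :=
  ((LinearMap.toMatrixAlgEquiv (bas ρ₀)).toRingEquiv.toRingHom.toMonoidHom).comp ρ₀.ρ

theorem mat_apply (g : GQ) : mat ρ₀ g = LinearMap.toMatrixAlgEquiv (bas ρ₀) (ρ₀.ρ g) := rfl

theorem mat_eq_toMatrix (g : GQ) :
    mat ρ₀ g = LinearMap.toMatrix (bas ρ₀) (bas ρ₀) (ρ₀.ρ g) := rfl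

theorem det_mat (g : GQ) : (mat ρ₀ g).det = LinearMap.det (ρ₀.ρ g) := by
  rw [mat_eq_toMatrix, LinearMap.det_toMatrix]

theorem trace_mat (g : GQ) : (mat ρ₀ g).trace = LinearMap.trace R ρ₀.V (ρ₀.ρ g) := by
  rw [LinearMap.trace_eq_matrix_trace R (bas ρ₀), mat_eq_toMatrix]

theorem mat_eq_one {g : GQ} (h : ρ₀.ρ g = 1) : mat ρ₀ g = 1 := by
  rw [mat_apply, h, map_one]

theorem eq_one_of_mat {g : GQ} (h : mat ρ₀ g = 1) : ρ₀.ρ g = 1 := by
  rw [mat_apply] at h
  exact (LinearMap.toMatrixAlgEquiv (bas ρ₀)).injective (by rw [h, map_one])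

theorem mat_sub_one_mem {I : Ideal R} {g : GQ} (h : ∀ v, ρ₀.ρ g v - v ∈ I • (⊤ : Submodule R ρ₀.V))
    (i j : Fin 2) : (mat ρ₀ g - 1) i j ∈ I := by
  have h1 : mat ρ₀ g - 1 = LinearMap.toMatrix (bas ρ₀) (bas ρ₀) (ρ₀.ρ g - 1) := by
    rw [map_sub, mat_eq_toMatrix, LinearMap.toMatrix_one]
  rw [h1, LinearMap.toMatrix_apply, LinearMap.sub_apply, Module.End.one_apply]
  have h2 : ∀ w ∈ I • (⊤ : Submodule R ρ₀.V), (bas ρ₀).repr w i ∈ I := by
    intro w hw
    refine Submodule.smul_induction_on hw ?_ ?_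
    · intro a ha x _
      rw [map_smul, Finsupp.smul_apply, smul_eq_mul]
      exact I.mul_mem_right _ ha
    · intro x y hx hy
      rw [map_add, Finsupp.add_apply]
      exact I.add_mem hx hy
  exact h2 _ (h _)

theorem stRel_mat {P : ValuationSubring Ω} {q : ℕ} {e : R}
    (h : StRel P q e (fun g => LinearMap.det (ρ₀.ρ g)) (fun g => ρ₀.ρ g)) :
    StRel P q e (fun g => (mat ρ₀ g).det) (fun g => mat ρ₀ g) := by
  intro g hg k hk
  have h1 := congrArg (LinearMap.toMatrixAlgEquiv (bas ρ₀)) (h g hg k hk)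
  rw [map_mul, map_sub, map_sub, map_zero, AlgEquiv.commutes, AlgEquiv.commutes] at h1
  simp only [det_mat]
  exact h1

section Adic

variable [IsDomain R] [IsDiscreteValuationRing R]

/-- continuity in matrix form -/
theorem exists_level_mat (h2 : (2 : R) ≠ 0) (k : ℕ) :
    ∃ L : IntermediateField ℚ Ω, FiniteDimensional ℚ L ∧
      ∀ h : GQ, (∀ x ∈ L, h x = x) → ∀ i j, (2 : R) ^ k ∣ (mat ρ₀ h - 1) i j := by
  have hJ : Ideal.span {(2 : R) ^ k} ≠ ⊥ := by
    rw [Ne, Ideal.span_singleton_eq_bot]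
    exact pow_ne_zero _ h2
  obtain ⟨n, hn⟩ := PseudoRep.exists_pow_le hJ
  obtain ⟨L, hL, hL'⟩ := ρ₀.isAdicContinuous n
  refine ⟨L, hL, fun h hh i j => ?_⟩
  have := hn (mat_sub_one_mem ρ₀ (hL' h hh) i j)
  exact Ideal.mem_span_singleton.mp this

omit [IsDomain R] [IsDiscreteValuationRing R] in
theorem exists_level_max :
    ∃ L : IntermediateField ℚ Ω, FiniteDimensional ℚ L ∧
      ∀ h : GQ, (∀ x ∈ L, h x = x) → ∀ i j, (mat ρ₀ h - 1) i j ∈ maximalIdeal R := by
  obtain ⟨L, hL, hL'⟩ := ρ₀.isAdicContinuous 1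
  refine ⟨L, hL, fun h hh i j => ?_⟩
  have := mat_sub_one_mem ρ₀ (hL' h hh) i j
  rwa [pow_one] at this

end Adic

/-- the determinant is the given `2`-adic cyclotomic character -/
theorem det_mat_eq [IsNoetherianRing R] [Algebra ℤ_[2] R] (hdet : ρ₀.DetIsCyclotomic 2)
    {χ : GQ → ℤ_[2]} (hχ : IsCyc2 χ) (g : GQ) : (mat ρ₀ g).det = algebraMap ℤ_[2] R (χ g) := by
  rw [det_mat, ← sub_eq_zero]
  refine FrobCompare.eq_zero_of_forall_mem_pow fun n => ?_
  haveI : NeZero (2 ^ n) := ⟨pow_ne_zero _ two_ne_zero⟩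
  set c : ℕ := ((Cyclotomic.cyc (2 ^ n) g : ZMod (2 ^ n))).val with hc
  have hspec : ∀ μ : Ω, μ ^ 2 ^ n = 1 → g μ = μ ^ c := fun μ hμ => Cyclotomic.cyc_spec (2 ^ n) g hμ
  have h1 := hdet.2 n g c hspec
  obtain ⟨d, hd⟩ := hχ n g c hspec
  have h2 : (2 : R) ∈ maximalIdeal R := by simpa using hdet.1
  have h3 : ((2 ^ n : ℕ) : R) ∈ maximalIdeal R ^ n := by
    push_cast
    exact Ideal.pow_mem_pow h2 n
  have h4 : LinearMap.det (ρ₀.ρ g) - (c : R) ∈ maximalIdeal R ^ n :=
    (Ideal.span_singleton_le_iff_mem _).mpr h3 h1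
  have h5 : algebraMap ℤ_[2] R (χ g) - (c : R) ∈ maximalIdeal R ^ n := by
    have h6 : algebraMap ℤ_[2] R (χ g) - (c : R) = (2 : R) ^ n * algebraMap ℤ_[2] R d := by
      have h := congrArg (algebraMap ℤ_[2] R) hd
      rwa [map_sub, map_natCast, map_mul, map_pow, map_ofNat] at h
    rw [h6]
    exact Ideal.mul_mem_right _ _ (Ideal.pow_mem_pow h2 n)
  have h7 : LinearMap.det (ρ₀.ρ g) - algebraMap ℤ_[2] R (χ g) =
      (LinearMap.det (ρ₀.ρ g) - (c : R)) - (algebraMap ℤ_[2] R (χ g) - (c : R)) := by ring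
  rw [h7]
  exact Ideal.sub_mem _ h4 h5

/-! ## The residual representation -/

theorem residual_trace (g : GQ) :
    LinearMap.trace (ResidueField R) ρ₀.residual.V (ρ₀.residual.ρ g) =
      residue R (mat ρ₀ g).trace := by
  rw [trace_mat]
  exact LinearMap.trace_baseChange (ρ₀.ρ g) (ResidueField R)

variable {ρbar : GQ →* Matrix (Fin 2) (Fin 2) (ZMod 2)}

/-- If the traces are those of `ρbar` (surjective), the residual representation is absolutely
irreducible. -/
theorem residual_isAbsolutelyIrreducible (h2 : (2 : R) ∈ maximalIdeal R)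
    (hs : ∃ s, ρbar s = !![0, 1; 1, 1]) (ht : ∃ t, ρbar t = !![0, 1; 1, 0])
    (htr : ∀ g, residue R (mat ρ₀ g).trace = ((ρbar g).trace.val : ResidueField R)) :
    ρ₀.residual.IsAbsolutelyIrreducible := by
  rw [BN2.isAbsolutelyIrreducible_iff_span]
  obtain ⟨s, hs⟩ := hs
  obtain ⟨t, ht⟩ := ht
  haveI : CharP (ResidueField R) 2 := by
    refine CharTwo.of_one_ne_zero_of_two_eq_zero one_ne_zero ?_
    have : residue R 2 = 0 := (residue_eq_zero_iff _).mpr h2
    rwa [map_ofNat] at this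
  have two : (2 : ResidueField R) = 0 := CharTwo.two_eq_zero
  set W := ρ₀.residual with hW
  set τ : GQ → ResidueField R := fun g => LinearMap.trace (ResidueField R) W.V (W.ρ g) with hτ
  have hτ' : ∀ g, τ g = ((ρbar g).trace.val : ResidueField R) := fun g => by
    rw [← htr, ← residual_trace]
  let v : Fin 4 → Module.End (ResidueField R) W.V := ![1, W.ρ s, W.ρ t, W.ρ (s * t)]
  have hli : LinearIndependent (ResidueField R) v := by
    rw [Fintype.linearIndependent_iff]
    intro c hc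
    have hc' : c 0 • (1 : Module.End (ResidueField R) W.V) + c 1 • W.ρ s + c 2 • W.ρ t +
        c 3 • W.ρ (s * t) = 0 := by
      rw [← hc, Fin.sum_univ_four]
      rfl
    have key : ∀ g, c 0 * τ g + c 1 * τ (s * g) + c 2 * τ (t * g) + c 3 * τ (s * t * g) = 0 := by
      intro g
      have h := congrArg (fun x => LinearMap.trace (ResidueField R) W.V (x * W.ρ g)) hc'
      simp only [add_mul, smul_mul_assoc, one_mul, ← map_mul, map_add, map_smul, smul_eq_mul,
        zero_mul, map_zero] at h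
      exact h
    have val0 : (((0 : ZMod 2).val : ℕ) : ResidueField R) = 0 := by simp
    have val1 : (((1 : ZMod 2).val : ℕ) : ResidueField R) = 1 := by
      rw [ZMod.val_one, Nat.cast_one]
    have T1 : ∀ g, ∀ X : Matrix (Fin 2) (Fin 2) (ZMod 2), ρbar g = X → X.trace = 1 → τ g = 1 := by
      intro g X h1 h2
      rw [hτ', h1, h2, val1]
    have T0 : ∀ g, ∀ X : Matrix (Fin 2) (Fin 2) (ZMod 2), ρbar g = X → X.trace = 0 → τ g = 0 := by
      intro g X h1 h2
      rw [hτ', h1, h2, val0]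
    have a00 : τ 1 = 0 := T0 _ _ (map_one _) (by decide)
    have a10 : τ (s * 1) = 1 := T1 _ _ (by rw [map_mul, map_one, hs]) (by decide)
    have a20 : τ (t * 1) = 0 := T0 _ _ (by rw [map_mul, map_one, ht]) (by decide)
    have a30 : τ (s * t * 1) = 0 := T0 _ _ (by rw [map_mul, map_mul, map_one, hs, ht]) (by decide)
    have a01 : τ s = 1 := T1 _ _ hs (by decide)
    have a11 : τ (s * s) = 1 := T1 _ _ (by rw [map_mul, hs]) (by decide)
    have a21 : τ (t * s) = 0 := T0 _ _ (by rw [map_mul, hs, ht]) (by decide)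
    have a31 : τ (s * t * s) = 0 := T0 _ _ (by rw [map_mul, map_mul, hs, ht]) (by decide)
    have a02 : τ t = 0 := T0 _ _ ht (by decide)
    have a12 : τ (s * t) = 0 := T0 _ _ (by rw [map_mul, hs, ht]) (by decide)
    have a22 : τ (t * t) = 0 := T0 _ _ (by rw [map_mul, ht]) (by decide)
    have a32 : τ (s * t * t) = 1 := T1 _ _ (by rw [map_mul, map_mul, hs, ht]) (by decide)
    have a13 : τ (s * (s * t)) = 0 := T0 _ _ (by rw [map_mul, map_mul, hs, ht]) (by decide)
    have a23 : τ (t * (s * t)) = 1 := T1 _ _ (by rw [map_mul, map_mul, hs, ht]) (by decide)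
    have a33 : τ (s * t * (s * t)) = 0 := T0 _ _ (by rw [map_mul, map_mul, hs, ht]) (by decide)
    have k0 := key 1
    have k1 := key s
    have k2 := key t
    have k3 := key (s * t)
    rw [a00, a10, a20, a30] at k0
    rw [a01, a11, a21, a31] at k1
    rw [a02, a12, a22, a32] at k2
    rw [a12, a13, a23, a33] at k3
    have c1 : c 1 = 0 := by linear_combination k0
    have c0 : c 0 = 0 := by linear_combination k1 - k0
    have c3 : c 3 = 0 := by linear_combination k2
    have c2 : c 2 = 0 := by linear_combination k3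
    intro i
    fin_cases i
    · exact c0
    · exact c1
    · exact c2
    · exact c3
  have hcard : Fintype.card (Fin 4) =
      Module.finrank (ResidueField R) (Module.End (ResidueField R) W.V) := by
    rw [Fintype.card_fin, Module.finrank_linearMap, W.finrank_eq]
  have hspan := hli.span_eq_top_of_card_eq_finrank hcard
  refine top_unique (hspan.ge.trans (Submodule.span_mono ?_))
  rintro _ ⟨i, rfl⟩
  fin_cases i
  · exact ⟨1, map_one _⟩
  · exact ⟨s, rfl⟩
  · exact ⟨t, rfl⟩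
  · exact ⟨s * t, rfl⟩

end Fermat.Agent.P2.Sys
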