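import Fermat.Agent.P2.Sys.Red
import Fermat.Agent.P2.Sys.MatRep
import Fermat.Agent.RT.Datum
import Fermat.Agent.P2.RT.ECurve

/-!
# P2, block 5b-ii: the representation attached to a point of `TT M Q ε`

Main result `exists_comp`: for `θ : TT M Q ε →+* 𝒪'` residually equal to the eigensystem of the
curve (on a Chebotarev-dense set of Frobenius elements) the `2`-adic representation attached to `θ`
has determinant the cyclotomic character and traces congruent to those of `D.ρ`; it is absolutely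
irreducible and ramified at all `q ∈ S` modulo the maximal ideal.
-/

set_option autoImplicit false
set_option linter.overlappingInstances false
set_option linter.style.haveILetI false

open IsLocalRing Polynomial ModularCurve
open scoped TensorProduct

noncomputable section

namespace Fermat.Agent.P2.Sys

open Sel

local notation "Ω" => AlgebraicClosure ℚ

variable {S : Finset ℕ} {a : ℕ → ℤ} (D : GalData S a) {M : ℕ} [NeZero M] {Q : Finset ℕ} {ε : ℕ → ℤ}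
  {𝒪' : Type} [CommRing 𝒪'] (θ : TT M Q ε →+* 𝒪')

/-- the `2`-adic representation of the curve, as matrices -/
abbrev Dmat (g : GQ) : Matrix (Fin 2) (Fin 2) ℤ_[2] := (D.ρ g : Matrix (Fin 2) (Fin 2) ℤ_[2])

/-- `ρ₀` is the representation attached to `θ`. -/
structure IsComp (R : Type) [CommRing R] [IsLocalRing R] [Algebra 𝒪' R] [Algebra ℤ_[2] R]
    (ρ₀ : GaloisRepAdic R) : Prop where
  two_mem : (2 : R) ∈ maximalIdeal R
  charpoly : ∀ (ℓ : Nat.Primes) (hℓ : ¬ (ℓ : ℕ) ∣ M) (P : ValuationSubring Ω),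
    P.LiesOverPrime ℓ → ∀ φ : GQ, P.IsFrobeniusAt φ ℓ →
      LinearMap.charpoly (ρ₀.ρ φ) =
        X ^ 2 - C (algebraMap 𝒪' R (θ (tgen M Q ε ℓ hℓ))) * X + C ((ℓ : ℕ) : R)
  tr : ∀ (ℓ : Nat.Primes) (hℓ : ¬ (ℓ : ℕ) ∣ M) (P : ValuationSubring Ω),
    P.LiesOverPrime ℓ → ∀ φ : GQ, P.IsFrobeniusAt φ ℓ →
      (mat ρ₀ φ).trace = algebraMap 𝒪' R (θ (tgen M Q ε ℓ hℓ))
  unr : ∀ ℓ : ℕ, ℓ.Prime → ¬ ℓ ∣ M → ρ₀.IsUnramifiedAt ℓ
  unr' : ∀ ℓ : ℕ, ℓ.Prime → ¬ ℓ ∣ M → ∀ P : ValuationSubring Ω, P.LiesOverPrime ℓ →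
    ∀ g ∈ P.inertiaSubgroupIn ℚ, mat ρ₀ g = 1
  det : ∀ g, (mat ρ₀ g).det = algebraMap ℤ_[2] R (Dmat D g).det
  res : ∀ g, residue R (mat ρ₀ g).trace =
    ((PadicInt.toZMod (Dmat D g).trace).val : ResidueField R)
  cont : ∀ k : ℕ, ∃ L : IntermediateField ℚ Ω, FiniteDimensional ℚ L ∧
    ∀ h : GQ, (∀ x ∈ L, h x = x) → ∀ i j, (2 : R) ^ k ∣ (mat ρ₀ h - 1) i j
  absIrr : ρ₀.residual.IsAbsolutelyIrreducible
  ram : ∀ q ∈ S, ∀ P : ValuationSubring Ω, P.LiesOverPrime q →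
    ∃ t ∈ P.inertiaSubgroupIn ℚ, ρ₀.residual.ρ t ≠ 1

/-! ## Reduction modulo 2 of the curve -/

theorem trace_rhoBar (g : GQ) : (RT.rhoBar D.ρ g).trace = PadicInt.toZMod (Dmat D g).trace :=
  RT.trace_redRep D.ρ _ g

/-! ## The main theorem -/

section Ram

variable {R : Type} [CommRing R] [IsLocalRing R] {ρ₀ : GaloisRepAdic R}

/-- ramification modulo the maximal ideal follows from the traces -/
theorem exists_residual_ne (h2 : (2 : R) ∈ maximalIdeal R)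
    (hres : ∀ g, residue R (mat ρ₀ g).trace =
      ((PadicInt.toZMod (Dmat D g).trace).val : ResidueField R))
    {t : GQ} (ht : RT.rhoBar D.ρ t ≠ 1) : ρ₀.residual.ρ t ≠ 1 := by
  obtain ⟨k, hk⟩ := RT.exists_trace_ne (RT.rhoBar D.ρ) (RT.exists_rhoBar_s D)
    (RT.exists_rhoBar_t D) ht
  intro hcon
  apply hk
  have h1 := residual_trace ρ₀ (t * k)
  have h2' := residual_trace ρ₀ k
  rw [map_mul, hcon, one_mul, h2', hres, hres] at h1
  haveI : CharP (ResidueField R) 2 := by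
    refine CharTwo.of_one_ne_zero_of_two_eq_zero one_ne_zero ?_
    have : residue R 2 = 0 := (residue_eq_zero_iff _).mpr h2
    rwa [map_ofNat] at this
  rw [← trace_rhoBar, ← trace_rhoBar] at h1
  have h3 : ∀ x y : ZMod 2, ((x.val : ℕ) : ResidueField R) = ((y.val : ℕ) : ResidueField R) →
      y = x := by
    intro x y hxy
    rw [CharP.natCast_eq_natCast (ResidueField R) 2] at hxy
    revert hxy
    revert x y
    decide
  exact h3 _ _ h1

theorem trace_mul_sub_mem {A : Type*} [CommRing A] (I : Ideal A)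
    (X Y : Matrix (Fin 2) (Fin 2) A) (h : ∀ i j, (Y - 1) i j ∈ I) :
    (X * Y).trace - X.trace ∈ I := by
  have e : (X * Y).trace - X.trace = (X * (Y - 1)).trace := by
    rw [Matrix.mul_sub, Matrix.mul_one, Matrix.trace_sub]
  rw [e, Matrix.trace_fin_two, Matrix.mul_apply, Matrix.mul_apply, Fin.sum_univ_two,
    Fin.sum_univ_two]
  exact I.add_mem (I.add_mem (I.mul_mem_left _ (h _ _)) (I.mul_mem_left _ (h _ _)))
    (I.add_mem (I.mul_mem_left _ (h _ _)) (I.mul_mem_left _ (h _ _)))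

theorem intCast_zmod_val {k : Type*} [Ring k] [CharP k 2] (n : ℤ) :
    (((n : ZMod 2).val : ℕ) : k) = (n : k) := by
  rw [ZMod.natCast_val, ZMod.cast_intCast (dvd_refl 2)]

/-- `g` and `φ` agree on `L` -/
theorem fix_of_agree {L : IntermediateField ℚ Ω} {g φ : GQ} (h : ∀ x ∈ L, φ x = g x) :
    ∀ x ∈ L, (g⁻¹ * φ) x = x := by
  intro x hx
  rw [AlgEquiv.mul_apply, h x hx]
  change g.symm (g x) = x
  exact g.symm_apply_apply x

end Ram

section Main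

variable [IsDomain 𝒪'] [IsDiscreteValuationRing 𝒪'] [IsAdicComplete (maximalIdeal 𝒪') 𝒪']
  [Finite (ResidueField 𝒪')] [CharZero 𝒪'] [Algebra ℤ_[2] 𝒪'] [Module.Finite ℤ_[2] 𝒪']

/-- **The component theorem.** -/
theorem exists_comp (h30 : Fermat.Agent.RT.Datum.S30Statement) (hSM : ∀ q ∈ S, q ∣ M)
    (h2S : 2 ∈ S) (h2𝒪 : (2 : 𝒪') ∈ maximalIdeal 𝒪')
    (hres : ∀ (g : GQ) (L : IntermediateField ℚ Ω) [FiniteDimensional ℚ L],
      ∃ (ℓ : Nat.Primes) (hℓ : ¬ (ℓ : ℕ) ∣ M) (P : ValuationSubring Ω) (φ : GQ),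
        P.LiesOverPrime ℓ ∧ P.IsFrobeniusAt φ ℓ ∧ (∀ x ∈ L, φ x = g x) ∧
        residue 𝒪' (θ (tgen M Q ε ℓ hℓ)) = (a ℓ : ResidueField 𝒪')) :
    ∃ (R : Type) (_ : CommRing R) (_ : IsDomain R) (_ : IsDiscreteValuationRing R)
      (_ : IsAdicComplete (maximalIdeal R) R) (_ : Finite (ResidueField R)) (_ : CharZero R)
      (_ : Algebra ℤ_[2] R) (_ : Module.Finite ℤ_[2] R) (_ : Algebra 𝒪' R)
      (_ : IsScalarTower ℤ_[2] 𝒪' R) (_ : Module.Finite 𝒪' R) (_ : IsLocalHom (algebraMap 𝒪' R)),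
      Function.Injective (algebraMap 𝒪' R) ∧ ∃ ρ₀ : GaloisRepAdic R, IsComp D θ R ρ₀ := by
  have h2M : 2 ∣ M := hSM 2 h2S
  have h2p : 2 ∈ M.primeFactors := Nat.mem_primeFactors.mpr ⟨Nat.prime_two, h2M, NeZero.ne M⟩
  have hnot : ∀ ℓ : ℕ, ¬ ℓ ∣ M → ℓ ∉ (↑M.primeFactors : Set ℕ) := fun ℓ hℓ h =>
    hℓ (Nat.dvd_of_mem_primeFactors (Finset.mem_coe.mp h))
  obtain ⟨j, hjT, -⟩ := exists_hom (M := M) (Q := Q) (ε := ε) (S₀ := (↑M.primeFactors : Set ℕ))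
    (fun q hq hqM => Or.inl (Finset.mem_coe.mpr (Nat.mem_primeFactors.mpr ⟨hq, hqM, NeZero.ne M⟩)))
  haveI : Fact (Nat.Prime 2) := ⟨Nat.prime_two⟩
  obtain ⟨R, i1, i2, i3, i4, i5, i6, i7, i8, i9, hinj, ρ₀, hcp, hunr⟩ :=
    h30 2 M M.primeFactors h2p
      (fun q hq hqM => Nat.mem_primeFactors.mpr ⟨hq, hqM, NeZero.ne M⟩) 𝒪'
      (by exact_mod_cast h2𝒪) (θ.comp j)
  letI i10 : Algebra ℤ_[2] R := ((algebraMap 𝒪' R).comp (algebraMap ℤ_[2] 𝒪')).toAlgebra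
  haveI i11 : IsScalarTower ℤ_[2] 𝒪' R := IsScalarTower.of_algebraMap_eq fun x => rfl
  haveI i12 : Module.Finite ℤ_[2] R := Module.Finite.trans 𝒪' R
  have h2R : (2 : R) ∈ maximalIdeal R := by
    have h : algebraMap 𝒪' R 2 ∈ maximalIdeal R := by
      have hle : maximalIdeal 𝒪' ≤ (maximalIdeal R).comap (algebraMap 𝒪' R) :=
        ((local_hom_TFAE (algebraMap 𝒪' R)).out 0 3).mp i9
      exact hle h2𝒪
    rwa [map_ofNat] at h
  have h2ne : (2 : R) ≠ 0 := two_ne_zero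
  have hcp' : ∀ (ℓ : Nat.Primes) (hℓ : ¬ (ℓ : ℕ) ∣ M) (P : ValuationSubring Ω),
      P.LiesOverPrime ℓ → ∀ φ : GQ, P.IsFrobeniusAt φ ℓ →
        LinearMap.charpoly (ρ₀.ρ φ) =
          X ^ 2 - C (algebraMap 𝒪' R (θ (tgen M Q ε ℓ hℓ))) * X + C ((ℓ : ℕ) : R) := by
    intro ℓ hℓ P hP φ hφ
    have h := hcp ℓ ℓ.2 hℓ (hnot _ hℓ) P hP φ hφ
    rw [RingHom.comp_apply, hjT] at h
    exact h
  have htr : ∀ (ℓ : Nat.Primes) (hℓ : ¬ (ℓ : ℕ) ∣ M) (P : ValuationSubring Ω),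
      P.LiesOverPrime ℓ → ∀ φ : GQ, P.IsFrobeniusAt φ ℓ →
        (mat ρ₀ φ).trace = algebraMap 𝒪' R (θ (tgen M Q ε ℓ hℓ)) := by
    intro ℓ hℓ P hP φ hφ
    have h := hcp' ℓ hℓ P hP φ hφ
    rw [BN2.charpoly_eq_of_finrank_two ρ₀.finrank_eq] at h
    have h1 := congrArg (fun p => p.coeff 1) h
    rw [trace_mat]
    simpa [coeff_X, coeff_C] using h1
  have hdetF : ∀ ℓ : ℕ, ℓ.Prime → ℓ ∉ M.primeFactors → ∀ P : ValuationSubring Ω,
      P.LiesOverPrime ℓ → ∀ φ : GQ, P.IsFrobeniusAt φ ℓ → LinearMap.det (ρ₀.ρ φ) = (ℓ : R) := by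
    intro ℓ hℓ hℓM P hP φ hφ
    have hℓM' : ¬ ℓ ∣ M := fun h => hℓM (Nat.mem_primeFactors.mpr ⟨hℓ, h, NeZero.ne M⟩)
    have h := hcp' ⟨ℓ, hℓ⟩ hℓM' P hP φ hφ
    rw [BN2.charpoly_eq_of_finrank_two ρ₀.finrank_eq] at h
    have h1 := congrArg (fun p => p.coeff 0) h
    simpa [coeff_X, coeff_C] using h1
  have hcyc : ρ₀.DetIsCyclotomic 2 :=
    FrobCompare.detIsCyclotomic_of_frob CMP.Density.frobDensity ρ₀ two_ne_zero
      (by exact_mod_cast h2R) M.primeFactors hdetF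
  have hunr1 : ∀ ℓ : ℕ, ℓ.Prime → ¬ ℓ ∣ M → ρ₀.IsUnramifiedAt ℓ := fun ℓ hℓ hℓM =>
    hunr ℓ hℓ hℓM fun h => hℓM (h ▸ h2M)
  -- the traces
  have hresall : ∀ g, residue R (mat ρ₀ g).trace =
      ((PadicInt.toZMod (Dmat D g).trace).val : ResidueField R) := by
    intro g
    obtain ⟨L₁, hL₁, h₁⟩ := exists_level_max ρ₀
    obtain ⟨L₂, hL₂, h₂⟩ := D.cont 1
    obtain ⟨ℓ, hℓ, P, φ, hP, hφ, hag, hθ⟩ := hres g (L₁ ⊔ L₂)
    have hfix := fix_of_agree hag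
    -- `ρ φ = ρ g` modulo the maximal ideal
    have e1 : residue R (mat ρ₀ φ).trace = residue R (mat ρ₀ g).trace := by
      have h3 := h₁ (g⁻¹ * φ) fun x hx => hfix x ((le_sup_left : L₁ ≤ L₁ ⊔ L₂) hx)
      have h4 := trace_mul_sub_mem (maximalIdeal R) (mat ρ₀ g) (mat ρ₀ (g⁻¹ * φ)) h3
      rw [← map_mul, mul_inv_cancel_left] at h4
      rw [← sub_eq_zero, ← map_sub, residue_eq_zero_iff]
      exact h4
    have e2 : PadicInt.toZMod (Dmat D φ).trace = PadicInt.toZMod (Dmat D g).trace := by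
      have h3 := h₂ (g⁻¹ * φ) fun x hx => hfix x ((le_sup_right : L₂ ≤ L₁ ⊔ L₂) hx)
      have h4 := trace_mul_sub_mem (Ideal.span {(2 : ℤ_[2])}) (Dmat D g) (Dmat D (g⁻¹ * φ))
        fun i j => by
          rw [Ideal.mem_span_singleton]
          have := h3 i j
          rwa [pow_one] at this
      have h5 : Dmat D g * Dmat D (g⁻¹ * φ) = Dmat D φ := by
        change ((D.ρ g * D.ρ (g⁻¹ * φ) : GL (Fin 2) ℤ_[2]) : Matrix (Fin 2) (Fin 2) ℤ_[2]) = _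
        rw [← map_mul, mul_inv_cancel_left]
      rw [h5, Ideal.mem_span_singleton] at h4
      rw [← sub_eq_zero, ← map_sub, toZMod_eq_zero_iff]
      exact h4
    haveI : CharP (ResidueField R) 2 := by
      refine CharTwo.of_one_ne_zero_of_two_eq_zero one_ne_zero ?_
      have : residue R 2 = 0 := (residue_eq_zero_iff _).mpr h2R
      rwa [map_ofNat] at this
    have hℓS : (ℓ : ℕ) ∉ S := fun h => hℓ (hSM _ h)
    rw [← e1, ← e2, htr ℓ hℓ P hP φ hφ, D.trace_frob ℓ ℓ.2 hℓS P hP φ hφ, map_intCast,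
      intCast_zmod_val, ← map_intCast (residue R), ← sub_eq_zero, ← map_sub, residue_eq_zero_iff]
    have h6 : θ (tgen M Q ε ℓ hℓ) - (a ℓ : 𝒪') ∈ maximalIdeal 𝒪' := by
      rw [← residue_eq_zero_iff, map_sub, hθ, map_intCast, sub_self]
    have hle : maximalIdeal 𝒪' ≤ (maximalIdeal R).comap (algebraMap 𝒪' R) :=
      ((local_hom_TFAE (algebraMap 𝒪' R)).out 0 3).mp i9
    have h7 := hle h6
    rw [Ideal.mem_comap, map_sub, map_intCast] at h7
    exact h7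
  refine ⟨R, i1, i2, i3, i4, i5, i6, i10, i12, i7, i11, i8, i9, hinj, ρ₀, ?_⟩
  exact
    { two_mem := h2R
      charpoly := hcp'
      tr := htr
      unr := hunr1
      unr' := fun ℓ hℓ hℓM P hP g hg => mat_eq_one ρ₀ (hunr1 ℓ hℓ hℓM P hP g hg)
      det := fun g => det_mat_eq ρ₀ hcyc D.cyc g
      res := hresall
      cont := exists_level_mat ρ₀ h2ne
      absIrr := residual_isAbsolutelyIrreducible ρ₀ h2R (RT.exists_rhoBar_s D)
        (RT.exists_rhoBar_t D) (fun g => by rw [hresall, trace_rhoBar])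
      ram := fun q hq P hP => by
        obtain ⟨t, ht, hne⟩ := RT.ram_rhoBar D hq hP
        exact ⟨t, ht, exists_residual_ne D h2R hresall hne⟩ }

end Main

end Fermat.Agent.P2.Sys
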