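import Fermat.Agent.RT.GroupRing
import Fermat.Agent.P2.Sys.Core
import Fermat.Agent.P2.Sys.FamilyA
import Fermat.Agent.P2.RT.Psi

/-!
# Block 5b-ii: from `TT → F₄[Cl₂]` and the component theorem to the conclusion of `Block5Out`
-/

set_option autoImplicit false

noncomputable section

open IsLocalRing ModularCurve CongruenceSubgroup NumberField

namespace Fermat.Agent.P2.Sys

open Fermat.Agent.P2.RT Fermat.Agent.P2.Sel

local notation "Ω" => AlgebraicClosure ℚ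

section Lam

variable (F C : Type) [Field F] [CharP F 2] [CommGroup C] [Finite C]

/-- `F[C]` as a `ℤ₂`-algebra -/
abbrev algLam : Algebra ℤ_[2] (MonoidAlgebra F C) :=
  ((algebraMap F (MonoidAlgebra F C)).comp
    ((ZMod.castHom (dvd_refl 2) F).comp PadicInt.toZMod)).toAlgebra

variable {F C}

theorem two_eq_zero_lam : (2 : MonoidAlgebra F C) = 0 := by
  have h2F : (2 : F) = 0 := CharTwo.two_eq_zero
  have : algebraMap F (MonoidAlgebra F C) 2 = 0 := by rw [h2F, map_zero]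
  rwa [map_ofNat] at this

theorem isLocalRing_lam (hC : ∃ m : ℕ, ∀ c : C, c ^ 2 ^ m = 1) :
    IsLocalRing (MonoidAlgebra F C) := by
  have hp : IsPGroup 2 C := by
    obtain ⟨m, hm⟩ := hC
    exact fun c => ⟨m, hm c⟩
  have h2F : (2 : F) = 0 := CharTwo.two_eq_zero
  exact Fermat.Agent.RT.GR.isLocalRing_monoidAlgebra (A := F) (Δ := C) (p := 2) hp (by
    rw [Nat.cast_ofNat, h2F]; exact zero_mem _)

theorem isLocalHom_lam :
    letI := algLam F C
    IsLocalHom (algebraMap ℤ_[2] (MonoidAlgebra F C)) := by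
  letI := algLam F C
  refine ⟨fun c hc => ?_⟩
  by_contra hu
  have h1 : c ∈ maximalIdeal ℤ_[2] := hu
  rw [← PadicInt.ker_toZMod, RingHom.mem_ker] at h1
  have h2 : algebraMap ℤ_[2] (MonoidAlgebra F C) c =
      algebraMap F (MonoidAlgebra F C) (ZMod.castHom (dvd_refl 2) F (PadicInt.toZMod c)) := rfl
  rw [h2, h1, map_zero, map_zero] at hc
  exact not_isUnit_zero hc

end Lam

section

variable {S : Finset ℕ} {a : ℕ → ℤ} (D : GalData S a) {Q : Finset ℕ}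
  [NeZero (lev S Q)] {ε : ℕ → ℤ}

/-- The homomorphism `TT → F₄[Cl₂]`. -/
theorem exists_phi {Λ : Type} [CommRing Λ]
    (β : MonoidAlgebra (ZMod 2) (ClassGroup (𝓞 (KS S))) →+* Λ)
    (hk : ∀ x ∈ anem (lev S Q), Kills (lev S Q) Q ε x → β (clHecke (KS S) x) = 0) :
    ∃ g : TT (lev S Q) Q ε →+* Λ, ∀ x : anem (lev S Q),
      g (mkTT (lev S Q) Q ε x) = β (clHecke (KS S) x) := by
  let φ : anem (lev S Q) →+* Λ := (β.comp (clHecke (KS S))).comp
    (anem (lev S Q)).val.toRingHom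
  refine ⟨RingHom.liftOfSurjective (mkTT (lev S Q) Q ε) mkTT_surjective ⟨φ, fun x hx => ?_⟩,
    fun x => RingHom.liftOfRightInverse_comp_apply _ _ _ _ _⟩
  exact hk x x.2 (mkTT_eq_zero.mp hx)

/-- The conclusion of `Block5Out`, from `TT → F₄[Cl₂]` and the component theorem. -/
theorem conclusion_of (hS : ∀ q ∈ S, q.Prime) {n : ℕ} [NeZero n]
    (hQ : ∀ q ∈ Q, AuxPrime D.ρ S n q)
    (hsel : ∀ ξ ∈ Selmer (resRep D.ρ) S Q, ∃ x : Fin 2 → ZMod 2, ξ = cob (resRep D.ρ) x)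
    (hε : ∀ q, ε q = 1 ∨ ε q = -1)
    (g : TT (lev S Q) Q ε →+* LamS S)
    (hgt : ∀ (ℓ : Nat.Primes) (hℓ : ¬ (ℓ : ℕ) ∣ lev S Q),
      g (tgen (lev S Q) Q ε ℓ hℓ) = betaCl D hS (clT (KS S) ℓ))
    [IsLocalRing (LamS S)]
    (hg : ∀ x : anem (lev S Q), g (mkTT (lev S Q) Q ε x) - ((lam a x : ℤ) : LamS S) ∈
      maximalIdeal (LamS S))
    (hcomp : CompStmt D (lev S Q) Q ε) :
    (∀ x ∈ anem (lev S Q), Kills (lev S Q) Q ε x → (2 : ℤ) ^ n ∣ lam a x) ∧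
      Finite (Systems (lev S Q) Q ε a) ∧
      Nat.card (Systems (lev S Q) Q ε a) ≤ Nat.card (Cl2 S) := by
  letI := algLam F4 (Cl2 S)
  haveI := isLocalHom_lam (F := F4) (C := Cl2 S)
  haveI : IsReduced (TT (lev S Q) Q ε) := isReduced_TT
  haveI : Module.Finite ℤ (TT (lev S Q) Q ε) := finite_TT
  haveI : Module.IsTorsionFree ℤ (TT (lev S Q) Q ε) := isTorsionFree_TT
  obtain ⟨A, i1, i2, i3, i4, i5, i6, i7, π, gA, i8, hgA, hπ, huniv⟩ :=
    exists_localComponent ℤ_[2] (TT (lev S Q) Q ε) g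
  have hres : ∀ x : anem (lev S Q),
      π (mkTT (lev S Q) Q ε x) - ((lam a x : ℤ) : A) ∈ maximalIdeal A :=
    res_of_sub π (gA : A →+* LamS S) g hgA hg
  obtain ⟨𝔉, j1, -, R, j2, -, j4, -, j6, j7, j, ρ, hj, H, htr, htf, hcont, hunr, σ, hσ, hσε, hst⟩ :=
    exists_family D π hcomp hres
  have hQp : ∀ q ∈ Q, q.Prime := fun q hq => (hQ q hq).1
  exact core D hS hQ hsel hε (KS S).fixingSubgroup (mem_KS_iff D) (Cl2_pow S) (kappa S)
    (odd_of_kappa S) (psiCl D hS) (AR.clsAt (KS S)) (ar_hyp D hS (S ∪ Q)) g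
    (fun ℓ hℓ P hP φ hφK hφ => by
      rw [hgt]
      exact betaCl_clT_of_mem D hS ℓ.2
        (fun h => hℓ ((prime_dvd_lev hS hQp ℓ.2).mpr (Or.inl h))) hP hφ hφK)
    hg π gA hgA hπ huniv j hj H htf hcont
    (fun ℓ hℓ hℓS hℓQ P hP g hg f => hunr ℓ hℓ
      (fun h => ((prime_dvd_lev hS hQp hℓ).mp h).elim hℓS hℓQ) P hP g hg f)
    σ hσ hσε hst (fun ℓ hℓ P hP φ hφ f => htr f ℓ hℓ P hP φ hφ)

end

end Fermat.Agent.P2.Sys
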