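import Mathlib

/-!
# Lower bound for the rank of the Hecke algebra (P2 block 5b-ii)

`k` a field of characteristic 2 (in the application `F_4`), `H` a finite commutative group killed
by a power of 2, `x(ω, g) = ω [g] + ω⁻¹ [g⁻¹] ∈ k[H]`.  If `ω^(2^m) + ω^(-2^m)` is a unit, then
`[g] ∈ k[x(ω, g)]`.  Hence a ring homomorphism `T → k[H]` whose image contains `x(ω_g, g)` for a set
of generators `g` of `H` forces `#H ≤ rank T` (`T` finite free over a local ring with residue field
`F_2`).
-/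

set_option autoImplicit false

open MonoidAlgebra

namespace Fermat.Agent.P2.Sys

section Ring

variable {R : Type*} [CommRing R] [CharP R 2]

/-- If `X X' = 1`, `x = X + X'`, then `X^(2^k) = x^(2^k-1) X + b` with `b ∈ A`, for any subring `A`
containing `x`. -/
theorem exists_pow_two_pow {A : Subring R} {x X X' : R} (hXX : X * X' = 1) (hx : x = X + X')
    (hxA : x ∈ A) (k : ℕ) : ∃ b ∈ A, X ^ 2 ^ k = x ^ (2 ^ k - 1) * X + b := by
  have h2 : (2 : R) = 0 := CharTwo.two_eq_zero
  have hsq : X ^ 2 = x * X + 1 := by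
    rw [hx]
    linear_combination (-1 : R) * hXX + (X * X' - 1 + 1) * 0 - h2 * 1
  induction k with
  | zero => exact ⟨0, A.zero_mem, by simp⟩
  | succ k ih =>
    obtain ⟨b, hb, h⟩ := ih
    have hk : 1 ≤ 2 ^ k := Nat.one_le_two_pow
    refine ⟨(x ^ (2 ^ k - 1)) ^ 2 + b ^ 2, A.add_mem (A.pow_mem (A.pow_mem hxA _) 2)
      (A.pow_mem hb 2), ?_⟩
    have e : 2 ^ (k + 1) - 1 = (2 ^ k - 1) * 2 + 1 := by
      rw [pow_succ]; omega
    rw [pow_succ 2 k, pow_mul, h, ← pow_succ 2 k, e, pow_succ x, pow_mul x]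
    linear_combination ((x ^ (2 ^ k - 1)) ^ 2) * hsq + (x ^ (2 ^ k - 1) * X * b) * h2

/-- If moreover `X^(2^m) ∈ A` and `x^(2^m)` is invertible in `A`, then `X ∈ A`. -/
theorem mem_of_pow_two_pow {A : Subring R} {x X X' : R} (hXX : X * X' = 1) (hx : x = X + X')
    (hxA : x ∈ A) {m : ℕ} (hc : X ^ 2 ^ m ∈ A) {v : R} (hv : v ∈ A) (hxv : v * x ^ 2 ^ m = 1) :
    X ∈ A := by
  obtain ⟨b, hb, h⟩ := exists_pow_two_pow hXX hx hxA m
  have hk : 1 ≤ 2 ^ m := Nat.one_le_two_pow
  have e : x ^ 2 ^ m = x * x ^ (2 ^ m - 1) := by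
    rw [← pow_succ']; congr 1; omega
  have h1 : X = v * (x * (X ^ 2 ^ m - b)) := by
    rw [e] at hxv
    linear_combination (-X) * hxv + (-(v * x)) * h
  rw [h1]
  exact A.mul_mem hv (A.mul_mem hxA (A.sub_mem hc hb))

end Ring

section GroupAlg

variable {k : Type*} [CommRing k] [CharP k 2] {H : Type*} [CommGroup H]

/-- `x_ω(g) = ω [g] + ω⁻¹ [g⁻¹]`. -/
noncomputable def xel (ω : kˣ) (g : H) : MonoidAlgebra k H :=
  single g (ω : k) + single g⁻¹ ((ω⁻¹ : kˣ) : k)

instance charP_monoidAlgebra : CharP (MonoidAlgebra k H) 2 :=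
  charP_of_injective_algebraMap
    (show Function.Injective (algebraMap k (MonoidAlgebra k H)) from
      MonoidAlgebra.single_right_injective) 2

theorem single_mem_of_xel_mem (A : Subalgebra k (MonoidAlgebra k H)) {ω : kˣ} {g : H} {m : ℕ}
    (hg : g ^ 2 ^ m = 1) (hu : IsUnit ((ω : k) ^ 2 ^ m + ((ω⁻¹ : kˣ) : k) ^ 2 ^ m))
    (hx : xel ω g ∈ A) : single g (1 : k) ∈ A := by
  have hXX : (single g (ω : k) : MonoidAlgebra k H) * single g⁻¹ ((ω⁻¹ : kˣ) : k) = 1 := by
    rw [single_mul_single, mul_inv_cancel, Units.mul_inv]; rfl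
  have hconst : ∀ c : k, (single 1 c : MonoidAlgebra k H) ∈ A := fun c => A.algebraMap_mem c
  have hp : ∀ (a : H) (c : k), a ^ 2 ^ m = 1 →
      (single a c : MonoidAlgebra k H) ^ 2 ^ m = single 1 (c ^ 2 ^ m) := fun a c ha => by
    rw [single_pow, ha]
  obtain ⟨v, hv⟩ := hu.exists_left_inv
  have h1 : single g (ω : k) ∈ A.toSubring := by
    refine mem_of_pow_two_pow (A := A.toSubring) (m := m) hXX rfl hx ?_ (v := single 1 v)
      (hconst v) ?_
    · rw [hp _ _ hg]; exact hconst _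
    · have e : (single g (ω : k) + single g⁻¹ ((ω⁻¹ : kˣ) : k) : MonoidAlgebra k H) ^ 2 ^ m =
          single g (ω : k) ^ 2 ^ m + single g⁻¹ ((ω⁻¹ : kˣ) : k) ^ 2 ^ m :=
        add_pow_char_pow _ _ 2 m
      rw [e, hp _ _ hg, hp _ _ (by rw [inv_pow, hg, inv_one]), ← single_add, single_mul_single,
        one_mul, hv]
      rfl
  have h2 : single g (1 : k) = ((ω⁻¹ : kˣ) : k) • (single g (ω : k) : MonoidAlgebra k H) := by
    rw [smul_single, smul_eq_mul, Units.inv_mul]
  rw [h2]
  exact A.smul_mem h1 _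

/-- The subgroup of those `g` with `[g] ∈ A`. -/
theorem eq_top_of_closure (A : Subalgebra k (MonoidAlgebra k H)) [Finite H] (S : Set H)
    (hS : Subgroup.closure S = ⊤) (h : ∀ g ∈ S, single g (1 : k) ∈ A) : A = ⊤ := by
  have h1 : ∀ g : H, single g (1 : k) ∈ A := by
    intro g
    have hg : g ∈ Subgroup.closure S := by rw [hS]; trivial
    rw [← Subgroup.mem_toSubmonoid, Subgroup.closure_toSubmonoid_of_finite] at hg
    induction hg using Submonoid.closure_induction with
    | mem x hx => exact h x hx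
    | one => exact A.one_mem
    | mul x y _ _ hx hy =>
      have : (single (x * y) (1 : k) : MonoidAlgebra k H) = single x 1 * single y 1 := by
        rw [single_mul_single, one_mul]
      rw [this]
      exact A.mul_mem hx hy
  rw [eq_top_iff]
  rintro f -
  induction f using MonoidAlgebra.induction_on with
  | of g => exact h1 g
  | add a b ha hb => exact A.add_mem ha hb
  | smul r f hf => exact A.smul_mem hf r

end GroupAlg

section Rank

variable {k : Type*} [Field k] [CharP k 2] {H : Type*} [CommGroup H] [Finite H]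

/-- The rank of `T` is at least `#H` if the image of `T → k[H]` spans `k[H]` over `k`. -/
theorem card_le_finrank {𝒪 : Type*} [CommRing 𝒪] [StrongRankCondition 𝒪]
    (h𝒪 : ∀ c : 𝒪, ∃ d, c = 2 * d ∨ c = 2 * d + 1) {T : Type*} [CommRing T] [Algebra 𝒪 T]
    [Module.Finite 𝒪 T] [Module.Free 𝒪 T] (g : T →+* MonoidAlgebra k H)
    (hspan : Submodule.span k (Set.range g) = ⊤) : Nat.card H ≤ Module.finrank 𝒪 T := by
  classical
  have := Fintype.ofFinite H
  let b := Module.Free.chooseBasis 𝒪 T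
  have hle : Submodule.span k (Set.range g) ≤ Submodule.span k (Set.range (g ∘ b)) := by
    rw [Submodule.span_le]
    rintro _ ⟨t, rfl⟩
    rw [← b.sum_repr t, map_sum]
    refine Submodule.sum_mem _ fun i _ => ?_
    have hb : g (b i) ∈ Submodule.span k (Set.range (g ∘ b)) := Submodule.subset_span ⟨i, rfl⟩
    rw [Algebra.smul_def, map_mul]
    obtain ⟨d, hd | hd⟩ := h𝒪 (b.repr t i)
    · rw [hd, map_mul, map_mul, map_ofNat, map_ofNat, CharTwo.two_eq_zero, zero_mul, zero_mul]
      exact Submodule.zero_mem _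
    · rw [hd, map_add, map_add, map_mul, map_mul, map_ofNat, map_ofNat, CharTwo.two_eq_zero,
        zero_mul, map_one, map_one, zero_add, one_mul]
      exact hb
  have htop : Submodule.span k (Set.range (g ∘ b)) = ⊤ := by
    rw [eq_top_iff, ← hspan]; exact hle
  have h1 : Module.finrank k (MonoidAlgebra k H) = Nat.card H := by
    rw [Module.finrank_eq_nat_card_basis (MonoidAlgebra.basis H k)]
  have h2 := finrank_range_le_card (R := k) (g ∘ b)
  rw [Set.finrank, htop, finrank_top, h1] at h2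
  rwa [Module.finrank_eq_card_chooseBasisIndex]

theorem padicInt_two_cases (c : ℤ_[2]) : ∃ d, c = 2 * d ∨ c = 2 * d + 1 := by
  obtain ⟨n, hn, h⟩ := PadicInt.exists_mem_range c
  rw [PadicInt.maximalIdeal_eq_span_p, Ideal.mem_span_singleton] at h
  obtain ⟨d, hd⟩ := h
  have hd' : c = 2 * d + n := by
    push_cast at hd
    linear_combination hd
  refine ⟨d, ?_⟩
  interval_cases n
  · left; rw [hd']; simp
  · right; rw [hd']; simp

/-- **Lower bound.** `A₀ = image of T`; `S` a set of generators of the finite group `H` of exponent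
`2^m`; for each `g ∈ S` the image of `T` contains `x(ω_g, g)`. -/
theorem card_le_finrank_of_xel {𝒪 : Type*} [CommRing 𝒪] [StrongRankCondition 𝒪]
    (h𝒪 : ∀ c : 𝒪, ∃ d, c = 2 * d ∨ c = 2 * d + 1) {T : Type*} [CommRing T] [Algebra 𝒪 T]
    [Module.Finite 𝒪 T] [Module.Free 𝒪 T] (g : T →+* MonoidAlgebra k H) {m : ℕ}
    (hm : ∀ h : H, h ^ 2 ^ m = 1) (S : Set H) (hS : Subgroup.closure S = ⊤)
    (hx : ∀ h ∈ S, ∃ ω : kˣ, (ω : k) ^ 2 ^ m + ((ω⁻¹ : kˣ) : k) ^ 2 ^ m ≠ 0 ∧
      xel ω h ∈ Set.range g) : Nat.card H ≤ Module.finrank 𝒪 T := by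
  refine card_le_finrank h𝒪 g ?_
  let A : Subalgebra k (MonoidAlgebra k H) := Algebra.adjoin k (Set.range g)
  have hA : A = ⊤ := by
    refine eq_top_of_closure A S hS fun h hh => ?_
    obtain ⟨ω, hω, hx⟩ := hx h hh
    exact single_mem_of_xel_mem A (hm h) (isUnit_iff_ne_zero.mpr hω) (Algebra.subset_adjoin hx)
  have hspan : Subalgebra.toSubmodule A = Submodule.span k (Set.range g) := by
    have h1 : Algebra.adjoin k (Set.range g) = Algebra.adjoin k (g.range : Set (MonoidAlgebra k H)) := rfl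
    change Subalgebra.toSubmodule (Algebra.adjoin k (Set.range g)) = _
    rw [Algebra.adjoin_eq_span]
    congr 1
    have h2 : Submonoid.closure (Set.range g) = g.range.toSubmonoid :=
      Submonoid.closure_eq g.range.toSubmonoid
    rw [h2]
    rfl
  rw [← hspan, hA, Algebra.top_toSubmodule]

end Rank

end Fermat.Agent.P2.Sys
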