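import Fermat.Agent.P2.Sys.Lam
import Fermat.Agent.P2.Sys.Dens

/-!
# Block 5: `Block5Out` from the class field homomorphism and the component theorem
-/

set_option autoImplicit false

noncomputable section

open IsLocalRing ModularCurve CongruenceSubgroup NumberField

namespace Fermat.Agent.P2.Sys

open Fermat.Agent.P2.RT Fermat.Agent.P2.Sel

/-- The class field homomorphism kills what kills the forms. -/
def KillStmt : Prop :=
  ∀ (S : Finset ℕ) (a : ℕ → ℤ) (D : GalData S a) (hS : ∀ q ∈ S, q.Prime), 2 ∈ S → Rich S →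
    ∀ (n : ℕ) (Q : Finset ℕ) [NeZero (lev S Q)], 2 ≤ n →
      (∀ q ∈ Q, AuxPrime D.ρ S n q) → (∀ q ∈ Q, 3 < q) →
      ∀ ε : ℕ → ℤ, (∀ q, ε q = 1 ∨ ε q = -1) →
        ∀ x ∈ anem (lev S Q), Kills (lev S Q) Q ε x → betaCl D hS (clHecke (KS S) x) = 0

/-- The component theorem at the levels `lev S Q`. -/
def CompAll : Prop :=
  ∀ (S : Finset ℕ) (a : ℕ → ℤ) (D : GalData S a), (∀ q ∈ S, q.Prime) → 2 ∈ S → Rich S →
    ∀ (n : ℕ) (Q : Finset ℕ) [NeZero (lev S Q)], 2 ≤ n →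
      (∀ q ∈ Q, AuxPrime D.ρ S n q) → (∀ q ∈ Q, 3 < q) →
      ∀ ε : ℕ → ℤ, (∀ q, ε q = 1 ∨ ε q = -1) → CompStmt D (lev S Q) Q ε

theorem block5_of (h30 : Fermat.Agent.RT.Datum.S30Statement) (hkill : KillStmt)
    (hcomp : CompAll) : Block5Out := by
  intro S a D hS h2S hRich
  refine ⟨Nat.card (Cl2 S), fun n Q _ hn hQ hQ3 hsel ε hε => ?_⟩
  haveI : NeZero n := ⟨by omega⟩
  haveI : IsLocalRing (LamS S) := isLocalRing_lam (Cl2_pow S)
  obtain ⟨g, hg⟩ := exists_phi (S := S) (Q := Q) (ε := ε) (betaCl D hS)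
    (hkill S a D hS h2S hRich n Q hn hQ hQ3 ε hε)
  have hgt : ∀ (ℓ : Nat.Primes) (hℓ : ¬ (ℓ : ℕ) ∣ lev S Q),
      g (tgen (lev S Q) Q ε ℓ hℓ) = betaCl D hS (clT (KS S) ℓ) := by
    intro ℓ hℓ
    rw [tgen, hg]
    exact congrArg _ (clHecke_heckeGen (KS S) ℓ)
  have hSM : ∀ q ∈ S, q ∣ lev S Q := fun q hq =>
    (Finset.dvd_prod_of_mem _ hq).trans (Dvd.intro _ rfl)
  exact conclusion_of D hS hQ hsel hε g hgt
    (fun x => (mem_iff_even_of_beta D hS h2S hSM h30 g hgt x).1)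
    (hcomp S a D hS h2S hRich n Q hn hQ hQ3 ε hε)

end Fermat.Agent.P2.Sys
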