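import Fermat.Agent.P2.Sys.LocalRing
import Fermat.Agent.P2.Sys.Red
import Fermat.Agent.RT.Datum
import Fermat.Agent.P2.RT.ECurve

/-!
# The residual system of eigenvalues is the one of the curve (P2 block 5b-ii)

`g : TT M Q ε → Λ` with `Λ` local of residue characteristic two.  If the residual eigenvalues of `g`
are those of the curve for a dense set of Frobenius elements, then they are for **all** primes not
dividing the level (`tgen_sub_mem`), so that `g x ∈ 𝔪 ↔ Even (lam a x)` (`mem_iff_even`).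
-/

set_option autoImplicit false
set_option linter.unusedSectionVars false
set_option linter.style.haveILetI false

noncomputable section

open IsLocalRing ModularCurve CongruenceSubgroup Polynomial

namespace Fermat.Agent.P2.Sys

open Sel

local notation "Ω" => AlgebraicClosure ℚ

section Lift

/-- `k` as a `ℤ₂`-algebra -/
abbrev algK (k : Type) [Field k] [CharP k 2] : Algebra ℤ_[2] k :=
  ((ZMod.castHom dvd_rfl k).comp PadicInt.toZMod).toAlgebra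

theorem isLocalHom_algK (k : Type) [Field k] [CharP k 2] :
    letI := algK k
    IsLocalHom (algebraMap ℤ_[2] k) := by
  letI := algK k
  refine ⟨fun c hc => ?_⟩
  have h1 : algebraMap ℤ_[2] k c = ZMod.castHom dvd_rfl k (PadicInt.toZMod c) := rfl
  rw [h1] at hc
  have h2 : PadicInt.toZMod c ≠ 0 := by
    intro h0
    rw [h0, map_zero] at hc
    exact not_isUnit_zero hc
  by_contra hn
  apply h2
  rw [← RingHom.mem_ker, PadicInt.ker_toZMod]
  exact hn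

/-- **Lifting residual systems of eigenvalues.** -/
theorem exists_lift (T : Type) [CommRing T] [IsReduced T] [Module.Finite ℤ T]
    [Module.IsTorsionFree ℤ T] {k : Type} [Field k] [CharP k 2] (b : T →+* k) :
    ∃ (𝒪' : Type) (_ : CommRing 𝒪') (_ : IsDomain 𝒪') (_ : IsDiscreteValuationRing 𝒪')
      (_ : IsAdicComplete (maximalIdeal 𝒪') 𝒪') (_ : Finite (ResidueField 𝒪'))
      (_ : CharZero 𝒪') (θ : T →+* 𝒪'), (2 : 𝒪') ∈ maximalIdeal 𝒪' ∧
        ∀ x, θ x ∈ maximalIdeal 𝒪' ↔ b x = 0 := by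
  letI := algK k
  haveI := isLocalHom_algK k
  obtain ⟨A, i1, i2, i3, i4, i5, i6, i7, π, gA, i8, hgA, -⟩ := exists_localComponent ℤ_[2] T b
  obtain ⟨P, hP⟩ := Ideal.nonempty_minimalPrimes (I := (⊥ : Ideal A)) (by
    rw [Ne, Ideal.ext_iff]
    push Not
    exact ⟨1, Or.inr ⟨by rw [Ideal.mem_bot]; exact one_ne_zero, trivial⟩⟩)
  haveI hPp : P.IsPrime := hP.1.1
  have hP' : P ∈ minimalPrimes A := hP
  obtain ⟨𝒪', j1, j2, j3, j4, j5, j6, j7, j8, j9, j10, hinj, φ, hφ⟩ :=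
    RT.Components.exists_dvr_of_isPrime ℤ_[2] A P
      (RT.Components.comap_eq_bot_of_mem_minimalPrimes ℤ_[2] A P hP')
  -- `φ` is local
  have hloc : ∀ x : A, x ∈ maximalIdeal A → φ x ∈ maximalIdeal 𝒪' := by
    letI : Algebra (A ⧸ P) 𝒪' :=
      (Ideal.Quotient.lift P (φ : A →+* 𝒪') (fun a ha => by
        rw [← hφ] at ha; exact ha)).toAlgebra
    have hq : ∀ x : A, algebraMap (A ⧸ P) 𝒪' (Ideal.Quotient.mk P x) = φ x := fun x => rfl
    haveI : IsScalarTower ℤ_[2] (A ⧸ P) 𝒪' := IsScalarTower.of_algebraMap_eq fun c => by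
      rw [IsScalarTower.algebraMap_apply ℤ_[2] A (A ⧸ P), Ideal.Quotient.algebraMap_eq, hq]
      exact (φ.commutes c).symm
    haveI : Module.Finite (A ⧸ P) 𝒪' := Module.Finite.of_restrictScalars_finite ℤ_[2] _ _
    have hinj2 : Function.Injective (algebraMap (A ⧸ P) 𝒪') := by
      rw [injective_iff_map_eq_zero]
      intro y hy
      obtain ⟨x, rfl⟩ := Ideal.Quotient.mk_surjective y
      rw [hq] at hy
      rw [Ideal.Quotient.eq_zero_iff_mem, ← hφ]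
      exact hy
    haveI := RT.Components.isLocalHom_of_injective_of_finite hinj2
    intro x hx
    rw [mem_maximalIdeal, mem_nonunits_iff]
    intro hu
    rw [← hq] at hu
    have h1 : IsUnit (Ideal.Quotient.mk P x) := isUnit_of_map_unit (algebraMap (A ⧸ P) 𝒪') _ hu
    haveI : IsLocalHom (Ideal.Quotient.mk P) :=
      IsLocalHom.of_surjective _ Ideal.Quotient.mk_surjective
    exact hx (isUnit_of_map_unit (Ideal.Quotient.mk P) _ h1)
  refine ⟨𝒪', j1, j2, j3, j4, j5, j6, (φ : A →+* 𝒪').comp π, ?_, fun x => ?_⟩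
  · have h1 : (2 : A) ∈ maximalIdeal A := by
      rw [mem_maximalIdeal, mem_nonunits_iff]
      intro hu
      have h2 := hu.map (gA : A →+* k)
      have h3 : (gA : A →+* k) 2 = 0 := by
        rw [map_ofNat]; exact CharTwo.two_eq_zero
      rw [h3] at h2
      exact not_isUnit_zero h2
    have h2 := hloc 2 h1
    rwa [map_ofNat] at h2
  · rw [← hgA]
    constructor
    · intro h
      by_contra hne
      have h1 : IsUnit ((gA : A →+* k) (π x)) := isUnit_iff_ne_zero.mpr hne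
      have h2 : IsUnit (π x) := isUnit_of_map_unit (gA : A →+* k) _ h1
      exact h (h2.map (φ : A →+* 𝒪'))
    · intro h
      refine hloc _ ?_
      rw [mem_maximalIdeal, mem_nonunits_iff]
      intro hu
      have h1 := hu.map (gA : A →+* k)
      have h2 : (gA : A →+* k) (π x) = 0 := h
      rw [h2] at h1
      exact not_isUnit_zero h1

end Lift

section Main

variable {S : Finset ℕ} {a : ℕ → ℤ} {M : ℕ} [NeZero M] {Q : Finset ℕ} {ε : ℕ → ℤ}

/-- congruence of the `a ℓ` for Frobenius elements close to each other -/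
theorem exists_level_parity (D : GalData S a) : ∃ L : IntermediateField ℚ Ω, FiniteDimensional ℚ L ∧
    ∀ (ℓ ℓ' : ℕ), ℓ.Prime → ℓ'.Prime → ℓ ∉ S → ℓ' ∉ S →
      ∀ P P' : ValuationSubring Ω, P.LiesOverPrime ℓ → P'.LiesOverPrime ℓ' →
      ∀ φ φ' : GQ, P.IsFrobeniusAt φ ℓ → P'.IsFrobeniusAt φ' ℓ' →
        (∀ x ∈ L, φ x = φ' x) → (2 : ℤ) ∣ a ℓ - a ℓ' := by
  obtain ⟨L, hL, h⟩ := RT.level_rhoE D 1
  refine ⟨L, hL, fun ℓ ℓ' hℓ hℓ' hS hS' P P' hP hP' φ φ' hφ hφ' hx => ?_⟩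
  have h1 : RT.rhoE D.ρ 1 φ = RT.rhoE D.ρ 1 φ' := by
    have h2 : RT.rhoE D.ρ 1 (φ'⁻¹ * φ) = 1 := by
      refine h _ fun x hx' => ?_
      change φ'⁻¹ (φ x) = x
      rw [hx x hx']
      change (φ'⁻¹ * φ') x = x
      rw [inv_mul_cancel]
      rfl
    have h3 : φ = φ' * (φ'⁻¹ * φ) := by group
    rw [h3, map_mul, h2, mul_one]
  have h2 := congrArg Matrix.trace h1
  rw [RT.trace_frob_rhoE D _ hℓ hS hP hφ, RT.trace_frob_rhoE D _ hℓ' hS' hP' hφ', ← sub_eq_zero,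
    ← Int.cast_sub, ← map_intCast (RT.piE 1), RT.piE_eq_zero_iff, pow_one] at h2
  refine (PadicInt.norm_int_lt_one_iff_dvd (p := 2) _).mp ?_
  rw [PadicInt.norm_lt_one_iff_dvd]
  exact_mod_cast h2

open BN2 in
theorem trace_of_charpoly {R V : Type*} [CommRing R] [Nontrivial R] [AddCommGroup V] [Module R V]
    [Module.Free R V] [Module.Finite R V] (hV : Module.finrank R V = 2) {f : Module.End R V}
    {t n : R} (h : LinearMap.charpoly f = X ^ 2 - C t * X + C n) : LinearMap.trace R V f = t := by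
  rw [charpoly_eq_of_finrank_two hV] at h
  have := congrArg (fun p => p.coeff 1) h
  simpa [coeff_X, coeff_C] using this

/-- **The residual eigenvalues are those of the curve at all primes.** -/
theorem tgen_sub_mem (D : GalData S a) (h30 : RT.Datum.S30Statement) (h2M : 2 ∣ M)
    (hSM : ∀ q ∈ S, q ∣ M) {Λ : Type} [CommRing Λ] [IsLocalRing Λ]
    (h2 : (2 : Λ) ∈ maximalIdeal Λ) (g : TT M Q ε →+* Λ)
    (hdens : ∀ (σ : GQ) (L : IntermediateField ℚ Ω), FiniteDimensional ℚ L →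
      ∃ (ℓ : ℕ) (hℓ : ℓ.Prime) (hM : ¬ ℓ ∣ M) (P : ValuationSubring Ω) (φ : GQ),
        P.LiesOverPrime ℓ ∧ P.IsFrobeniusAt φ ℓ ∧ (∀ x ∈ L, φ x = σ x) ∧
        g (tgen M Q ε ⟨ℓ, hℓ⟩ hM) - (a ℓ : Λ) ∈ maximalIdeal Λ)
    (ℓ : ℕ) (hℓ : ℓ.Prime) (hM : ¬ ℓ ∣ M) :
    g (tgen M Q ε ⟨ℓ, hℓ⟩ hM) - (a ℓ : Λ) ∈ maximalIdeal Λ := by
  haveI := isReduced_TT (M := M) (Q := Q) (ε := ε)
  haveI := finite_TT (M := M) (Q := Q) (ε := ε)
  haveI := isTorsionFree_TT (M := M) (Q := Q) (ε := ε)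
  haveI : CharP (ResidueField Λ) 2 := by
    refine CharTwo.of_one_ne_zero_of_two_eq_zero one_ne_zero ?_
    have h : residue Λ 2 = 0 := (residue_eq_zero_iff _).mpr h2
    rwa [map_ofNat] at h
  obtain ⟨𝒪', i1, i2, i3, i4, i5, i6, θ, h2', hθ⟩ :=
    exists_lift (TT M Q ε) ((residue Λ).comp g)
  obtain ⟨j, hj, -⟩ := exists_hom (M := M) (Q := Q) (ε := ε) (S₀ := (↑M.primeFactors : Set ℕ))
    (fun q hq hqM => Or.inl (Finset.mem_coe.mpr (Nat.mem_primeFactors.mpr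
      ⟨hq, hqM, NeZero.ne M⟩)))
  obtain ⟨𝒪'', k1, k2, k3, k4, k5, k6, k7, k8, k9, hinj, ρ, hρ, -⟩ :=
    h30 2 M M.primeFactors (Nat.mem_primeFactors.mpr ⟨Nat.prime_two, h2M, NeZero.ne M⟩)
      (fun q hq hqM => Nat.mem_primeFactors.mpr ⟨hq, hqM, NeZero.ne M⟩) 𝒪' (by exact_mod_cast h2')
      (θ.comp j)
  -- traces of Frobenius elements
  have htr : ∀ (ℓ : ℕ) (hℓ : ℓ.Prime) (hM : ¬ ℓ ∣ M) (P : ValuationSubring Ω) (φ : GQ),
      P.LiesOverPrime ℓ → P.IsFrobeniusAt φ ℓ →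
      LinearMap.trace 𝒪'' ρ.V (ρ.ρ φ) =
        algebraMap 𝒪' 𝒪'' (θ (tgen M Q ε ⟨ℓ, hℓ⟩ hM)) := by
    intro ℓ hℓ hM P φ hP hφ
    have hS : ℓ ∉ (↑M.primeFactors : Set ℕ) := fun h =>
      hM (Nat.dvd_of_mem_primeFactors (Finset.mem_coe.mp h))
    have h1 := trace_of_charpoly ρ.finrank_eq (hρ ℓ hℓ hM hS P hP φ hφ)
    rw [h1, RingHom.comp_apply, hj ℓ hℓ hM hS]
  have hiff : ∀ (ℓ : ℕ) (hℓ : ℓ.Prime) (hM : ¬ ℓ ∣ M) (P : ValuationSubring Ω) (φ : GQ),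
      P.LiesOverPrime ℓ → P.IsFrobeniusAt φ ℓ →
      (g (tgen M Q ε ⟨ℓ, hℓ⟩ hM) - (a ℓ : Λ) ∈ maximalIdeal Λ ↔
        LinearMap.trace 𝒪'' ρ.V (ρ.ρ φ) - (a ℓ : 𝒪'') ∈ maximalIdeal 𝒪'') := by
    intro ℓ hℓ hM P φ hP hφ
    rw [htr ℓ hℓ hM P φ hP hφ]
    have e1 : algebraMap 𝒪' 𝒪'' (θ (tgen M Q ε ⟨ℓ, hℓ⟩ hM)) - (a ℓ : 𝒪'') =
        algebraMap 𝒪' 𝒪'' (θ (tgen M Q ε ⟨ℓ, hℓ⟩ hM - (a ℓ : TT M Q ε))) := by
      rw [map_sub, map_sub, map_intCast, map_intCast]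
    have e2 : g (tgen M Q ε ⟨ℓ, hℓ⟩ hM) - (a ℓ : Λ) =
        g (tgen M Q ε ⟨ℓ, hℓ⟩ hM - (a ℓ : TT M Q ε)) := by
      rw [map_sub, map_intCast]
    rw [e1, e2, ← residue_eq_zero_iff]
    have h1 : ∀ y : 𝒪', algebraMap 𝒪' 𝒪'' y ∈ maximalIdeal 𝒪'' ↔ y ∈ maximalIdeal 𝒪' := by
      intro y
      rw [mem_maximalIdeal, mem_maximalIdeal, mem_nonunits_iff, mem_nonunits_iff, not_iff_not]
      exact isUnit_map_iff (algebraMap 𝒪' 𝒪'') y
    rw [h1, hθ]
    rfl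
  obtain ⟨L₁, hL₁, hc⟩ := FrobCompare.exists_charpolyConstantOn_of_isAdicContinuous ρ.ρ
    ρ.isAdicContinuous 1 (residue 𝒪'') (by rw [pow_one, IsLocalRing.ker_residue])
  obtain ⟨L₂, hL₂, hpar⟩ := exists_level_parity D
  obtain ⟨P, hP⟩ := FrobExists.exists_liesOverPrime Ω hℓ
  obtain ⟨φ, hφ⟩ := FrobExists.exists_isFrobeniusAt P hℓ hP
  haveI : FiniteDimensional ℚ (L₁ ⊔ L₂ : IntermediateField ℚ Ω) :=
    IntermediateField.finiteDimensional_sup _ _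
  obtain ⟨ℓ', hℓ', hM', P', φ', hP', hφ', hx, hg⟩ := hdens φ (L₁ ⊔ L₂) inferInstance
  rw [hiff ℓ hℓ hM P φ hP hφ]
  rw [hiff ℓ' hℓ' hM' P' φ' hP' hφ'] at hg
  have h3 := BN2.trace_eq_of_charpoly_map_eq ρ.finrank_eq ρ.finrank_eq (residue 𝒪'') (residue 𝒪'')
    _ _ (hc φ φ' fun x hx' => (hx x ((le_sup_left : L₁ ≤ L₁ ⊔ L₂) hx')).symm)
  obtain ⟨c, hcc⟩ := hpar ℓ ℓ' hℓ hℓ' (fun h => hM (hSM ℓ h)) (fun h => hM' (hSM ℓ' h)) P P' hP hP'
    φ φ' hφ hφ' fun x hx' => (hx x ((le_sup_right : L₂ ≤ L₁ ⊔ L₂) hx')).symm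
  have h2'' : (2 : 𝒪'') ∈ maximalIdeal 𝒪'' := by
    have h := map_nonunit (algebraMap 𝒪' 𝒪'') (2 : 𝒪') h2'
    rwa [map_ofNat] at h
  rw [← residue_eq_zero_iff, map_sub, h3, map_intCast]
  rw [← residue_eq_zero_iff, map_sub, map_intCast, sub_eq_zero] at hg
  have h4 : residue 𝒪'' 2 = 0 := (residue_eq_zero_iff _).mpr h2''
  rw [map_ofNat] at h4
  have h5 : ((a ℓ : ℤ) : ResidueField 𝒪'') = a ℓ' := by
    have h6 : a ℓ = a ℓ' + 2 * c := by linarith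
    rw [h6]
    push_cast
    rw [h4, zero_mul, add_zero]
  rw [hg, h5, sub_self]

/-- **The maximal ideal in terms of `lam a`.** -/
theorem mem_iff_even (D : GalData S a) (h30 : RT.Datum.S30Statement) (h2M : 2 ∣ M)
    (hSM : ∀ q ∈ S, q ∣ M) {Λ : Type} [CommRing Λ] [IsLocalRing Λ]
    (h2 : (2 : Λ) ∈ maximalIdeal Λ) (g : TT M Q ε →+* Λ)
    (hdens : ∀ (σ : GQ) (L : IntermediateField ℚ Ω), FiniteDimensional ℚ L →
      ∃ (ℓ : ℕ) (hℓ : ℓ.Prime) (hM : ¬ ℓ ∣ M) (P : ValuationSubring Ω) (φ : GQ),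
        P.LiesOverPrime ℓ ∧ P.IsFrobeniusAt φ ℓ ∧ (∀ x ∈ L, φ x = σ x) ∧
        g (tgen M Q ε ⟨ℓ, hℓ⟩ hM) - (a ℓ : Λ) ∈ maximalIdeal Λ) (x : anem M) :
    g (mkTT M Q ε x) - ((lam a x : ℤ) : Λ) ∈ maximalIdeal Λ ∧
      (g (mkTT M Q ε x) ∈ maximalIdeal Λ ↔ Even (lam a x)) := by
  have h1 : ∀ x : anem M, g (mkTT M Q ε x) - ((lam a x : ℤ) : Λ) ∈ maximalIdeal Λ := by
    rintro ⟨x, hx⟩
    induction hx using Algebra.adjoin_induction with
    | mem x hx =>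
      obtain ⟨ℓ, hℓ, rfl⟩ := hx
      have h := tgen_sub_mem D h30 h2M hSM h2 g hdens ℓ ℓ.2 hℓ
      have e : lam a (heckeGen ℓ) = a ℓ := by
        simp [lam, heckeGen]
      rw [e]
      exact h
    | algebraMap r =>
      have e1 : (⟨algebraMap ℤ HeckeAlg r, Subalgebra.algebraMap_mem _ r⟩ : anem M) =
          (r : anem M) := by
        apply Subtype.ext
        simp
      rw [e1, map_intCast, map_intCast]
      have e2 : lam a ((r : anem M) : HeckeAlg) = r := by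
        have : ((r : anem M) : HeckeAlg) = (r : HeckeAlg) := rfl
        rw [this, map_intCast, Int.cast_id]
      rw [e2, sub_self]
      exact Ideal.zero_mem _
    | add x y hx hy ihx ihy =>
      have e : g (mkTT M Q ε (⟨x, hx⟩ + ⟨y, hy⟩)) - ((lam a (x + y) : ℤ) : Λ) =
          (g (mkTT M Q ε ⟨x, hx⟩) - ((lam a x : ℤ) : Λ)) +
            (g (mkTT M Q ε ⟨y, hy⟩) - ((lam a y : ℤ) : Λ)) := by
        rw [map_add, map_add, map_add]
        push_cast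
        ring
      exact e ▸ Ideal.add_mem _ ihx ihy
    | mul x y hx hy ihx ihy =>
      have e : g (mkTT M Q ε (⟨x, hx⟩ * ⟨y, hy⟩)) - ((lam a (x * y) : ℤ) : Λ) =
          (g (mkTT M Q ε ⟨x, hx⟩) - ((lam a x : ℤ) : Λ)) * g (mkTT M Q ε ⟨y, hy⟩) +
            ((lam a x : ℤ) : Λ) * (g (mkTT M Q ε ⟨y, hy⟩) - ((lam a y : ℤ) : Λ)) := by
        rw [map_mul, map_mul, map_mul]
        push_cast
        ring
      exact e ▸ Ideal.add_mem _ (Ideal.mul_mem_right _ _ ihx) (Ideal.mul_mem_left _ _ ihy)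
  refine ⟨h1 x, ?_⟩
  have h3 : g (mkTT M Q ε x) ∈ maximalIdeal Λ ↔ ((lam a x : ℤ) : Λ) ∈ maximalIdeal Λ := by
    constructor
    · intro h
      have := Ideal.sub_mem _ h (h1 x)
      rwa [sub_sub_cancel] at this
    · intro h
      have := Ideal.add_mem _ (h1 x) h
      rwa [sub_add_cancel] at this
  rw [h3]
  constructor
  · intro h
    by_contra hodd
    rw [Int.not_even_iff_odd] at hodd
    obtain ⟨c, hc⟩ := hodd
    rw [hc] at h
    push_cast at h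
    have h4 : (1 : Λ) ∈ maximalIdeal Λ := by
      have := Ideal.sub_mem _ h (Ideal.mul_mem_right (c : Λ) _ h2)
      rwa [add_sub_cancel_left] at this
    exact (Ideal.ne_top_iff_one _).mp (maximalIdeal.isMaximal Λ).ne_top h4
  · rintro ⟨c, hc⟩
    rw [hc, ← two_mul]
    push_cast
    exact Ideal.mul_mem_right _ _ h2

end Main

end Fermat.Agent.P2.Sys
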